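/-
S36 blocks [L]+[D], final file: **`PowCover.LocalRoots`-shaped local roots at the two kinds of closed
points** of a chart `R` of the level `q² M0` model.

Chart data (`ChartSpread` / `UfdRoot`): `R` noetherian domain over the DVR `O`, `F = Frac R`,
`V i ⊇ R` the vertical valuation rings, `ϖ = π`, `hE` (`FamVal.pow_unif`), `hsep`, `hinc`, `hsat`
(`IsSemiGaussRing.sat`), `hlocV` (`V i = R_{𝔭 i}`).  At a prime `𝔫 ∋ ϖ`, `B = locAt 𝔫`:

* `localRoots_onlyOne` : `𝔫` lies on ONE component `V i₀`; `B` factorial and `B / P_{i₀}` a PID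
  (blocks [R3]/[ONE]/[CUSP]); `h ≡ 1 (ϖ W)` horizontally an `e`-th power  ⟹  local root `τ ≡ 1 (ϖ W)`.
* `localRoots_triple` : `ι = Fin 3`, `𝔫` lies on all three components; `B` factorial and all `B / P_i`
  PIDs (block [R2]); the two cross-ratio relations (`NormGlue.cross_ratio` for `α` and `β`) for every
  root datum of `h`  ⟹  local root `τ ≡ 1 (ϖ W)` of `h ^ (p (p + 2)) / cg ^ e`, `p = q - 1`.
-/
import Mathlib
import Fermat.Agent.S36.Local.UfdRoot
import Fermat.Agent.S36.D.Trivialise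

set_option autoImplicit false

namespace Fermat.Agent.S36.D.ChartRoots

open Fermat.Agent.S36.Local.LocalRoot Fermat.Agent.S36.Local.Spread Fermat.Agent.S36.Local.Glue
  Fermat.Agent.S36.Local.ChartSpread Fermat.Agent.S36.Local.UfdRoot
  Fermat.Agent.S36.D.RootData Fermat.Agent.S36.D.Trivialise
  Fermat.Agent.N4.Cover.Globalize IsLocalRing

universe u

section Dim

variable {B : Type*} [CommRing B] [IsLocalRing B]

/-- If `B / P` is a principal ideal domain, the only primes containing `P` are `P` and `𝔪_B`. -/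
theorem eq_or_eq_maximalIdeal_of_pid (P : Ideal B) [P.IsPrime] [IsPrincipalIdealRing (B ⧸ P)]
    (𝔭 : Ideal B) [h𝔭 : 𝔭.IsPrime] (hP : P ≤ 𝔭) : 𝔭 = P ∨ 𝔭 = maximalIdeal B := by
  set f := Ideal.Quotient.mk P with hf
  have hsurj : Function.Surjective f := Ideal.Quotient.mk_surjective
  have hker : RingHom.ker f ≤ 𝔭 := by rw [hf, Ideal.mk_ker]; exact hP
  have hmapprime : (𝔭.map f).IsPrime := Ideal.map_isPrime_of_surjective hsurj hker
  have hcomap : (𝔭.map f).comap f = 𝔭 := by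
    rw [Ideal.comap_map_of_surjective f hsurj, ← RingHom.ker_eq_comap_bot]
    exact sup_eq_left.2 hker
  by_cases h0 : 𝔭.map f = ⊥
  · left
    refine le_antisymm ?_ hP
    intro x hx
    have : f x ∈ 𝔭.map f := Ideal.mem_map_of_mem f hx
    rw [h0, Ideal.mem_bot, hf, Ideal.Quotient.eq_zero_iff_mem] at this
    exact this
  · right
    have hmax : (𝔭.map f).IsMaximal := IsPrime.to_maximal_ideal h0
    have : ((𝔭.map f).comap f).IsMaximal := Ideal.comap_isMaximal_of_surjective f hsurj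
    rw [hcomap] at this
    exact IsLocalRing.eq_maximalIdeal this

end Dim

section Chart

variable {O K₀ : Type*} [CommRing O] [IsDomain O] [IsDiscreteValuationRing O]
  [Field K₀] [Algebra O K₀] [IsFractionRing O K₀]
variable {R : Type*} [CommRing R] [IsDomain R] [IsNoetherianRing R] [Algebra O R]
variable {F : Type u} [Field F] [Algebra R F] [IsFractionRing R F] [Algebra O F] [Algebra K₀ F]
  [IsScalarTower O R F] [IsScalarTower O K₀ F]
variable {ι : Type*} [Fintype ι]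
variable (V : ι → ValuationSubring F) (hV : ∀ i (r : R), algebraMap R F r ∈ V i)

/-- The hypotheses on a chart `R` and the family of vertical valuation rings. -/
structure ChartHyp (π : O) (E : ℕ) : Prop where
  irr : Irreducible π
  ne : algebraMap O R π ≠ 0
  mem : ∀ i, algebraMap R F (algebraMap O R π) ∈ (V i).nonunits
  pow : ∀ i, ∀ x ∈ (V i).nonunits, Cong (V i) (algebraMap R F (algebraMap O R π)) (x ^ E)
  sep : ∀ i (z : F), z ≠ 0 → ∃ n : ℕ, algebraMap R F (algebraMap O R π) ^ n * z⁻¹ ∈ V i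
  inc : ∀ i j, i ≠ j → ¬ centre (V i) (hV i) ≤ centre (V j) (hV j)
  sat : ∀ r : R, (∀ i, Cong (V i) (algebraMap R F (algebraMap O R π)) (algebraMap R F r)) →
    algebraMap O R π ∣ r
  loc : ∀ i, ∀ z ∈ V i, ∃ a b : R, b ∉ centre (V i) (hV i) ∧
    z * algebraMap R F b = algebraMap R F a

variable {V hV}

omit [IsDomain O] [IsDiscreteValuationRing O] [IsNoetherianRing R] [Algebra O F]
  [IsScalarTower O R F] [Fintype ι] in
/-- `V i` is the localisation of `locAt 𝔫` at its centre. -/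
theorem ChartHyp.loc_locAt {π : O} {E : ℕ} (H : ChartHyp V hV π E) (𝔫 : Ideal R) [𝔫.IsPrime]
    (i : ι) (hi : centre (V i) (hV i) ≤ 𝔫) :
    ∀ z ∈ V i, ∃ a b : locAt (F := F) 𝔫,
      b ∉ centre (V i) (fun b => locAt_le 𝔫 (V i) (hV i) hi b) ∧
      z * algebraMap (locAt (F := F) 𝔫) F b = algebraMap (locAt (F := F) 𝔫) F a := by
  intro z hz
  obtain ⟨a, b, hb, hab⟩ := H.loc i z hz
  exact ⟨algebraMap R (locAt (F := F) 𝔫) a, algebraMap R (locAt (F := F) 𝔫) b, hb, hab⟩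

omit [IsDomain O] [IsDiscreteValuationRing O] [IsDomain R] [IsNoetherianRing R]
  [IsFractionRing R F] [Algebra O F] [IsScalarTower O R F] [Fintype ι] in
theorem ChartHyp.unit_of_cong {π : O} {E : ℕ} (H : ChartHyp V hV π E) {h : F}
    (hh1 : ∀ i, Cong (V i) (algebraMap R F (algebraMap O R π)) (h - 1)) (i : ι) :
    h - 1 ∈ (V i).nonunits := cong_mem_nonunits (H.mem i) (hh1 i)

/-- **Local roots at a closed point lying on exactly one vertical component.** -/
theorem localRoots_onlyOne {π : O} {E : ℕ} (H : ChartHyp V hV π E)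
    (𝔫 : Ideal R) [𝔫.IsPrime] (i₀ : ι) (hi₀ : centre (V i₀) (hV i₀) ≤ 𝔫)
    (honly : ∀ j, j ≠ i₀ → ¬ centre (V j) (hV j) ≤ 𝔫)
    [UniqueFactorizationMonoid (locAt (F := F) 𝔫)]
    (hPID : IsPrincipalIdealRing (locAt (F := F) 𝔫 ⧸
      centre (V i₀) (fun b => locAt_le 𝔫 (V i₀) (hV i₀) hi₀ b)))
    {e : ℕ} (he : IsUnit ((e : ℕ) : R)) {h : F}
    (hh1 : ∀ i, Cong (V i) (algebraMap R F (algebraMap O R π)) (h - 1))
    (hhor : Horizontal K₀ e h) :
    ∃ τ : F, τ ≠ 0 ∧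
      (∃ a r : R, a ∉ 𝔫 ∧ r ∉ 𝔫 ∧ h * algebraMap R F a = τ ^ e * algebraMap R F r) ∧
      ∃ w : F, (∀ i, w ∈ V i) ∧ τ - 1 = algebraMap R F (algebraMap O R π) * w := by
  classical
  have hloc : IsLocalRing (locAt (F := F) 𝔫) := isLocalRing_locAt 𝔫
  have he0 : e ≠ 0 := by
    rintro rfl
    rw [Nat.cast_zero] at he
    exact not_isUnit_zero he
  have hf1 : ∀ i, h - 1 ∈ (V i).nonunits := H.unit_of_cong hh1
  have hunits : ∀ i, h ≠ 0 ∧ h ∈ V i ∧ h⁻¹ ∈ V i := fun i =>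
    mem_and_inv_mem_of_sub_one (V i) (hf1 i)
  obtain ⟨u, η, hη0, hh⟩ := exists_root_locAt (K₀ := K₀) V hV H.irr H.ne H.mem H.pow H.inc H.sat
    H.loc 𝔫 i₀ hi₀ (Nat.pos_of_ne_zero he0) (hunits i₀).1 hhor (fun i => (hunits i).2)
  -- `η` is a unit of `V i₀`
  have hVB : ∀ b : locAt (F := F) 𝔫, algebraMap (locAt (F := F) 𝔫) F b ∈ V i₀ :=
    fun b => locAt_le 𝔫 (V i₀) (hV i₀) hi₀ b
  have hu0 : algebraMap (locAt (F := F) 𝔫) F (u : locAt (F := F) 𝔫) ≠ 0 :=
    algebraMap_ne_zero_of_isUnit u.isUnit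
  have hηe : η ^ e = h * (algebraMap (locAt (F := F) 𝔫) F (u : locAt (F := F) 𝔫))⁻¹ := by
    rw [hh]; field_simp
  have hηV : η ∈ V i₀ := by
    have h2 : η ^ e ∈ V i₀ := by
      rw [hηe]; exact mul_mem (hunits i₀).2.1 (inv_algebraMap_mem (V i₀) hVB u.isUnit)
    have h3 : (η ^ e)⁻¹ ∈ V i₀ := by
      rw [hηe, mul_inv, inv_inv]; exact mul_mem (hunits i₀).2.2 (hVB _)
    exact (mem_and_inv_mem_of_pow (V i₀) he0 h2 h3).1
  have := hPID
  obtain ⟨ρ, hρ⟩ := exists_lift_unit (V i₀) hVB (H.loc_locAt 𝔫 i₀ hi₀) (Nat.pos_of_ne_zero he0)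
    u.isUnit hηV (by rw [← hh]; exact hf1 i₀)
  -- the local root on the single branch
  have heB : IsUnit ((e : ℕ) : locAt (F := F) 𝔫) := by
    have := he.map (algebraMap R (locAt (F := F) 𝔫))
    rwa [map_natCast] at this
  have hN : maximalIdeal (locAt (F := F) 𝔫) ^ 0 ≤
      ⨆ i : Unit, others (fun _ : Unit => centre (V i₀) hVB) i := by
    refine le_trans le_top (le_iSup_of_le () ?_)
    intro x _
    rw [mem_others]
    intro j hj
    exact absurd (Subsingleton.elim j ()) hj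
  obtain ⟨τ, u', hτ0, hu', hh', hτ⟩ := exists_tau (fun _ : Unit => V i₀) (fun _ => hVB) hN heB
    u.isUnit hh (fun _ => hf1 i₀) (fun _ => ρ) (fun _ => hρ) (fun _ _ => by
      rw [sub_self]; exact zero_mem _)
  refine localRoot_of_tau V hV (algebraMap O R π) H.ne H.mem H.pow H.sep H.inc H.sat 𝔫 i₀ hi₀ he
    hh1 hu' hh' ?_
  intro i hi
  by_cases hii : i = i₀
  · subst hii; exact hτ ()
  · exact absurd hi (honly i hii)

end Chart

section Triple

variable {O K₀ : Type*} [CommRing O] [IsDomain O] [IsDiscreteValuationRing O]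
  [Field K₀] [Algebra O K₀] [IsFractionRing O K₀]
variable {R : Type*} [CommRing R] [IsDomain R] [IsNoetherianRing R] [Algebra O R]
variable {F : Type u} [Field F] [Algebra R F] [IsFractionRing R F] [Algebra O F] [Algebra K₀ F]
  [IsScalarTower O R F] [IsScalarTower O K₀ F]
variable {V : Fin 3 → ValuationSubring F} {hV : ∀ i (r : R), algebraMap R F r ∈ V i}

/-- **Local roots at a triple point.**  `hrel` = the two cross-ratio relations of
`NormGlue.cross_ratio` (for `α` and `β`) for every root datum of `h` at `locAt 𝔫`. -/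
theorem localRoots_triple {π : O} {E : ℕ} (H : ChartHyp V hV π E)
    (𝔫 : Ideal R) [𝔫.IsPrime] (htriple : ∀ i, centre (V i) (hV i) ≤ 𝔫)
    [UniqueFactorizationMonoid (locAt (F := F) 𝔫)]
    (hPID : ∀ i, IsPrincipalIdealRing (locAt (F := F) 𝔫 ⧸
      centre (V i) (fun b => locAt_le 𝔫 (V i) (hV i) (htriple i) b)))
    {e : ℕ} (he : IsUnit ((e : ℕ) : R)) {h : F}
    (hh1 : ∀ i, h - 1 ∈ (V i).nonunits) (hhor : Horizontal K₀ e h)
    {p : ℕ} (S T S' T' : (locAt (F := F) 𝔫)ˣ)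
    (hrel : ∀ D : RootDatum (locAt (F := F) 𝔫) V e h,
      ¬ IsUnit ((T : locAt (F := F) 𝔫) * D.y 0 * D.y 1 ^ p -
        (S : locAt (F := F) 𝔫) * D.y 2 ^ (p + 1)) ∧
      ¬ IsUnit ((S' : locAt (F := F) 𝔫) * D.y 2 * D.y 1 ^ p -
        (T' : locAt (F := F) 𝔫) * D.y 0 ^ (p + 1)))
    (cg : F)
    (hcg : ∀ i, cg - algebraMap (locAt (F := F) 𝔫) F (constXi p S T S' T' i : locAt (F := F) 𝔫) ∈
      (V i).nonunits)
    (hh2 : ∀ i, Cong (V i) (algebraMap R F (algebraMap O R π))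
      (h ^ (p * (p + 2)) / cg ^ e - 1)) :
    ∃ τ : F, τ ≠ 0 ∧
      (∃ a r : R, a ∉ 𝔫 ∧ r ∉ 𝔫 ∧
        h ^ (p * (p + 2)) / cg ^ e * algebraMap R F a = τ ^ e * algebraMap R F r) ∧
      ∃ w : F, (∀ i, w ∈ V i) ∧ τ - 1 = algebraMap R F (algebraMap O R π) * w := by
  classical
  have hloc : IsLocalRing (locAt (F := F) 𝔫) := isLocalRing_locAt 𝔫
  have hnoeth : IsNoetherianRing (locAt (F := F) 𝔫) := isNoetherianRing_locAt 𝔫
  have he0 : e ≠ 0 := by
    rintro rfl
    rw [Nat.cast_zero] at he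
    exact not_isUnit_zero he
  have hunits : ∀ i, h ≠ 0 ∧ h ∈ V i ∧ h⁻¹ ∈ V i := fun i =>
    mem_and_inv_mem_of_sub_one (V i) (hh1 i)
  obtain ⟨u, η, hη0, hh⟩ := exists_root_locAt (K₀ := K₀) V hV H.irr H.ne H.mem H.pow H.inc H.sat
    H.loc 𝔫 0 (htriple 0) (Nat.pos_of_ne_zero he0) (hunits 0).1 hhor (fun i => (hunits i).2)
  have hVB : ∀ i (b : locAt (F := F) 𝔫), algebraMap (locAt (F := F) 𝔫) F b ∈ V i :=
    fun i b => locAt_le 𝔫 (V i) (hV i) (htriple i) b
  have hu0 : algebraMap (locAt (F := F) 𝔫) F (u : locAt (F := F) 𝔫) ≠ 0 :=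
    algebraMap_ne_zero_of_isUnit u.isUnit
  have hηe : η ^ e = h * (algebraMap (locAt (F := F) 𝔫) F (u : locAt (F := F) 𝔫))⁻¹ := by
    rw [hh]; field_simp
  have hηV : ∀ i, η ∈ V i := by
    intro i
    have h2 : η ^ e ∈ V i := by
      rw [hηe]; exact mul_mem (hunits i).2.1 (inv_algebraMap_mem (V i) (hVB i) u.isUnit)
    have h3 : (η ^ e)⁻¹ ∈ V i := by
      rw [hηe, mul_inv, inv_inv]; exact mul_mem (hunits i).2.2 (hVB i _)
    exact (mem_and_inv_mem_of_pow (V i) he0 h2 h3).1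
  -- representatives on the three branches
  have hlift : ∀ i, ∃ ρ : locAt (F := F) 𝔫,
      η - algebraMap (locAt (F := F) 𝔫) F ρ ∈ (V i).nonunits := by
    intro i
    have := hPID i
    exact exists_lift_unit (V i) (hVB i) (H.loc_locAt 𝔫 i (htriple i)) (Nat.pos_of_ne_zero he0)
      u.isUnit (hηV i) (by rw [← hh]; exact hh1 i)
  choose y hy using hlift
  let D : RootDatum (locAt (F := F) 𝔫) V e h :=
    { η := η, u := u, y := y, hu := u.isUnit, hh := hh, hy := hy }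
  -- the exponent `N`
  have hdim : ∀ i (𝔭 : Ideal (locAt (F := F) 𝔫)), 𝔭.IsPrime → centre (V i) (hVB i) ≤ 𝔭 →
      𝔭 = centre (V i) (hVB i) ∨ 𝔭 = maximalIdeal (locAt (F := F) 𝔫) := by
    intro i 𝔭 h𝔭 hle
    have := hPID i
    exact eq_or_eq_maximalIdeal_of_pid _ 𝔭 hle
  have hincB : ∀ i j, i ≠ j → ¬ centre (V i) (hVB i) ≤ centre (V j) (hVB j) := by
    intro i j hij hle
    refine H.inc i j hij fun r hr => ?_
    have : algebraMap R (locAt (F := F) 𝔫) r ∈ centre (V i) (hVB i) := hr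
    exact hle this
  obtain ⟨N, hN⟩ := exists_pow_le (fun i => centre (V i) (hVB i)) hdim hincB
  have heB : IsUnit ((e : ℕ) : locAt (F := F) 𝔫) := by
    have := he.map (algebraMap R (locAt (F := F) 𝔫))
    rwa [map_natCast] at this
  obtain ⟨hα, hβ⟩ := hrel D
  have hα' := (mem_maximalIdeal _).2 (mem_nonunits_iff.2 hα)
  have hβ' := (mem_maximalIdeal _).2 (mem_nonunits_iff.2 hβ)
  obtain ⟨τ, u', hτ0, hu', hh', hτ⟩ := exists_tau_triple V hVB hN heB D hh1 S T S' T' hα' hβ' cg hcg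
    (fun i => cong_mem_nonunits (H.mem i) (hh2 i))
  exact localRoot_of_tau V hV (algebraMap O R π) H.ne H.mem H.pow H.sep H.inc H.sat 𝔫 0
    (htriple 0) he hh2 hu' hh' (fun i _ => hτ i)

end Triple

end Fermat.Agent.S36.D.ChartRoots
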