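/-
S36 block [D] (norm compatibility of the gluing data), file 1: **root data at a closed point**.

`B` a local ring inside a field `F`, `V i` valuation subrings of `F` containing `B` (the branches of the
special fibre through the closed point).  A *root datum* of exponent `e` for `h ∈ F` is
`h = u η ^ e` with `u ∈ Bˣ`, together with representatives `y i ∈ B` of `η` modulo `𝔪_{V i}`.
The vector `(y i mod 𝔪_B)_i` up to a common factor is the GLUING DATUM of `h` at the point.

* `RootData.pow`, `RootData.divConst` : root data of `h ^ m` and of `h / c ^ e` (`c ≡ ξ i` on `V i`).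
* `RootData.compare` : (`B` integrally closed, `F = Frac B`) two root data of the same `h` differ by a
  unit `ε` of `B`: `y' i ≡ ε y i` modulo the centre of `V i`; hence `cross_mem`: the cross ratios agree
  modulo `𝔪_B`.
* `RootData.exists_tau` : trivial gluing datum ⟹ a local root `τ ≡ 1` on all branches
  (`LocalRoot.exists_tau`).
-/
import Mathlib
import Fermat.Agent.S36.Local.LocalRoot

set_option autoImplicit false

namespace Fermat.Agent.S36.D.RootData

open Fermat.Agent.S36.Local.LocalRoot Fermat.Agent.S36.Local.Glue IsLocalRing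

variable {B F : Type*} [CommRing B] [Field F] [Algebra B F] {ι : Type*}

/-- A root datum of exponent `e` for `h` at `B`, along the branches `V i`. -/
structure RootDatum (B : Type*) [CommRing B] {F : Type*} [Field F] [Algebra B F] {ι : Type*}
    (V : ι → ValuationSubring F) (e : ℕ) (h : F) where
  /-- the local root -/
  η : F
  /-- the unit -/
  u : B
  /-- representatives of the local root on the branches -/
  y : ι → B
  hu : IsUnit u
  hh : h = algebraMap B F u * η ^ e
  hy : ∀ i, η - algebraMap B F (y i) ∈ (V i).nonunits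

namespace RootDatum

variable {V : ι → ValuationSubring F} {e : ℕ} {h : F}

theorem eta_mem (D : RootDatum B V e h) (hV : ∀ i (b : B), algebraMap B F b ∈ V i) (i : ι) :
    D.η ∈ V i := by
  have : D.η = (D.η - algebraMap B F (D.y i)) + algebraMap B F (D.y i) := by ring
  rw [this]
  exact add_mem (nu_mem (V i) (D.hy i)) (hV i _)

/-- The representatives are units of `B` (if `h ≡ 1` on the branch). -/
theorem isUnit_y [IsLocalRing B] (D : RootDatum B V e h)
    (hV : ∀ i (b : B), algebraMap B F b ∈ V i) (he : e ≠ 0) (i : ι)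
    (hf1 : h - 1 ∈ (V i).nonunits) : IsUnit (D.y i) := by
  have h1 : D.u * D.y i ^ e - 1 ∈ centre (V i) (hV i) := by
    rw [mem_centre]
    have : algebraMap B F (D.u * D.y i ^ e - 1) =
        (h - 1) - algebraMap B F D.u * (D.η ^ e - algebraMap B F (D.y i) ^ e) := by
      rw [map_sub, map_mul, map_pow, map_one]
      linear_combination (-1 : F) * D.hh
    rw [this]
    exact sub_mem hf1 (nu_mul (V i) (hV i _)
      (pow_sub_pow_mem_nu (V i) (D.eta_mem hV i) (hV i _) (D.hy i) e))
  have h2 : IsUnit (D.u * D.y i ^ e) :=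
    isUnit_of_sub_one_mem (centre_le_maximalIdeal _ _ h1)
  exact (isUnit_pow_iff he).1 (isUnit_of_mul_isUnit_right h2)

/-- Root datum of a power. -/
def pow (D : RootDatum B V e h) (hV : ∀ i (b : B), algebraMap B F b ∈ V i) (m : ℕ) :
    RootDatum B V e (h ^ m) where
  η := D.η ^ m
  u := D.u ^ m
  y := fun i => D.y i ^ m
  hu := D.hu.pow m
  hh := by
    conv_lhs => rw [D.hh]
    rw [map_pow, mul_pow, ← pow_mul, ← pow_mul, mul_comm e m]
  hy := fun i => by
    rw [map_pow]
    exact pow_sub_pow_mem_nu (V i) (D.eta_mem hV i) (hV i _) (D.hy i) m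

/-- Root datum of `h / c ^ e`, where `c ≡ ξ i` on `V i` with `ξ i` a unit of `B`. -/
def divConst (D : RootDatum B V e h) (hV : ∀ i (b : B), algebraMap B F b ∈ V i) (c : F)
    (ξ : ι → Bˣ) (hc : ∀ i, c - algebraMap B F (ξ i : B) ∈ (V i).nonunits) :
    RootDatum B V e (h / c ^ e) where
  η := D.η / c
  u := D.u
  y := fun i => D.y i * ((ξ i)⁻¹ : Bˣ)
  hu := D.hu
  hh := by
    conv_lhs => rw [D.hh]
    rw [div_pow, mul_div_assoc]
  hy := fun i => by
    set x := algebraMap B F (ξ i : B) with hx
    set x' := algebraMap B F (((ξ i)⁻¹ : Bˣ) : B) with hx'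
    have hxx : x * x' = 1 := by
      rw [hx, hx', ← map_mul, Units.mul_inv, map_one]
    have hx'0 : x' ≠ 0 := right_ne_zero_of_mul_eq_one hxx
    have hxV : x ∈ V i := hV i _
    have hx'V : x' ∈ V i := hV i _
    -- `c` is a unit of `V i`
    have h1 : c * x' - 1 ∈ (V i).nonunits := by
      have : c * x' - 1 = (c - x) * x' := by linear_combination hxx
      rw [this]
      exact nu_mul' (V i) (hc i) hx'V
    obtain ⟨h0, h2, h3⟩ := mem_and_inv_mem_of_sub_one (V i) h1
    have hc0 : c ≠ 0 := left_ne_zero_of_mul h0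
    have hciV : c⁻¹ ∈ V i := by
      have : c⁻¹ = (c * x')⁻¹ * x' := by
        rw [mul_inv, mul_assoc, inv_mul_cancel₀ hx'0, mul_one]
      rw [this]
      exact mul_mem h3 hx'V
    have hcc : c * c⁻¹ = 1 := mul_inv_cancel₀ hc0
    have : D.η / c - algebraMap B F (D.y i * (((ξ i)⁻¹ : Bˣ) : B)) =
        ((D.η - algebraMap B F (D.y i)) * x - algebraMap B F (D.y i) * (c - x)) * (c⁻¹ * x') := by
      rw [map_mul, div_eq_mul_inv]
      linear_combination (-(D.η * c⁻¹)) * hxx + (algebraMap B F (D.y i) * x') * hcc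
    rw [this]
    exact nu_mul' (V i) (sub_mem (nu_mul' (V i) (D.hy i) hxV) (nu_mul (V i) (hV i _) (hc i)))
      (mul_mem hciV hx'V)

section Compare

variable [IsDomain B] [IsFractionRing B F] [IsIntegrallyClosed B]

/-- **Two root data of the same element differ by a unit of `B`.** -/
theorem compare (D D' : RootDatum B V e h) (hV : ∀ i (b : B), algebraMap B F b ∈ V i)
    (he : 0 < e) (hh0 : h ≠ 0) :
    ∃ ε : Bˣ, D'.η = algebraMap B F (ε : B) * D.η ∧
      ∀ i, D'.y i - (ε : B) * D.y i ∈ centre (V i) (hV i) := by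
  have hη0 : D.η ≠ 0 := by
    intro h0
    apply hh0
    rw [D.hh, h0, zero_pow he.ne', mul_zero]
  have hη'0 : D'.η ≠ 0 := by
    intro h0
    apply hh0
    rw [D'.hh, h0, zero_pow he.ne', mul_zero]
  obtain ⟨u, hu⟩ := D.hu
  obtain ⟨u', hu'⟩ := D'.hu
  have hinj : Function.Injective (algebraMap B F) := IsFractionRing.injective B F
  -- `(η' / η) ^ e = u / u'`
  have h1 : algebraMap B F (u : B) * D.η ^ e = algebraMap B F (u' : B) * D'.η ^ e := by
    rw [hu, hu', ← D.hh, ← D'.hh]
  have hu'0 : algebraMap B F (u' : B) ≠ 0 := fun h0 => u'.ne_zero (hinj (by rw [h0, map_zero]))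
  have hu0 : algebraMap B F (u : B) ≠ 0 := fun h0 => u.ne_zero (hinj (by rw [h0, map_zero]))
  have h2 : (D'.η / D.η) ^ e = algebraMap B F ((u * u'⁻¹ : Bˣ) : B) := by
    have hinv : algebraMap B F ((u'⁻¹ : Bˣ) : B) = (algebraMap B F (u' : B))⁻¹ := by
      have h3 : algebraMap B F (u' : B) * algebraMap B F ((u'⁻¹ : Bˣ) : B) = 1 := by
        rw [← map_mul, Units.mul_inv, map_one]
      exact eq_inv_of_mul_eq_one_right h3
    rw [Units.val_mul, map_mul, hinv, div_pow, div_eq_iff (pow_ne_zero e hη0)]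
    field_simp
    linear_combination -h1
  have h3 : (D.η / D'.η) ^ e = algebraMap B F ((u' * u⁻¹ : Bˣ) : B) := by
    have hinv : algebraMap B F ((u⁻¹ : Bˣ) : B) = (algebraMap B F (u : B))⁻¹ := by
      have h3 : algebraMap B F (u : B) * algebraMap B F ((u⁻¹ : Bˣ) : B) = 1 := by
        rw [← map_mul, Units.mul_inv, map_one]
      exact eq_inv_of_mul_eq_one_right h3
    rw [Units.val_mul, map_mul, hinv, div_pow, div_eq_iff (pow_ne_zero e hη'0)]
    field_simp
    linear_combination h1
  obtain ⟨ε, hε⟩ := IsIntegrallyClosed.exists_algebraMap_eq_of_isIntegral_pow (R := B) he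
    (x := D'.η / D.η) (by rw [h2]; exact isIntegral_algebraMap)
  obtain ⟨ε', hε'⟩ := IsIntegrallyClosed.exists_algebraMap_eq_of_isIntegral_pow (R := B) he
    (x := D.η / D'.η) (by rw [h3]; exact isIntegral_algebraMap)
  have hεε' : ε * ε' = 1 := by
    apply hinj
    rw [map_mul, hε, hε', map_one]
    field_simp
  refine ⟨⟨ε, ε', hεε', by rw [mul_comm]; exact hεε'⟩, ?_, fun i => ?_⟩
  · show D'.η = algebraMap B F ε * D.η
    rw [hε]; field_simp
  · show D'.y i - ε * D.y i ∈ centre (V i) (hV i)
    rw [mem_centre]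
    have : algebraMap B F (D'.y i - ε * D.y i) =
        algebraMap B F ε * (D.η - algebraMap B F (D.y i)) - (D'.η - algebraMap B F (D'.y i)) := by
      rw [map_sub, map_mul, hε]
      field_simp
      ring
    rw [this]
    exact sub_mem (nu_mul (V i) (hV i _) (D.hy i)) (D'.hy i)

/-- **The cross ratios of two root data of the same element agree modulo `𝔪_B`.** -/
theorem cross_mem [IsLocalRing B] (D D' : RootDatum B V e h)
    (hV : ∀ i (b : B), algebraMap B F b ∈ V i) (he : 0 < e) (hh0 : h ≠ 0) (i j : ι) :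
    D'.y i * D.y j - D'.y j * D.y i ∈ maximalIdeal B := by
  obtain ⟨ε, -, hε⟩ := compare D D' hV he hh0
  have h1 := centre_le_maximalIdeal (V i) (hV i) (hε i)
  have h2 := centre_le_maximalIdeal (V j) (hV j) (hε j)
  have : D'.y i * D.y j - D'.y j * D.y i =
      (D'.y i - (ε : B) * D.y i) * D.y j - (D'.y j - (ε : B) * D.y j) * D.y i := by ring
  rw [this]
  exact sub_mem (Ideal.mul_mem_right _ _ h1) (Ideal.mul_mem_right _ _ h2)

end Compare

/-- **Trivial gluing datum ⟹ a local root congruent to `1` on all branches.** -/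
theorem exists_tau [IsLocalRing B] [Fintype ι] [Nonempty ι] (D : RootDatum B V e h)
    (hV : ∀ i (b : B), algebraMap B F b ∈ V i)
    {N : ℕ} (hN : maximalIdeal B ^ N ≤ ⨆ i, others (fun i => centre (V i) (hV i)) i)
    (he : IsUnit ((e : ℕ) : B)) (hf1 : ∀ i, h - 1 ∈ (V i).nonunits)
    (hyy : ∀ i j, D.y i - D.y j ∈ maximalIdeal B) :
    ∃ (τ : F) (u' : B), τ ≠ 0 ∧ IsUnit u' ∧ h = algebraMap B F u' * τ ^ e ∧
      ∀ i, τ - 1 ∈ (V i).nonunits :=
  Fermat.Agent.S36.Local.LocalRoot.exists_tau V hV hN he D.hu D.hh hf1 D.y D.hy hyy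

end RootDatum

end Fermat.Agent.S36.D.RootData
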