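/-
S36 block [D] (norm compatibility of the gluing data), file 2: **the gluing datum of a norm**.

Abstract local situation of ONE degeneracy map at a triple point `x` over a crossing point `y`:
`φ : F1 → F2` the field embedding, `Nm : F2 →* F1` the norm, `A ⊆ F1` the local ring at `y` (normal),
`B ⊆ F2` the local ring at `x`, `incl : A → B` local.  Lower branches `Us` ("split": two branches `Va`
(`e = 1`, `f = 1`) and `Vb` (`e = q - 1`, `f = 1`) above it) and `Ui` ("inseparable": one branch `Vc`,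
`f = q` purely inseparable, above it), with the norm–residue formulas of block [N] in elementwise form:

* `norm_split` : `w ≡ a₁` on `Va`, `w ≡ a₂` on `Vb`  ⟹  `Nm w ≡ a₁ a₂ ^ (q - 1)` on `Us`;
* `norm_insep` : `w ^ q ≡ a` on `Vc`  ⟹  `Nm w ≡ a` on `Ui`.

(`α`: `(Us, Va, Vb; Ui, Vc) = (V10, V20, V11; V01, V02)`;
 `β`: `(Us, Va, Vb; Ui, Vc) = (V01, V02, V11; V10, V20)`.)

`cross_ratio` : if `h = u η ^ e` at `x` with branch representatives `ya, yb, yc` of `η`, and the norm has a
GLOBAL root `Nm h = c H ^ e` with `H ≡ xs` on `Us`, `H ≡ xi` on `Ui` (`c, xs, xi` constants), then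
`xi * ya * yb ^ (q - 1) ≡ xs * yc ^ q` modulo `𝔪_B`.
-/
import Mathlib
import Fermat.Agent.S36.D.RootData

set_option autoImplicit false

namespace Fermat.Agent.S36.D.NormGlue

open Fermat.Agent.S36.Local.LocalRoot Fermat.Agent.S36.D.RootData IsLocalRing

variable {F1 F2 : Type*} [Field F1] [Field F2]
variable {A B : Type*} [CommRing A] [CommRing B] [Algebra A F1] [Algebra B F2]

/-- The local data of one degeneracy map at a triple point. -/
structure SplitInsep (φ : F1 →+* F2) (Nm : F2 →* F1) (incl : A →+* B) (q : ℕ)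
    (Us Ui : ValuationSubring F1) (Va Vb Vc : ValuationSubring F2) : Prop where
  incl_eq : ∀ a : A, algebraMap B F2 (incl a) = φ (algebraMap A F1 a)
  norm_unit : ∀ b : B, IsUnit b → ∃ a : A, IsUnit a ∧ algebraMap A F1 a = Nm (algebraMap B F2 b)
  lift_a : ∀ b : B, ∃ a : A, algebraMap B F2 b - φ (algebraMap A F1 a) ∈ Va.nonunits
  lift_b : ∀ b : B, ∃ a : A, algebraMap B F2 b - φ (algebraMap A F1 a) ∈ Vb.nonunits
  lift_c : ∀ b : B, ∃ a : A, algebraMap B F2 b ^ q - φ (algebraMap A F1 a) ∈ Vc.nonunits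
  norm_split : ∀ (w : F2) (a₁ a₂ : F1), a₁ ∈ Us → a₂ ∈ Us → w - φ a₁ ∈ Va.nonunits →
    w - φ a₂ ∈ Vb.nonunits → Nm w - a₁ * a₂ ^ (q - 1) ∈ Us.nonunits
  norm_insep : ∀ (w : F2) (a : F1), a ∈ Ui → w ^ q - φ a ∈ Vc.nonunits → Nm w - a ∈ Ui.nonunits

/-- The pair of lower branches as a family. -/
def pairU (Us Ui : ValuationSubring F1) : Fin 2 → ValuationSubring F1 := ![Us, Ui]

@[simp] theorem pairU_zero (Us Ui : ValuationSubring F1) : pairU Us Ui 0 = Us := rfl
@[simp] theorem pairU_one (Us Ui : ValuationSubring F1) : pairU Us Ui 1 = Ui := rfl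

/-- `x ^ n - y ^ n ∈ I` if `x - y ∈ I`. -/
theorem pow_sub_pow_mem_ideal {R : Type*} [CommRing R] (I : Ideal R) {x y : R} (h : x - y ∈ I)
    (n : ℕ) : x ^ n - y ^ n ∈ I := by
  obtain ⟨c, hc⟩ := sub_dvd_pow_sub_pow x y n
  rw [hc]
  exact I.mul_mem_right _ h

/-- **The gluing datum of a norm with a global root.** -/
theorem cross_ratio [IsDomain A] [IsFractionRing A F1] [IsIntegrallyClosed A] [IsLocalRing A]
    [IsLocalRing B] {φ : F1 →+* F2} {Nm : F2 →* F1} {incl : A →+* B} [IsLocalHom incl] {q : ℕ}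
    {Us Ui : ValuationSubring F1} {Va Vb Vc : ValuationSubring F2}
    (S : SplitInsep φ Nm incl q Us Ui Va Vb Vc)
    (hAs : ∀ a : A, algebraMap A F1 a ∈ Us) (hAi : ∀ a : A, algebraMap A F1 a ∈ Ui)
    (hBa : ∀ b : B, algebraMap B F2 b ∈ Va) (hBb : ∀ b : B, algebraMap B F2 b ∈ Vb)
    (hBc : ∀ b : B, algebraMap B F2 b ∈ Vc)
    {e : ℕ} (he : 0 < e) {h : F2} (hh0 : h ≠ 0)
    {η : F2} {u : B} (hu : IsUnit u) (hh : h = algebraMap B F2 u * η ^ e)
    {ya yb yc : B} (hya : η - algebraMap B F2 ya ∈ Va.nonunits)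
    (hyb : η - algebraMap B F2 yb ∈ Vb.nonunits) (hyc : η - algebraMap B F2 yc ∈ Vc.nonunits)
    {H : F1} {c xs xi : A} (hc : IsUnit c) (hH : Nm h = algebraMap A F1 c * H ^ e)
    (hxs : H - algebraMap A F1 xs ∈ Us.nonunits) (hxi : H - algebraMap A F1 xi ∈ Ui.nonunits) :
    incl xi * ya * yb ^ (q - 1) - incl xs * yc ^ q ∈ maximalIdeal B := by
  classical
  obtain ⟨za, hza⟩ := S.lift_a ya
  obtain ⟨zb, hzb⟩ := S.lift_b yb
  obtain ⟨zc, hzc⟩ := S.lift_c yc
  obtain ⟨au, hau, hauN⟩ := S.norm_unit u hu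
  -- `Nm h ≠ 0`
  have hN0 : Nm h ≠ 0 := by
    have h1 : Nm h * Nm h⁻¹ = 1 := by rw [← map_mul, mul_inv_cancel₀ hh0, map_one]
    exact left_ne_zero_of_mul_eq_one h1
  -- the family of lower branches
  have hV : ∀ i (a : A), algebraMap A F1 a ∈ pairU Us Ui i := by
    intro i a
    fin_cases i
    · exact hAs a
    · exact hAi a
  -- `η ∈ Vc`
  have hηc : η ∈ Vc := by
    have : η = (η - algebraMap B F2 yc) + algebraMap B F2 yc := by ring
    rw [this]
    exact add_mem (nu_mem Vc hyc) (hBc _)
  -- the root datum of `Nm h` coming from `x`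
  let D : RootDatum A (pairU Us Ui) e (Nm h) :=
    { η := Nm η
      u := au
      y := ![za * zb ^ (q - 1), zc]
      hu := hau
      hh := by rw [hauN, hh, map_mul, map_pow]
      hy := by
        intro i
        fin_cases i
        · show Nm η - algebraMap A F1 (za * zb ^ (q - 1)) ∈ Us.nonunits
          rw [map_mul, map_pow]
          refine S.norm_split η _ _ (hAs za) (hAs zb) ?_ ?_
          · have : η - φ (algebraMap A F1 za) =
                (η - algebraMap B F2 ya) + (algebraMap B F2 ya - φ (algebraMap A F1 za)) := by ring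
            rw [this]
            exact add_mem hya hza
          · have : η - φ (algebraMap A F1 zb) =
                (η - algebraMap B F2 yb) + (algebraMap B F2 yb - φ (algebraMap A F1 zb)) := by ring
            rw [this]
            exact add_mem hyb hzb
        · show Nm η - algebraMap A F1 zc ∈ Ui.nonunits
          refine S.norm_insep η _ (hAi zc) ?_
          have : η ^ q - φ (algebraMap A F1 zc) =
              (η ^ q - algebraMap B F2 yc ^ q) +
                (algebraMap B F2 yc ^ q - φ (algebraMap A F1 zc)) := by ring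
          rw [this]
          exact add_mem (pow_sub_pow_mem_nu Vc hηc (hBc _) hyc q) hzc }
  -- the root datum of `Nm h` coming from the global root
  let D' : RootDatum A (pairU Us Ui) e (Nm h) :=
    { η := H
      u := c
      y := ![xs, xi]
      hu := hc
      hh := hH
      hy := by
        intro i
        fin_cases i
        · exact hxs
        · exact hxi }
  have hcross := RootDatum.cross_mem D D' hV he hN0 0 1
  have hcross' : xs * zc - xi * (za * zb ^ (q - 1)) ∈ maximalIdeal A := hcross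
  -- transfer to `B`
  have hinclm : ∀ a : A, a ∈ maximalIdeal A → incl a ∈ maximalIdeal B := by
    intro a ha
    rw [mem_maximalIdeal, mem_nonunits_iff] at ha ⊢
    exact fun hu => ha (IsLocalHom.map_nonunit a hu)
  have h1 := hinclm _ hcross'
  rw [map_sub, map_mul, map_mul, map_mul, map_pow] at h1
  -- the representatives agree modulo `𝔪_B`
  have hma : ya - incl za ∈ maximalIdeal B := by
    refine centre_le_maximalIdeal Va hBa ?_
    rw [mem_centre, map_sub, S.incl_eq]
    exact hza
  have hmb : yb - incl zb ∈ maximalIdeal B := by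
    refine centre_le_maximalIdeal Vb hBb ?_
    rw [mem_centre, map_sub, S.incl_eq]
    exact hzb
  have hmc : yc ^ q - incl zc ∈ maximalIdeal B := by
    refine centre_le_maximalIdeal Vc hBc ?_
    rw [mem_centre, map_sub, map_pow, S.incl_eq]
    exact hzc
  have hmb' : yb ^ (q - 1) - incl zb ^ (q - 1) ∈ maximalIdeal B :=
    pow_sub_pow_mem_ideal _ hmb _
  have : incl xi * ya * yb ^ (q - 1) - incl xs * yc ^ q =
      -(incl xs * incl zc - incl xi * (incl za * incl zb ^ (q - 1)))
        + incl xi * ((ya - incl za) * yb ^ (q - 1) + incl za * (yb ^ (q - 1) - incl zb ^ (q - 1)))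
        - incl xs * (yc ^ q - incl zc) := by ring
  rw [this]
  refine sub_mem (add_mem (neg_mem h1) (Ideal.mul_mem_left _ _ (add_mem ?_ ?_)))
    (Ideal.mul_mem_left _ _ hmc)
  · exact Ideal.mul_mem_right _ _ hma
  · exact Ideal.mul_mem_left _ _ hmb'

end Fermat.Agent.S36.D.NormGlue
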