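/-
S36 block [D], file 5: the hypothesis `hrel` of `ChartRoots.localRoots_triple` from the two
`NormGlue.SplitInsep` packages (for `α` and `β`) and the global roots of the two norms.

`V 0 = V20`, `V 1 = V11`, `V 2 = V02` (level `q² M0`), `U10`, `U01` (level `q M0`), `q = p + 1`.
`α`: split branch `U10 ← V20, V11`, inseparable branch `U01 ← V02`;
`β`: split branch `U01 ← V02, V11`, inseparable branch `U10 ← V20`.
Global roots: `Nα h = cα Hα ^ e`, `Hα ≡ sα` on `U10`, `≡ tα` on `U01`; `Nβ h = cβ Hβ ^ e`, `Hβ ≡ sβ` on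
`U10`, `≡ tβ` on `U01`.  Then for every root datum `D` of `h` at the triple point

  `tα * y 0 * y 1 ^ p ≡ sα * y 2 ^ (p + 1)`   and   `sβ * y 2 * y 1 ^ p ≡ tβ * y 0 ^ (p + 1)`  modulo `𝔪_B`,

i.e. `hrel` with `(S, T, S', T') = (sα, tα, sβ, tβ)`.
-/
import Mathlib
import Fermat.Agent.S36.D.NormGlue

set_option autoImplicit false

namespace Fermat.Agent.S36.D.TripleRel

open Fermat.Agent.S36.D.RootData Fermat.Agent.S36.D.NormGlue IsLocalRing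

variable {F1 F2 : Type*} [Field F1] [Field F2]
variable {Aα Aβ B : Type*} [CommRing Aα] [CommRing Aβ] [CommRing B]
  [Algebra Aα F1] [Algebra Aβ F1] [Algebra B F2]
  [IsDomain Aα] [IsFractionRing Aα F1] [IsIntegrallyClosed Aα] [IsLocalRing Aα]
  [IsDomain Aβ] [IsFractionRing Aβ F1] [IsIntegrallyClosed Aβ] [IsLocalRing Aβ]
  [IsLocalRing B]

theorem hrel_of_splitInsep {φα φβ : F1 →+* F2} {Nα Nβ : F2 →* F1}
    {inclα : Aα →+* B} {inclβ : Aβ →+* B} [IsLocalHom inclα] [IsLocalHom inclβ] {p : ℕ}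
    {U10 U01 : ValuationSubring F1} {V : Fin 3 → ValuationSubring F2}
    (Sα : SplitInsep φα Nα inclα (p + 1) U10 U01 (V 0) (V 1) (V 2))
    (Sβ : SplitInsep φβ Nβ inclβ (p + 1) U01 U10 (V 2) (V 1) (V 0))
    (hAα10 : ∀ a : Aα, algebraMap Aα F1 a ∈ U10) (hAα01 : ∀ a : Aα, algebraMap Aα F1 a ∈ U01)
    (hAβ10 : ∀ a : Aβ, algebraMap Aβ F1 a ∈ U10) (hAβ01 : ∀ a : Aβ, algebraMap Aβ F1 a ∈ U01)
    (hB : ∀ i (b : B), algebraMap B F2 b ∈ V i)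
    {e : ℕ} (he : 0 < e) {h : F2} (hh0 : h ≠ 0)
    {Hα Hβ : F1} {cα sα tα : Aα} {cβ sβ tβ : Aβ} (hcα : IsUnit cα) (hcβ : IsUnit cβ)
    (hHα : Nα h = algebraMap Aα F1 cα * Hα ^ e)
    (hsα : Hα - algebraMap Aα F1 sα ∈ U10.nonunits) (htα : Hα - algebraMap Aα F1 tα ∈ U01.nonunits)
    (hHβ : Nβ h = algebraMap Aβ F1 cβ * Hβ ^ e)
    (hsβ : Hβ - algebraMap Aβ F1 sβ ∈ U10.nonunits) (htβ : Hβ - algebraMap Aβ F1 tβ ∈ U01.nonunits)
    (S T S' T' : Bˣ) (hS : (S : B) = inclα sα) (hT : (T : B) = inclα tα)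
    (hS' : (S' : B) = inclβ sβ) (hT' : (T' : B) = inclβ tβ)
    (D : RootDatum B V e h) :
    ¬ IsUnit ((T : B) * D.y 0 * D.y 1 ^ p - (S : B) * D.y 2 ^ (p + 1)) ∧
      ¬ IsUnit ((S' : B) * D.y 2 * D.y 1 ^ p - (T' : B) * D.y 0 ^ (p + 1)) := by
  constructor
  · have h1 := cross_ratio Sα hAα10 hAα01 (hB 0) (hB 1) (hB 2) he hh0 D.hu D.hh (D.hy 0) (D.hy 1)
      (D.hy 2) hcα hHα hsα htα
    rw [Nat.add_sub_cancel, ← hS, ← hT] at h1
    exact mem_nonunits_iff.1 ((mem_maximalIdeal _).1 h1)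
  · have h1 := cross_ratio Sβ hAβ01 hAβ10 (hB 2) (hB 1) (hB 0) he hh0 D.hu D.hh (D.hy 2) (D.hy 1)
      (D.hy 0) hcβ hHβ htβ hsβ
    rw [Nat.add_sub_cancel, ← hS', ← hT'] at h1
    exact mem_nonunits_iff.1 ((mem_maximalIdeal _).1 h1)

end Fermat.Agent.S36.D.TripleRel
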