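/-
S36 block [I-T], final plug: **the hypothesis `hrel` of `Descent/SpineRootsTop.rootsInterface_top`**
(= the argument `hrel` of `LocalRootsBoth.localRoots_both_of_goodNorm` on the finite chart
`Rfin K (M0 q q) O`) from

* `T : ThreeVal K M0 q O sv` (the three valuations of level `M0 q²`),
* (R1): a `TripleGlue.CrossingHyp` at every crossing point of level `M0 q` (`hcr`; unconditional
  form `crossingHyp_of_level` from `R1/Unconditional.regular_fin_val`),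
* the two inseparable/split input packages of `R2/TripleGlue` along `α₂` (`D/SplitInstAlpha`) and
  along `β₂` (hypotheses `hIβ`, `hsβ`; `D/SplitInstBeta`),
* the two `NormPlumb.NormTable`s (their `norm_split`, `norm_insep` clauses).

`hS_top` : the argument `hS` of `Descent/SpineRel.hrel_chart` (two calls of
`R2/TripleFinal.splitInsep`, at `𝔫.comap alphaR` and at `𝔫.comap betaR`);
`hrel_top` : `hrel_chart` applied.
-/
import Mathlib
import Fermat.Agent.S36.R2.TripleThreeVal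
import Fermat.Agent.S36.Descent.SpineRel
import Fermat.Agent.S36.Descent.ConstHypInst
import Fermat.Agent.S36.Points.ClassifyInst
import Fermat.Agent.P4.FrobStep

set_option autoImplicit false
set_option linter.unusedSectionVars false
set_option linter.style.haveILetI false

open ModularCurve Fermat.Agent.S28.Gauss Fermat.Agent.N4.Setting Fermat.Agent.N4.FibreEmbedding
open Fermat.Agent.N4.Chart Fermat.Agent.N4F.E.DegreeLevelRaise Fermat.Agent.N4F.E.GaussDVR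
open Fermat.Agent.N4F.E IsLocalRing Fermat.Agent.P3G.RbarFin
open Fermat.Agent.N4.Cover.Globalize
open Fermat.Agent.P3G.SecondValuation Fermat.Agent.P3G.LevelIntegrality
open Fermat.Agent.S36.V.ThreeVal
open Fermat.Agent.S36.C.SemiGaussTop Fermat.Agent.S36.C.ThreeValCover
open Fermat.Agent.S36.R2.TripleHom Fermat.Agent.S36.R2.TripleGlue Fermat.Agent.S36.R2.ChartMaps
open Fermat.Agent.S36.D.NormGlue Fermat.Agent.S36.D.RootData
open Fermat.Agent.S36.Local.LocalRoot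
open Fermat.Agent.S36.Descent.NormPlumb Fermat.Agent.S36.Descent.GlueConst
open Fermat.Agent.S36.Points.ClassifyInst
open Fermat.Agent.S36.R2.TripleThreeVal

noncomputable section

namespace Fermat.Agent.S36.D.SplitInstTop

variable {K : Type} [Field K] [CharZero K] {M0 q : ℕ} [NeZero M0] [hq : Fact q.Prime]
  {O : Subring K} [IsDiscreteValuationRing ↥O] [IsFractionRing ↥O K]
  [CharP (IsLocalRing.ResidueField ↥O) q]
  {sv : SecondVal K M0 q O} (T : ThreeVal K M0 q O sv)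

/-- `normHom` of the coerced algebra homomorphism is `normAlong`. -/
theorem normHom_eq_normAlong {F F' : Type*} [Field F] [Field F'] [Algebra K F] [Algebra K F']
    (φ : F →ₐ[K] F') :
    normHom (φ : F →+* F') = Fermat.Agent.P4.FrobStep.normAlong φ := rfl

variable (hN : IsUnit ((M0 : ℕ) : ↥O))
  (hprime : (fibreIdeal K M0 O (Rfin K M0 O)).IsPrime)
  (hsmooth : IsDedekindDomain (↥(Rfin K M0 O) ⧸ fibreIdeal K M0 O (Rfin K M0 O)))
  (hA2 : ∀ x : ↥(gaussSubalgebra K M0 O),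
    theta K M0 O x ∈ modularFunctionFieldFullC (IsLocalRing.ResidueField ↥O) M0)
  {ϖ : ↥O} (hϖ : Irreducible ϖ)
  (hcr : ∀ (𝔫 : Ideal ↥(Rfin K (M0 * q) O)) [𝔫.IsMaximal],
    (∀ k, centre (U2 K M0 q O sv k) (hU2 K M0 q O sv k) ≤ 𝔫) →
    ∃ u v : ↥(Rfin K (M0 * q) O), CrossingHyp 𝔫 (gaussVS K (M0 * q) O) sv.V u v)
  {evβ : ↥(gaussVS K (M0 * q * q) O) →+* LaurentSeries (IsLocalRing.ResidueField ↥O)}
  (hIβ : InsepData K M0 q O (betaF K (M0 * q) q) (gaussVS K (M0 * q) O)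
    (gaussVS K (M0 * q * q) O) evβ)
  (hsβ : SplitHomData ↥(Rfin K (M0 * q * q) O) (b2 K M0 q) sv.V T.V02 T.V11)
  {Nα Nβ : FF K (M0 * q * q) →* FF K (M0 * q)}
  (hNα : Nα = normHom (a2 K M0 q)) (hNβ : Nβ = normHom (b2 K M0 q))
  (Tα : NormTable (a2 K M0 q) Nα q (gaussVS K (M0 * q) O) sv.V
    (gaussVS K (M0 * q * q) O) T.V11 T.V02)
  (Tβ : NormTable (b2 K M0 q) Nβ q sv.V (gaussVS K (M0 * q) O)
    T.V02 T.V11 (gaussVS K (M0 * q * q) O))

include hN hprime hsmooth hA2 hϖ hcr hIβ hsβ hNα hNβ Tα Tβ in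
/-- **The argument `hS` of `SpineRel.hrel_chart`** at the top level. -/
theorem hS_top
    [IsNoetherianRing ↥(Rfin K (M0 * q) O)]
    [IsFractionRing ↥(Rfin K (M0 * q) O) (FF K (M0 * q))]
    [IsNoetherianRing ↥(Rfin K (M0 * q * q) O)]
    [IsFractionRing ↥(Rfin K (M0 * q * q) O) (FF K (M0 * q * q))]
    {p : ℕ} (hp : p + 1 = q)
    {hVp : ∀ i (r : ↥(Rfin K (M0 * q * q) O)),
      algebraMap ↥(Rfin K (M0 * q * q) O) (FF K (M0 * q * q)) r ∈ fam3 K M0 q O T.V11 T.V02 i}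
    (𝔫 : Ideal ↥(Rfin K (M0 * q * q) O)) [𝔫.IsMaximal]
    [(𝔫.comap (alphaR K (M0 * q) q O :
      ↥(Rfin K (M0 * q) O) →+* ↥(Rfin K (M0 * q * q) O))).IsMaximal]
    [(𝔫.comap (betaR K (M0 * q) q O :
      ↥(Rfin K (M0 * q) O) →+* ↥(Rfin K (M0 * q * q) O))).IsMaximal]
    (ht : ∀ i, centre (fam3 K M0 q O T.V11 T.V02 i) (hVp i) ≤ 𝔫) :
    SplitInsep
        (A := ↥(locAt (F := FF K (M0 * q)) (𝔫.comap (alphaR K (M0 * q) q O :
          ↥(Rfin K (M0 * q) O) →+* ↥(Rfin K (M0 * q * q) O)))))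
        (B := ↥(locAt (F := FF K (M0 * q * q)) 𝔫)) (a2 K M0 q) Nα
        (inclHom (alphaR K (M0 * q) q O : ↥(Rfin K (M0 * q) O) →+* ↥(Rfin K (M0 * q * q) O))
          (a2 K M0 q) (chartMap_alphaR K (M0 * q) q O)
          (𝔫.comap (alphaR K (M0 * q) q O :
            ↥(Rfin K (M0 * q) O) →+* ↥(Rfin K (M0 * q * q) O))) 𝔫 le_rfl) (p + 1)
        (U2 K M0 q O sv 0) (U2 K M0 q O sv 1) (fam3 K M0 q O T.V11 T.V02 0)
        (fam3 K M0 q O T.V11 T.V02 1) (fam3 K M0 q O T.V11 T.V02 2) ∧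
      SplitInsep
        (A := ↥(locAt (F := FF K (M0 * q)) (𝔫.comap (betaR K (M0 * q) q O :
          ↥(Rfin K (M0 * q) O) →+* ↥(Rfin K (M0 * q * q) O)))))
        (B := ↥(locAt (F := FF K (M0 * q * q)) 𝔫)) (b2 K M0 q) Nβ
        (inclHom (betaR K (M0 * q) q O : ↥(Rfin K (M0 * q) O) →+* ↥(Rfin K (M0 * q * q) O))
          (b2 K M0 q) (chartMap_betaR K (M0 * q) q O)
          (𝔫.comap (betaR K (M0 * q) q O :
            ↥(Rfin K (M0 * q) O) →+* ↥(Rfin K (M0 * q * q) O))) 𝔫 le_rfl) (p + 1)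
        (U2 K M0 q O sv 1) (U2 K M0 q O sv 0) (fam3 K M0 q O T.V11 T.V02 2)
        (fam3 K M0 q O T.V11 T.V02 1) (fam3 K M0 q O T.V11 T.V02 0) := by
  rw [hp]
  subst hNα hNβ
  have hca := crossing_alpha_of_triple T (hVp := hVp) ht
  have hcb := crossing_beta_of_triple T (hVp := hVp) ht
  obtain ⟨u, v, hcrα⟩ := hcr _ hca
  obtain ⟨u', v', hcrβ⟩ := hcr _ hcb
  refine ⟨?_, ?_⟩
  · exact Fermat.Agent.S36.R2.TripleFinal.splitInsep K M0 q O hN hprime hsmooth hA2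
      (chartMap_alphaR K (M0 * q) q O) (insepData_alpha T) hcrα hϖ
      (unif_mem_nonunits_secondVal sv hϖ) 𝔫 le_rfl
      (splitHomData_alpha T) Tα.norm_split Tα.norm_insep
  · exact Fermat.Agent.S36.R2.TripleFinal.splitInsep K M0 q O hN hprime hsmooth hA2
      (chartMap_betaR K (M0 * q) q O) hIβ hcrβ.symm hϖ
      (unif_mem_nonunits_gaussVS (M0 * q) hϖ) 𝔫 le_rfl
      hsβ Tβ.norm_split Tβ.norm_insep

include hϖ in
/-- `h ≡ 1` modulo `ϖ V20` forces `h ≠ 0`. -/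
theorem ne_zero_of_cong {h : FF K (M0 * q * q)}
    (hh1 : Fermat.Agent.S36.Local.Spread.Cong (gaussVS K (M0 * q * q) O)
      (algebraMap ↥O (FF K (M0 * q * q)) ϖ) (h - 1)) : h ≠ 0 := by
  rintro rfl
  obtain ⟨w, hw, hw1⟩ := hh1
  have h1 : algebraMap ↥O (FF K (M0 * q * q)) ϖ * w ∈ (gaussVS K (M0 * q * q) O).nonunits :=
    Fermat.Agent.P3G.LocVS.mul_mem_nonunits _
      (unif_mem_nonunits_gaussVS (M0 * q * q) hϖ) hw
  rw [← hw1, zero_sub] at h1
  have h2 : (gaussVS K (M0 * q * q) O).valuation (-1 : FF K (M0 * q * q)) < 1 :=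
    (ValuationSubring.mem_nonunits_iff _).1 h1
  rw [Valuation.map_neg, map_one] at h2
  exact lt_irrefl _ h2

include hN hprime hsmooth hA2 hϖ hcr hIβ hsβ hNα hNβ Tα Tβ in
/-- **The hypothesis `hrel` of `SpineRootsTop.rootsInterface_top`**, with (R1) as the hypothesis
`hcr`, the `β`-side (V)-inputs `hIβ`, `hsβ` and the two norm tables as hypotheses. -/
theorem hrel_top_of_crossing
    [IsNoetherianRing ↥(Rfin K (M0 * q * q) O)]
    [IsFractionRing ↥(Rfin K (M0 * q * q) O) (FF K (M0 * q * q))]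
    {e : ℕ} (he : IsUnit ((e : ℕ) : ↥O)) {p : ℕ} (hp : p + 1 = q)
    {hVp : ∀ i (r : ↥(Rfin K (M0 * q * q) O)),
      algebraMap ↥(Rfin K (M0 * q * q) O) (FF K (M0 * q * q)) r ∈ fam3 K M0 q O T.V11 T.V02 i} :
    ∀ h : FF K (M0 * q * q),
      (∀ i, Fermat.Agent.S36.Local.Spread.Cong (fam3 K M0 q O T.V11 T.V02 i)
        (algebraMap ↥O (FF K (M0 * q * q)) ϖ) (h - 1)) →
      Horizontal K e h →
      ∀ (cα sα tα cβ sβ tβ : (↥O)ˣ) (Hα Hβ : FF K (M0 * q)),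
      Nα h = algebraMap ↥O (FF K (M0 * q)) cα * Hα ^ e →
      Hα - algebraMap ↥O (FF K (M0 * q)) sα ∈
        (Fermat.Agent.S36.Descent.ConstHypInst.baseFam sv 0).nonunits →
      Hα - algebraMap ↥O (FF K (M0 * q)) tα ∈
        (Fermat.Agent.S36.Descent.ConstHypInst.baseFam sv 1).nonunits →
      Nβ h = algebraMap ↥O (FF K (M0 * q)) cβ * Hβ ^ e →
      Hβ - algebraMap ↥O (FF K (M0 * q)) sβ ∈
        (Fermat.Agent.S36.Descent.ConstHypInst.baseFam sv 0).nonunits →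
      Hβ - algebraMap ↥O (FF K (M0 * q)) tβ ∈
        (Fermat.Agent.S36.Descent.ConstHypInst.baseFam sv 1).nonunits →
      ∀ (𝔫 : Ideal ↥(Rfin K (M0 * q * q) O)) [𝔫.IsPrime], 𝔫.IsMaximal →
      algebraMap ↥O ↥(Rfin K (M0 * q * q) O) ϖ ∈ 𝔫 →
      (∀ i, centre (fam3 K M0 q O T.V11 T.V02 i) (hVp i) ≤ 𝔫) →
      ∀ D : RootDatum (locAt (F := FF K (M0 * q * q)) 𝔫) (fam3 K M0 q O T.V11 T.V02) e h,
      ¬ IsUnit (algebraMap ↥(Rfin K (M0 * q * q) O) (locAt (F := FF K (M0 * q * q)) 𝔫)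
          (unitR (R := ↥(Rfin K (M0 * q * q) O)) tα) * D.y 0 * D.y 1 ^ p -
        algebraMap ↥(Rfin K (M0 * q * q) O) (locAt (F := FF K (M0 * q * q)) 𝔫)
          (unitR (R := ↥(Rfin K (M0 * q * q) O)) sα) * D.y 2 ^ (p + 1)) ∧
      ¬ IsUnit (algebraMap ↥(Rfin K (M0 * q * q) O) (locAt (F := FF K (M0 * q * q)) 𝔫)
          (unitR (R := ↥(Rfin K (M0 * q * q) O)) sβ) * D.y 2 * D.y 1 ^ p -
        algebraMap ↥(Rfin K (M0 * q * q) O) (locAt (F := FF K (M0 * q * q)) 𝔫)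
          (unitR (R := ↥(Rfin K (M0 * q * q) O)) tβ) * D.y 0 ^ (p + 1)) := by
  intro h hh1 _
  have hh0 : h ≠ 0 := ne_zero_of_cong hϖ (hh1 0)
  have he0 : 0 < e := by
    rcases Nat.eq_zero_or_pos e with h0 | h0
    · exfalso
      rw [h0, Nat.cast_zero] at he
      exact not_isUnit_zero he
    · exact h0
  haveI := isNoetherianRing_Rfin K (M0 * q) O
  haveI := isFractionRing_Rfin K (M0 * q) O
  haveI := isIntegrallyClosed_Rfin K (M0 * q) O
  haveI := isIntegrallyClosed_Rfin K (M0 * q * q) O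
  exact Fermat.Agent.S36.Descent.SpineRel.hrel_chart (O := ↥O) (R1 := ↥(Rfin K (M0 * q) O))
    (F1 := FF K (M0 * q)) (jF K (M0 * q * q))
    (a := (alphaR K (M0 * q) q O : ↥(Rfin K (M0 * q) O) →+* ↥(Rfin K (M0 * q * q) O)))
    (b := (betaR K (M0 * q) q O : ↥(Rfin K (M0 * q) O) →+* ↥(Rfin K (M0 * q * q) O)))
    (chartMap_alphaR K (M0 * q) q O) (chartMap_betaR K (M0 * q) q O)
    (fun c => (alphaR K (M0 * q) q O).commutes c) (fun c => (betaR K (M0 * q) q O).commutes c)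
    (Nα := Nα) (Nβ := Nβ) (p := p) (π := ϖ)
    (U := Fermat.Agent.S36.Descent.ConstHypInst.baseFam sv) (hU2 K M0 q O sv)
    (V := fam3 K M0 q O T.V11 T.V02) hVp he0 hh0
    (fun 𝔫 _ _ ht => crossing_alpha_of_triple T (hVp := hVp) ht)
    (fun 𝔫 _ _ ht => crossing_beta_of_triple T (hVp := hVp) ht)
    (fun 𝔫 _ _ _ _ ht => hS_top T hN hprime hsmooth hA2 hϖ hcr hIβ hsβ hNα hNβ Tα Tβ hp 𝔫 ht)

end Fermat.Agent.S36.D.SplitInstTop
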