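/-
S36 block [CH-I] (helper25, co-typed with helper1): **a generic producer of `ChartRoots.ChartHyp`**.

`R = chartAlg O F {t}` a noetherian chart over the discrete valuation ring `O` (uniformiser `ϖ`),
`Frac R = F`, `V i ⊇ R` finitely many valuation rings of `F`.  Besides the formal fields
(`FamVal`, the saturation `hsat`), the three geometric fields `loc`, `sep`, `inc` of `ChartHyp`
follow from ONE hypothesis per valuation ring:

  `htr : aeval t f ∈ 𝔪_{V i} → ϖ ∣ f`  for `f ∈ O[X]`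

("the reduction of the chart generator `t` in the residue field of `V i` is transcendental over the
residue field of `O`", i.e. `centre (V i) ∩ O[t] = ϖ O[t]`).  Indeed all the centres then lie over the
same prime of `O[t]`, over which `R` is integral, so by incomparability every centre is a minimal
nonzero prime; `R` being normal, `R_{P_i}` is a discrete valuation ring, hence equal to `V i`.

* `vCentre_minimal` : every nonzero prime `≤ vCentre (V i)` is equal to it;
* `isDiscreteValuationRing_locAt_vCentre`, `mem_iff_mem_locAt` : `V i = R_{P_i}` is a DVR;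
* `chartHyp_of_trans` : the `ChartHyp`.
-/
import Mathlib
import Fermat.Agent.S36.D.ChartRoots
import Fermat.Agent.S36.C.PowCoverFam
import Fermat.Agent.S36.Alg.ChartTransferMax
import Fermat.Agent.P3G.Krull
import Fermat.Agent.N4.FibreCharts
import Fermat.Agent.S36.One.OneChart
import Fermat.Agent.S36.Descent.SpineCover
import Fermat.Agent.S36.V.ThreeVal

set_option autoImplicit false
set_option linter.unusedSectionVars false
set_option linter.unusedVariables false
set_option linter.style.haveILetI false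

namespace Fermat.Agent.S36.D.ChartHypGen

open Polynomial
open Fermat.Agent.N4.Chart Fermat.Agent.N4.Cover.Globalize Fermat.Agent.P3G.Krull
open Fermat.Agent.S36.Local.LocalRoot Fermat.Agent.S36.D.ChartRoots
open Fermat.Agent.S36.C.PowCoverFam
open Fermat.Agent.S36.Alg.ChartTransfer Fermat.Agent.S36.Alg.ChartTransferMax

universe u

/-! ### Polynomials over a discrete valuation ring -/

section Content

variable {O : Type*} [CommRing O] [IsDomain O] [IsDiscreteValuationRing O]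

/-- A nonzero polynomial over a DVR is a power of the uniformiser times a polynomial with a
coefficient prime to the uniformiser. -/
theorem exists_eq_pow_mul_of_ne_zero {ϖ : O} (hϖ : Irreducible ϖ) {f : O[X]} (hf : f ≠ 0) :
    ∃ (k : ℕ) (g : O[X]), f = C ϖ ^ k * g ∧ ∃ n, ¬ ϖ ∣ g.coeff n := by
  have hnu : ¬ IsUnit (C ϖ : O[X]) := by
    rw [Polynomial.isUnit_C]
    exact hϖ.not_isUnit
  obtain ⟨k, g, hg, hfg⟩ := WfDvdMonoid.max_power_factor' hf hnu
  refine ⟨k, g, hfg, ?_⟩
  by_contra hcon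
  push Not at hcon
  exact hg ((Polynomial.C_dvd_iff_dvd_coeff ϖ g).2 hcon)

end Content

/-! ### The centres are minimal primes -/

section Minimal

variable {O : Type*} [CommRing O] [IsDomain O] [IsDiscreteValuationRing O]
  {F : Type u} [Field F] [Algebra O F] {t : F}
  [IsNoetherianRing (chartAlg O F {t})] [IsFractionRing (chartAlg O F {t}) F]

variable (W : ValuationSubring F)
  (hW : ∀ r : chartAlg O F {t}, algebraMap (chartAlg O F {t}) F r ∈ W)
  {ϖ : O} (hϖ : Irreducible ϖ) (hϖ0 : algebraMap O F ϖ ≠ 0)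
  (hϖW : algebraMap O F ϖ ∈ W.nonunits)
  (htr : ∀ f : O[X], aeval t f ∈ W.nonunits → ∀ n, ϖ ∣ f.coeff n)

omit [IsDomain O] [IsDiscreteValuationRing O] [IsNoetherianRing (chartAlg O F {t})]
  [IsFractionRing (chartAlg O F {t}) F] in
theorem algebraMap_unif_ne_zero (hϖ0 : algebraMap O F ϖ ≠ 0) :
    algebraMap O (chartAlg O F {t}) ϖ ≠ 0 := by
  intro h
  apply hϖ0
  have : algebraMap O F ϖ =
      algebraMap (chartAlg O F {t}) F (algebraMap O (chartAlg O F {t}) ϖ) := rfl
  rw [this, h, map_zero]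

omit [IsDomain O] [IsDiscreteValuationRing O] [IsNoetherianRing (chartAlg O F {t})]
  [IsFractionRing (chartAlg O F {t}) F] in
include hW hϖW in
theorem unif_mem_vCentre : algebraMap O (chartAlg O F {t}) ϖ ∈ vCentre W hW := by
  rw [mem_vCentre_iff]
  exact hϖW

omit [IsDomain O] [IsDiscreteValuationRing O] [IsNoetherianRing (chartAlg O F {t})]
  [IsFractionRing (chartAlg O F {t}) F] in
include hW hϖ0 hϖW in
theorem vCentre_ne_bot : vCentre W hW ≠ ⊥ := by
  intro h
  have := unif_mem_vCentre W hW hϖW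
  rw [h, Ideal.mem_bot] at this
  exact algebraMap_unif_ne_zero hϖ0 this

include hW hϖ htr in
/-- A nonzero prime contained in the centre contains `ϖ`. -/
theorem unif_mem_of_le (𝔭 : Ideal (chartAlg O F {t})) [h𝔭 : 𝔭.IsPrime] (h0 : 𝔭 ≠ ⊥)
    (hle : 𝔭 ≤ vCentre W hW) : algebraMap O (chartAlg O F {t}) ϖ ∈ 𝔭 := by
  letI : Algebra (Algebra.adjoin O {t}) (chartAlg O F {t}) :=
    (adjIncl (O := O) t).toRingHom.toAlgebra
  obtain ⟨x, hx, hx0⟩ := Submodule.exists_mem_ne_zero_of_ne_bot h0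
  have hxint : IsIntegral (Algebra.adjoin O {t}) x := isIntegralElem_adjIncl t x
  have hne : 𝔭.comap (algebraMap (Algebra.adjoin O {t}) (chartAlg O F {t})) ≠ ⊥ :=
    Ideal.comap_ne_bot_of_integral_mem hx0 hx hxint
  obtain ⟨a, ha, ha0⟩ := Submodule.exists_mem_ne_zero_of_ne_bot hne
  -- `a = f(t)` with `f ≠ 0`
  have haF : (a : F) ∈ (aeval t : O[X] →ₐ[O] F).range := by
    rw [← Algebra.adjoin_singleton_eq_range_aeval]
    exact a.2
  obtain ⟨f, hf⟩ := haF
  have hf0 : f ≠ 0 := by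
    rintro rfl
    apply ha0
    apply Subtype.ext
    rw [← hf]
    simp
  obtain ⟨k, g, hfg, n, hn⟩ := exists_eq_pow_mul_of_ne_zero hϖ hf0
  -- the image of `a` in the chart
  have himg : algebraMap (Algebra.adjoin O {t}) (chartAlg O F {t}) a =
      algebraMap O (chartAlg O F {t}) ϖ ^ k * aeval (gen t : chartAlg O F {t}) g := by
    apply Subtype.ext
    rw [Subalgebra.coe_mul, Subalgebra.coe_pow, coe_aeval_gen]
    show (a : F) = algebraMap O F ϖ ^ k * aeval t g
    have hf' : (aeval t) f = (a : F) := hf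
    rw [← hf', hfg, map_mul, map_pow, aeval_C]
  have hmem : algebraMap O (chartAlg O F {t}) ϖ ^ k * aeval (gen t : chartAlg O F {t}) g ∈ 𝔭 := by
    rw [← himg]
    exact ha
  rcases h𝔭.mem_or_mem hmem with h | h
  · exact h𝔭.mem_of_pow_mem k h
  · exfalso
    have h1 := hle h
    rw [mem_vCentre_iff] at h1
    have h2 : aeval t g ∈ W.nonunits := by
      have : algebraMap (chartAlg O F {t}) F (aeval (gen t : chartAlg O F {t}) g) = aeval t g :=
        coe_aeval_gen t g
      rw [← this]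
      exact h1
    exact hn (htr g h2 n)

include hW hϖ htr in
/-- **Incomparability**: every nonzero prime contained in the centre of `W` is equal to it. -/
theorem vCentre_minimal (𝔭 : Ideal (chartAlg O F {t})) (h𝔭 : 𝔭.IsPrime) (h0 : 𝔭 ≠ ⊥)
    (hle : 𝔭 ≤ vCentre W hW) : 𝔭 = vCentre W hW := by
  haveI := h𝔭
  letI : Algebra (Algebra.adjoin O {t}) (chartAlg O F {t}) :=
    (adjIncl (O := O) t).toRingHom.toAlgebra
  have hϖ𝔭 := unif_mem_of_le W hW hϖ htr 𝔭 h0 hle
  by_contra hne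
  have hlt : 𝔭 < vCentre W hW := lt_of_le_of_ne hle hne
  obtain ⟨x, hxP, hx𝔭⟩ := Set.exists_of_ssubset hlt
  have hxint : IsIntegral (Algebra.adjoin O {t}) x := isIntegralElem_adjIncl t x
  have hcomap := Ideal.comap_lt_comap_of_integral_mem_sdiff hle ⟨hxP, hx𝔭⟩ hxint
  -- but the two contractions agree
  have hle' : (vCentre W hW).comap (algebraMap (Algebra.adjoin O {t}) (chartAlg O F {t})) ≤
      𝔭.comap (algebraMap (Algebra.adjoin O {t}) (chartAlg O F {t})) := by
    intro a ha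
    rw [Ideal.mem_comap] at ha ⊢
    have haF : (a : F) ∈ (aeval t : O[X] →ₐ[O] F).range := by
      rw [← Algebra.adjoin_singleton_eq_range_aeval]
      exact a.2
    obtain ⟨f, hf⟩ := haF
    have hf' : (aeval t) f = (a : F) := hf
    have h1 : aeval t f ∈ W.nonunits := by
      rw [hf']
      exact (mem_vCentre_iff W hW).1 ha
    have h2 := htr f h1
    obtain ⟨g, hg⟩ := (Polynomial.C_dvd_iff_dvd_coeff ϖ f).2 h2
    have himg : algebraMap (Algebra.adjoin O {t}) (chartAlg O F {t}) a =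
        algebraMap O (chartAlg O F {t}) ϖ * aeval (gen t : chartAlg O F {t}) g := by
      apply Subtype.ext
      rw [Subalgebra.coe_mul, coe_aeval_gen]
      show (a : F) = algebraMap O F ϖ * aeval t g
      rw [← hf', hg, map_mul, aeval_C]
    rw [himg]
    exact 𝔭.mul_mem_right _ hϖ𝔭
  exact absurd hcomap (not_lt_of_ge hle')

include hW hϖ hϖ0 hϖW htr in
/-- `R_{P}` is a discrete valuation ring, `P` the centre of `W`. -/
theorem isDiscreteValuationRing_locAt_vCentre :
    IsDiscreteValuationRing (locAt (F := F) (vCentre W hW)) :=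
  isDiscreteValuationRing_locAt_of_minimal (vCentre W hW) (vCentre_ne_bot W hW hϖ0 hϖW)
    (fun 𝔮 h𝔮 h0 hle => vCentre_minimal W hW hϖ htr 𝔮 h𝔮 h0 hle)

include hW hϖ hϖ0 hϖW htr in
/-- **`W = R_P`.** -/
theorem mem_iff_mem_locAt (y : F) : y ∈ W ↔ y ∈ locAt (F := F) (vCentre W hW) :=
  mem_valuationSubring_iff_mem_locAt W hW (vCentre W hW) rfl
    (isDiscreteValuationRing_locAt_vCentre W hW hϖ hϖ0 hϖW htr) y

include hW hϖ hϖ0 hϖW htr in
/-- `loc`: every element of `W` is a fraction with denominator outside the centre. -/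
theorem exists_frac (z : F) (hz : z ∈ W) :
    ∃ a b : chartAlg O F {t}, b ∉ vCentre W hW ∧
      z * algebraMap (chartAlg O F {t}) F b = algebraMap (chartAlg O F {t}) F a := by
  have h := (mem_iff_mem_locAt W hW hϖ hϖ0 hϖW htr z).1 hz
  obtain ⟨a, s, hs, h⟩ := (mem_locAt_iff (vCentre W hW) z).1 h
  exact ⟨a, s, hs, h⟩

include hW hϖ hϖ0 hϖW htr in
/-- `sep`: `W` is archimedean with respect to `ϖ`. -/
theorem exists_pow_mul_inv_mem (z : F) (hz : z ≠ 0) :
    ∃ n : ℕ, algebraMap O F ϖ ^ n * z⁻¹ ∈ W := by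
  haveI hdvr := isDiscreteValuationRing_locAt_vCentre W hW hϖ hϖ0 hϖW htr
  set L := locAt (F := F) (vCentre W hW) with hL
  -- `z⁻¹ = a / b`
  obtain ⟨⟨a, b, hb⟩, hab⟩ := IsLocalization.surj (nonZeroDivisors (chartAlg O F {t})) z⁻¹
  have hb0 : (b : chartAlg O F {t}) ≠ 0 := nonZeroDivisors.ne_zero hb
  have hbF : algebraMap (chartAlg O F {t}) F b ≠ 0 := algebraMap_ne_zero hb0
  -- `ϖ ^ n ∈ b L`
  obtain ⟨τ, hτ⟩ := IsDiscreteValuationRing.exists_irreducible L
  have hbL0 : algebraMap (chartAlg O F {t}) L b ≠ 0 := by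
    intro h
    apply hbF
    have : algebraMap (chartAlg O F {t}) F b = ((algebraMap (chartAlg O F {t}) L b : L) : F) := rfl
    rw [this, h]
    rfl
  obtain ⟨n, u, hu⟩ := IsDiscreteValuationRing.eq_unit_mul_pow_irreducible hbL0 hτ
  -- `ϖ ∈ 𝔪_L = (τ)`
  have hϖm : algebraMap (chartAlg O F {t}) L (algebraMap O (chartAlg O F {t}) ϖ) ∈
      IsLocalRing.maximalIdeal L :=
    (IsLocalization.AtPrime.to_map_mem_maximal_iff L (vCentre W hW) _).2
      (unif_mem_vCentre W hW hϖW)
  rw [(IsDiscreteValuationRing.irreducible_iff_uniformizer τ).1 hτ,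
    Ideal.mem_span_singleton] at hϖm
  obtain ⟨c, hc⟩ := hϖm
  refine ⟨n, ?_⟩
  rw [mem_iff_mem_locAt W hW hϖ hϖ0 hϖW htr]
  -- `ϖ ^ n * z⁻¹ = c ^ n * u⁻¹ * a`
  have hkey : algebraMap O F ϖ ^ n * z⁻¹ =
      ((c ^ n * ((u⁻¹ : Lˣ) : L) * algebraMap (chartAlg O F {t}) L a : L) : F) := by
    have h1 : z⁻¹ * algebraMap (chartAlg O F {t}) F b = algebraMap (chartAlg O F {t}) F a := hab
    have h2 : algebraMap O F ϖ = ((τ * c : L) : F) := by
      rw [← hc]
      rfl
    have h3 : algebraMap (chartAlg O F {t}) F b = ((((u : Lˣ) : L) * τ ^ n : L) : F) := by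
      rw [← hu]
      rfl
    have h4 : ((((u : Lˣ) : L) * ((u⁻¹ : Lˣ) : L) : L) : F) = 1 := by
      rw [Units.mul_inv]
      rfl
    have hz' : z⁻¹ = algebraMap (chartAlg O F {t}) F a / algebraMap (chartAlg O F {t}) F b := by
      rw [eq_div_iff hbF]
      exact h1
    have ha' : algebraMap (chartAlg O F {t}) F a =
        ((algebraMap (chartAlg O F {t}) L a : L) : F) := rfl
    rw [hz', h2, h3] at *
    push_cast at h4 ⊢
    rw [ha']
    have hu0 : (((u : Lˣ) : L) : F) ≠ 0 := by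
      intro h
      rw [h, zero_mul] at h4
      exact zero_ne_one h4
    have hτ0 : ((τ : L) : F) ≠ 0 := by
      intro h
      apply hτ.ne_zero
      exact Subtype.ext h
    have huinv : (((u⁻¹ : Lˣ) : L) : F) = ((((u : Lˣ) : L) : F))⁻¹ :=
      (inv_eq_of_mul_eq_one_right h4).symm
    rw [huinv]
    field_simp
    ring
  rw [hkey]
  exact Subtype.property _

end Minimal

/-! ### The chart hypotheses -/

section Main

variable {O : Type*} [CommRing O] [IsDomain O] [IsDiscreteValuationRing O]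
  {F : Type u} [Field F] [Algebra O F] {t : F}
  [IsNoetherianRing (chartAlg O F {t})] [IsFractionRing (chartAlg O F {t}) F]
  {ι : Type*} [Fintype ι] (V : ι → ValuationSubring F)
  (hV : ∀ i (r : chartAlg O F {t}), algebraMap (chartAlg O F {t}) F r ∈ V i)

/-- **`ChartHyp` for a chart `chartAlg O F {t}`** from `FamVal`, the saturation, the distinctness of
the `V i` and the transcendence of the reduction of `t` in every `V i`. -/
theorem chartHyp_of_trans {ϖ : O} {E : ℕ} {W : Subring F} (hϖ : Irreducible ϖ)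
    (hT : FamVal ϖ W V E)
    (hsat : ∀ r : chartAlg O F {t},
      (∀ i, algebraMap (chartAlg O F {t}) F r *
        (algebraMap (chartAlg O F {t}) F (algebraMap O (chartAlg O F {t}) ϖ))⁻¹ ∈ V i) →
      algebraMap O (chartAlg O F {t}) ϖ ∣ r)
    (hne : ∀ i j, i ≠ j → V i ≠ V j)
    (htr : ∀ i (f : O[X]), aeval t f ∈ (V i).nonunits → ∀ n, ϖ ∣ f.coeff n) :
    ChartHyp V hV ϖ E := by
  have hϖF : ∀ x : O, algebraMap (chartAlg O F {t}) F (algebraMap O (chartAlg O F {t}) x) =
      algebraMap O F x := fun _ => rfl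
  refine
    { irr := hϖ
      ne := algebraMap_unif_ne_zero hT.pi_ne
      mem := fun i => by rw [hϖF]; exact hT.pi_mem i
      pow := ?_
      sep := ?_
      inc := ?_
      sat := ?_
      loc := ?_ }
  · intro i x hx
    rw [hϖF]
    refine ⟨x ^ E * (algebraMap O F ϖ)⁻¹, hT.pow_unif i x hx, ?_⟩
    rw [mul_comm (x ^ E), ← mul_assoc, mul_inv_cancel₀ hT.pi_ne, one_mul]
  · intro i z hz
    rw [hϖF]
    exact exists_pow_mul_inv_mem (V i) (hV i) hϖ hT.pi_ne (hT.pi_mem i) (htr i) z hz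
  · intro i j hij hle
    have hci : centre (V i) (hV i) = vCentre (V i) (hV i) := by
      ext r; rw [mem_vCentre_iff, mem_centre]
    have hcj : centre (V j) (hV j) = vCentre (V j) (hV j) := by
      ext r; rw [mem_vCentre_iff, mem_centre]
    rw [hci, hcj] at hle
    have heq : vCentre (V i) (hV i) = vCentre (V j) (hV j) :=
      vCentre_minimal (V j) (hV j) hϖ (htr j) _ inferInstance
        (vCentre_ne_bot (V i) (hV i) hT.pi_ne (hT.pi_mem i)) hle
    apply hne i j hij
    ext y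
    rw [mem_iff_mem_locAt (V i) (hV i) hϖ hT.pi_ne (hT.pi_mem i) (htr i),
      mem_iff_mem_locAt (V j) (hV j) hϖ hT.pi_ne (hT.pi_mem j) (htr j), mem_locAt_iff,
      mem_locAt_iff]
    simp only [heq]
  · intro r hr
    apply hsat r
    intro i
    obtain ⟨w, hw, hrw⟩ := hr i
    rw [hrw, mul_comm, ← mul_assoc, inv_mul_cancel₀ (by rw [hϖF]; exact hT.pi_ne), one_mul]
    exact hw
  · intro i z hz
    obtain ⟨a, b, hb, h⟩ := exists_frac (V i) (hV i) hϖ hT.pi_ne (hT.pi_mem i) (htr i) z hz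
    refine ⟨a, b, ?_, h⟩
    intro hb'
    apply hb
    rw [mem_vCentre_iff]
    exact hb'

end Main

/-! ### The transcendence hypothesis in a tower over a Gauss ring -/

section Tower

open ModularCurve Fermat.Agent.N4.Setting Fermat.Agent.N4.FibreEmbedding
open Fermat.Agent.N4F.E.GaussDVR Fermat.Agent.S36.C.SemiGaussTower

variable (K : Type) [Field K] [CharZero K] (N : ℕ) [NeZero N]
  (O : Subring K) [IsDiscreteValuationRing ↥O] [IsFractionRing ↥O K]
variable {F' : Type*} [Field F'] [Algebra K F'] [Algebra ↥O F'] [IsScalarTower ↥O K F']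
  (φ : FF K N →ₐ[K] F')

/-- **`htr` in a tower**: if `B ⊇ φ(G_N)` is a valuation subring of `F'` and `s ∈ G_N` has
transcendental reduction, a polynomial `f ∈ O[X]` with `f(φ s) ∈ 𝔪_B` is divisible by `ϖ`. -/
theorem htr_of_tower {s : FF K N} (hs : s ∈ gaussSubalgebra K N O)
    (htrs : Transcendental (IsLocalRing.ResidueField ↥O) (theta K N O ⟨s, hs⟩))
    (B : ValuationSubring F') (hG : ∀ g ∈ gaussSubalgebra K N O, φ g ∈ B)
    {ϖ : ↥O} (hϖ : Irreducible ϖ) (f : (↥O)[X]) (hf : aeval (φ s) f ∈ B.nonunits) :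
    ∀ n, ϖ ∣ f.coeff n := by
  set x : gaussSubalgebra K N O := aeval (⟨s, hs⟩ : gaussSubalgebra K N O) f with hx
  have hxs : (x : FF K N) = aeval s f := by
    rw [hx]
    exact (Subalgebra.aeval_coe (gaussSubalgebra K N O) ⟨s, hs⟩ f).symm
  have hφx : φ (x : FF K N) = aeval (φ s) f := by
    rw [hxs]
    exact (Polynomial.aeval_algHom_apply (phiO K N O φ) s f).symm
  have hθ : theta K N O x = 0 := by
    by_contra hne
    have hinv := inv_mem_of_theta_ne_zero K N O x hne
    have h1 : (φ (x : FF K N))⁻¹ ∈ B := by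
      rw [← map_inv₀]
      exact hG _ hinv
    rw [← hφx, ValuationSubring.mem_nonunits_iff_or] at hf
    rcases hf with h0 | h0
    · apply hne
      have hx0 : (x : FF K N) = 0 := by
        have := (map_eq_zero_iff (φ : FF K N →+* F') (φ : FF K N →+* F').injective).1 h0
        exact this
      have : x = 0 := Subtype.ext hx0
      rw [this, map_zero]
    · exact h0 h1
  obtain ⟨P', hP'⟩ := exists_eq_C_mul_of_theta_eq_zero K N O hϖ ⟨s, hs⟩ htrs f hθ
  exact (Polynomial.C_dvd_iff_dvd_coeff ϖ f).1 ⟨P', hP'⟩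

end Tower

/-! ### The two charts of the top level `M0 q²` -/

section Top

open ModularCurve Fermat.Agent.N4.Setting Fermat.Agent.N4.FibreEmbedding
open Fermat.Agent.N4F.E.GaussDVR Fermat.Agent.S36.C.SemiGaussTower
open Fermat.Agent.S36.C.SemiGaussTop Fermat.Agent.S36.C.ThreeValCover
open Fermat.Agent.S36.Descent.SpineCover Fermat.Agent.S36.One.OneChart
open Fermat.Agent.P3G.FibreSat

variable {K : Type} [Field K] [CharZero K] {M0 q : ℕ} [NeZero M0] [NeZero q]
  {O : Subring K} [IsDiscreteValuationRing ↥O] [IsFractionRing ↥O K]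
  {V11 V02 : ValuationSubring (FF K (M0 * q * q))}

/-- `φ(G_{M0}) ⊆ V i` for the three valuations. -/
theorem hG_fam3
    (hG11 : ∀ g ∈ gaussSubalgebra K M0 O, phi2 K M0 q g ∈ V11)
    (hG02 : ∀ g ∈ gaussSubalgebra K M0 O, phi2 K M0 q g ∈ V02) :
    ∀ i, ∀ g ∈ gaussSubalgebra K M0 O, phi2 K M0 q g ∈ fam3 K M0 q O V11 V02 i :=
  (forall_fam3 K M0 q O (P := fun B => ∀ g ∈ gaussSubalgebra K M0 O, phi2 K M0 q g ∈ B)).2
    ⟨fun g hg => phi2_mem_gaussVS K M0 q O hg, hG11, hG02⟩

/-- The three valuations are pairwise distinct. -/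
theorem fam3_injective (h1 : V11 ≠ gaussVS K (M0 * q * q) O)
    (h2 : V02 ≠ gaussVS K (M0 * q * q) O) (h3 : V11 ≠ V02) :
    ∀ i j, i ≠ j → fam3 K M0 q O V11 V02 i ≠ fam3 K M0 q O V11 V02 j := by
  intro i j hij
  fin_cases i <;> fin_cases j
  · exact absurd rfl hij
  · exact fun h => h1 h.symm
  · exact fun h => h2 h.symm
  · exact fun h => h1 h
  · exact absurd rfl hij
  · exact fun h => h3 h
  · exact fun h => h2 h
  · exact fun h => h3 h.symm
  · exact absurd rfl hij

/-- **`Hp` of `SpineRootsTop.rootsInterface_top`**: the chart hypotheses of the finite chart of the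
top level. -/
theorem chartHyp_fin
    [IsNoetherianRing ↥(Rfin K (M0 * q * q) O)]
    [IsFractionRing ↥(Rfin K (M0 * q * q) O) (FF K (M0 * q * q))]
    {ϖ : ↥O} {E : ℕ} (C : CoverSide K M0 q O ϖ (fam3 K M0 q O V11 V02) E)
    (hG11 : ∀ g ∈ gaussSubalgebra K M0 O, phi2 K M0 q g ∈ V11)
    (hG02 : ∀ g ∈ gaussSubalgebra K M0 O, phi2 K M0 q g ∈ V02)
    (h1 : V11 ≠ gaussVS K (M0 * q * q) O) (h2 : V02 ≠ gaussVS K (M0 * q * q) O)
    (h3 : V11 ≠ V02)
    (hVp : ∀ i (r : ↥(Rfin K (M0 * q * q) O)),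
      algebraMap ↥(Rfin K (M0 * q * q) O) (FF K (M0 * q * q)) r ∈ fam3 K M0 q O V11 V02 i) :
    ChartHyp (fam3 K M0 q O V11 V02) hVp ϖ E := by
  refine chartHyp_of_trans (t := jF K (M0 * q * q)) (fam3 K M0 q O V11 V02) hVp C.irr C.famVal
    (fun r h => hsat_of_semiGauss (fam3 K M0 q O V11 V02) C.semiFin C.famVal r h)
    (fam3_injective h1 h2 h3) ?_
  intro i f hf
  rw [← phi2_jF] at hf
  exact htr_of_tower K M0 O (phi2 K M0 q) (jF_mem_gaussSubalgebra K M0 O)
    (transcendental_theta_jF K M0 O) _ (hG_fam3 hG11 hG02 i) C.irr f hf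

/-- **`Hm` of `SpineRootsTop.rootsInterface_top`**: the chart hypotheses of the chart at infinity of
the top level. -/
theorem chartHyp_inf
    [IsNoetherianRing ↥(Rinf K (M0 * q * q) O)]
    [IsFractionRing ↥(Rinf K (M0 * q * q) O) (FF K (M0 * q * q))]
    {ϖ : ↥O} {E : ℕ} (C : CoverSide K M0 q O ϖ (fam3 K M0 q O V11 V02) E)
    (hG11 : ∀ g ∈ gaussSubalgebra K M0 O, phi2 K M0 q g ∈ V11)
    (hG02 : ∀ g ∈ gaussSubalgebra K M0 O, phi2 K M0 q g ∈ V02)
    (h1 : V11 ≠ gaussVS K (M0 * q * q) O) (h2 : V02 ≠ gaussVS K (M0 * q * q) O)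
    (h3 : V11 ≠ V02)
    (hVm : ∀ i (r : ↥(Rinf K (M0 * q * q) O)),
      algebraMap ↥(Rinf K (M0 * q * q) O) (FF K (M0 * q * q)) r ∈ fam3 K M0 q O V11 V02 i) :
    ChartHyp (fam3 K M0 q O V11 V02) hVm ϖ E := by
  refine chartHyp_of_trans (t := (jF K (M0 * q * q))⁻¹) (fam3 K M0 q O V11 V02) hVm C.irr C.famVal
    (fun r h => hsat_of_semiGauss (fam3 K M0 q O V11 V02) C.semiInf C.famVal r h)
    (fam3_injective h1 h2 h3) ?_
  intro i f hf
  rw [← phi2_jF_inv] at hf
  exact htr_of_tower K M0 O (phi2 K M0 q) (jF_inv_mem_gaussSubalgebra K M0 O)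
    (transcendental_theta_jF_inv K M0 O) _ (hG_fam3 hG11 hG02 i) C.irr f hf

end Top

/-! ### From a `ThreeVal` -/

section OfThreeVal

open ModularCurve Fermat.Agent.N4.Setting Fermat.Agent.N4.FibreEmbedding
open Fermat.Agent.N4F.E.GaussDVR Fermat.Agent.N4F.E.DegreeLevelRaise
open Fermat.Agent.S36.C.SemiGaussTop Fermat.Agent.S36.C.ThreeValCover
open Fermat.Agent.S36.Descent.SpineCover Fermat.Agent.P3G.SecondValuation
open Fermat.Agent.S36.V.ThreeVal

variable {K : Type} [Field K] [CharZero K] {M0 q : ℕ} [NeZero M0] [NeZero q] [hq : Fact q.Prime]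
  {O : Subring K} [IsDiscreteValuationRing ↥O] [IsFractionRing ↥O K]
  {sv : SecondVal K M0 q O}

/-- `φ(G_{M0}) ⊆ V11`. -/
theorem hG11_of_threeVal (T : ThreeVal K M0 q O sv) :
    ∀ g ∈ gaussSubalgebra K M0 O, phi2 K M0 q g ∈ T.V11 := by
  intro g hg
  have h11 : ∀ x : FF K (M0 * q), alphaF K (M0 * q) q x ∈ T.V11 ↔ x ∈ gaussVS K (M0 * q) O := by
    intro x
    rw [← T.comap_alpha_V11]
    rfl
  rw [phi2_apply, h11, mem_gaussVS_iff]
  exact alphaF_mem K O M0 q hg

/-- `φ(G_{M0}) ⊆ V02`. -/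
theorem hG02_of_threeVal (T : ThreeVal K M0 q O sv) :
    ∀ g ∈ gaussSubalgebra K M0 O, phi2 K M0 q g ∈ T.V02 := by
  intro g hg
  have h02 : ∀ x : FF K (M0 * q), alphaF K (M0 * q) q x ∈ T.V02 ↔ x ∈ sv.V := by
    intro x
    rw [← T.comap_alpha_V02]
    rfl
  rw [phi2_apply, h02]
  exact sv.alpha_mem g hg

/-- **`Hp` from a `ThreeVal` and its (C)-side bundle.** -/
theorem chartHyp_fin_of_threeVal
    [IsNoetherianRing ↥(Rfin K (M0 * q * q) O)]
    [IsFractionRing ↥(Rfin K (M0 * q * q) O) (FF K (M0 * q * q))]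
    (T : ThreeVal K M0 q O sv) {ϖ : ↥O} {E : ℕ}
    (C : CoverSide K M0 q O ϖ (fam3 K M0 q O T.V11 T.V02) E)
    (hVp : ∀ i (r : ↥(Rfin K (M0 * q * q) O)),
      algebraMap ↥(Rfin K (M0 * q * q) O) (FF K (M0 * q * q)) r ∈
        fam3 K M0 q O T.V11 T.V02 i) :
    ChartHyp (fam3 K M0 q O T.V11 T.V02) hVp ϖ E :=
  chartHyp_fin C (hG11_of_threeVal T) (hG02_of_threeVal T) T.V11_ne_V20 T.V02_ne_V20
    T.V11_ne_V02 hVp

/-- **`Hm` from a `ThreeVal` and its (C)-side bundle.** -/
theorem chartHyp_inf_of_threeVal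
    [IsNoetherianRing ↥(Rinf K (M0 * q * q) O)]
    [IsFractionRing ↥(Rinf K (M0 * q * q) O) (FF K (M0 * q * q))]
    (T : ThreeVal K M0 q O sv) {ϖ : ↥O} {E : ℕ}
    (C : CoverSide K M0 q O ϖ (fam3 K M0 q O T.V11 T.V02) E)
    (hVm : ∀ i (r : ↥(Rinf K (M0 * q * q) O)),
      algebraMap ↥(Rinf K (M0 * q * q) O) (FF K (M0 * q * q)) r ∈
        fam3 K M0 q O T.V11 T.V02 i) :
    ChartHyp (fam3 K M0 q O T.V11 T.V02) hVm ϖ E :=
  chartHyp_inf C (hG11_of_threeVal T) (hG02_of_threeVal T) T.V11_ne_V20 T.V02_ne_V20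
    T.V11_ne_V02 hVm

/-- The finite chart of the top level lies in the three valuation rings (a `hVp`). -/
theorem hVp_of_threeVal (T : ThreeVal K M0 q O sv) (i : Fin 3)
    (r : ↥(Rfin K (M0 * q * q) O)) :
    algebraMap ↥(Rfin K (M0 * q * q) O) (FF K (M0 * q * q)) r ∈ fam3 K M0 q O T.V11 T.V02 i :=
  Rfin_le_of_gauss K M0 q O (fam3 K M0 q O T.V11 T.V02)
    (hG_fam3 (hG11_of_threeVal T) (hG02_of_threeVal T)) i r

/-- The chart at infinity of the top level lies in the three valuation rings (a `hVm`). -/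
theorem hVm_of_threeVal (T : ThreeVal K M0 q O sv) (i : Fin 3)
    (r : ↥(Rinf K (M0 * q * q) O)) :
    algebraMap ↥(Rinf K (M0 * q * q) O) (FF K (M0 * q * q)) r ∈ fam3 K M0 q O T.V11 T.V02 i :=
  Rinf_le_of_gauss K M0 q O (fam3 K M0 q O T.V11 T.V02)
    (hG_fam3 (hG11_of_threeVal T) (hG02_of_threeVal T)) i r

end OfThreeVal

end Fermat.Agent.S36.D.ChartHypGen
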