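/-
S36, block [I-T] (second typist helper20 for helper2's `D/SplitInst`): **the (V)-inputs of
`R2/TripleFinal` from a `T : ThreeVal K M0 q O sv`**, for BOTH level maps:

* β-side (`φ = betaF K (M0 q) q`; inseparable branch `V10 ← V20`, split branch `V01 ← V02, V11`):
  `insepData_beta`, `splitHomData_beta`;
* α-side (`φ = alphaF K (M0 q) q`; inseparable branch `V01 ← V02`, split branch `V10 ← V20, V11`):
  `insepData_alpha`, `splitHomData_alpha`.

These are exactly the arguments `hI`, `hs` of `TripleFinal.ufd / le_of_comap_le / splitInsep`.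
-/
import Mathlib
import Fermat.Agent.S36.R2.TripleFinal
import Fermat.Agent.S36.V.ThreeVal
import Fermat.Agent.S36.Descent.ConstHypInst
import Fermat.Agent.P3G.FibreComp
import Fermat.Agent.P3G.LevelIntegrality
import Fermat.Agent.S36.V.ThreeValCusp
import Fermat.Agent.S36.Descent.SpineNorm
import Fermat.Agent.S36.Points.ClassifyInst

set_option autoImplicit false
set_option linter.unusedSectionVars false
set_option linter.style.haveILetI false

open ModularCurve Fermat.Agent.S28.Gauss Fermat.Agent.N4.Setting Fermat.Agent.N4.FibreEmbedding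
open Fermat.Agent.N4.Chart Fermat.Agent.N4F.E Fermat.Agent.N4F.E.GaussDVR IsLocalRing
open Fermat.Agent.N4F.E.DegreeLevelRaise Fermat.Agent.P3G.RbarFin
open Fermat.Agent.P3G.SecondValuation Fermat.Agent.S36.V.ThreeVal
open Fermat.Agent.S36.R2.TripleHom Fermat.Agent.S36.R2.TripleGlue
open Fermat.Agent.S36.Descent.ConstHypInst Fermat.Agent.P3G.LevelIntegrality

noncomputable section

namespace Fermat.Agent.S36.D.SplitInstBeta

variable (K : Type) [Field K] [CharZero K] (M0 : ℕ) [NeZero M0] (q : ℕ) [Fact q.Prime]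
  (O : Subring K) [IsDiscreteValuationRing ↥O] [IsFractionRing ↥O K]

set_option quotPrecheck false in
local notation "κ" => IsLocalRing.ResidueField ↥O

/-! ### Generalities -/

/-- The finite chart lies in the Gauss valuation ring. -/
theorem Rfin_le_gaussVS (N : ℕ) [NeZero N] (b : ↥(Rfin K N O)) :
    (b : FF K N) ∈ gaussVS K N O :=
  chartAlg_le_gaussSubalgebra K N O (sFin_le_gauss K N O) b.2

/-- Two elements of the Gauss ring congruent modulo the maximal ideal have the same reduction. -/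
theorem theta_eq_of_sub_mem_nonunits (N : ℕ) [NeZero N] {x y : FF K N}
    (hx : x ∈ gaussSubalgebra K N O) (hy : y ∈ gaussSubalgebra K N O)
    (h : x - y ∈ (gaussVS K N O).nonunits) :
    theta K N O ⟨x, hx⟩ = theta K N O ⟨y, hy⟩ := by
  have hxy : x - y ∈ gaussSubalgebra K N O := (gaussSubalgebra K N O).sub_mem hx hy
  have h0 := (Fermat.Agent.P3G.SecondValuation.mem_nonunits_gaussVS_iff K N O hxy).1 h
  have e : (⟨x - y, hxy⟩ : ↥(gaussSubalgebra K N O)) = ⟨x, hx⟩ - ⟨y, hy⟩ := rfl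
  rw [e, map_sub, sub_eq_zero] at h0
  exact h0

variable {K M0 q O}
variable {sv : SecondVal K M0 q O} (T : ThreeVal K M0 q O sv)


/-! ### The finite chart of level `M0 q²` lies in `V11` and `V02` -/

section Chart

/-- The finite chart of level `M0 q²` lies in the three valuation rings. -/
theorem Rfin_le_fam3 (i : Fin 3) (b : ↥(Rfin K (M0 * q * q) O)) :
    (b : FF K (M0 * q * q)) ∈ Fermat.Agent.S36.C.ThreeValCover.fam3 K M0 q O T.V11 T.V02 i := by
  refine Fermat.Agent.S36.Points.ClassifyInst.chartAlg_le_vs _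
    (fun a => Fermat.Agent.S36.Descent.SpineNorm.algebraMap_mem_fam3 T a i) ?_ b.2
  rw [← Fermat.Agent.S36.Cusp.ModEqFF.jj_eq K M0 q]
  fin_cases i
  · show Fermat.Agent.S36.Cusp.ModEqFF.jj K M0 q ∈ gaussVS K (M0 * q * q) O
    rw [Fermat.Agent.S36.Cusp.ModEqFF.jj_eq K M0 q]
    exact jF_mem_gaussSubalgebra K (M0 * q * q) O
  · exact Fermat.Agent.S36.V.ThreeValCusp.jj_mem_V11 K M0 q O T
  · exact Fermat.Agent.S36.V.ThreeValCusp.jj_mem_V02 K M0 q O T

theorem Rfin_le_V11 (b : ↥(Rfin K (M0 * q * q) O)) : (b : FF K (M0 * q * q)) ∈ T.V11 :=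
  Rfin_le_fam3 T 1 b

theorem Rfin_le_V02 (b : ↥(Rfin K (M0 * q * q) O)) : (b : FF K (M0 * q * q)) ∈ T.V02 :=
  Rfin_le_fam3 T 2 b

end Chart

/-! ### β-side -/

section Beta

variable [CharP (IsLocalRing.ResidueField ↥O) q] (ι : K →+* ℂ) (hqM0 : ¬ q ∣ M0)

include T ι hqM0 in
/-- **`InsepData` along `β₂`**: lower branch `V10`, upper branch `V20`, place `θ₂`. -/
theorem insepData_beta :
    InsepData K M0 q O (betaF K (M0 * q) q) (gaussVS K (M0 * q) O) (gaussVS K (M0 * q * q) O)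
      (evGauss K O (M0 * q * q)) where
  hup := Rfin_le_gaussVS K O (M0 * q * q)
  hcomap := Fermat.Agent.S36.V.Transport.comap_beta_V20 K O M0 q
  honly := fun B hB hϖ => T.only_beta_V10 B hB hϖ
  hram := fun ϖ hϖ => Fermat.Agent.S36.V.Transport.ram_one_gaussVS K O (M0 * q * q) hϖ
  hev := evGauss_eq_zero_iff K O (M0 * q * q)
  hinsep := fun y hy => by
    obtain ⟨a, ha⟩ := T.insep_V20 y hy
    exact ⟨(a : FF K (M0 * q)), a.2, ha⟩
  hD0le := fun r₀ => by
    refine ⟨alphaR K (M0 * q) q O (alphaR K M0 q O r₀), ?_⟩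
    have hr₀ : (r₀ : FF K M0) ∈ gaussSubalgebra K M0 O := Rfin_le_gaussVS K O M0 r₀
    rw [evGauss_apply, thetaFin_apply]
    exact (theta_alphaF K O (M0 * q) q ⟨alphaF K M0 q (r₀ : FF K M0),
      alphaF_mem K O M0 q hr₀⟩).trans (theta_alphaF K O M0 q ⟨(r₀ : FF K M0), hr₀⟩)
  hdeg := fun x => by
    obtain ⟨a, ha⟩ := T.deg_one_V20 (x : FF K (M0 * q * q)) x.2
    obtain ⟨g, hg⟩ := (Fermat.Agent.P3G.FibreComp.gauss_alpha K M0 q O sv ι hqM0).1
      (a : FF K (M0 * q)) a.2
    refine ⟨g, ?_⟩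
    rw [evGauss_apply]
    have h1 := theta_eq_of_sub_mem_nonunits K O (M0 * q * q) x.2
      (alphaF_mem K O (M0 * q) q a.2) ha
    have h2 := theta_eq_of_sub_mem_nonunits K O (M0 * q) a.2 (alphaF_mem K O M0 q g.2) hg
    rw [h1, theta_alphaF K O (M0 * q) q a]
    exact h2.trans (theta_alphaF K O M0 q g)

/-- **`SplitHomData` along `β₂`**: split branch `V01 = sv.V`, upper branches `V02`, `V11`. -/
theorem splitHomData_beta (hV02 : ∀ b : ↥(Rfin K (M0 * q * q) O), (b : FF K (M0 * q * q)) ∈ T.V02)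
    (hV11 : ∀ b : ↥(Rfin K (M0 * q * q) O), (b : FF K (M0 * q * q)) ∈ T.V11) :
    SplitHomData ↥(Rfin K (M0 * q * q) O)
      ((betaF K (M0 * q) q : FF K (M0 * q) →ₐ[K] FF K (M0 * q * q)) :
        FF K (M0 * q) →+* FF K (M0 * q * q)) sv.V T.V02 T.V11 :=
  Fermat.Agent.S36.R2.TripleGlue.splitHomData K M0 q O (betaF K (M0 * q) q) hV02 T.comap_beta_V02
    (fun y hy => by
      obtain ⟨a, ha⟩ := T.deg_one_V02 y hy
      exact ⟨(a : FF K (M0 * q)), a.2, ha⟩)
    hV11 T.comap_beta_V11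
    (fun y hy => by
      obtain ⟨a, ha⟩ := T.deg_one_V11_beta y hy
      exact ⟨(a : FF K (M0 * q)), a.2, ha⟩)

/-- **`SplitHomData` along `β₂`**, no hypothesis left. -/
theorem splitHomData_beta' :
    SplitHomData ↥(Rfin K (M0 * q * q) O)
      ((betaF K (M0 * q) q : FF K (M0 * q) →ₐ[K] FF K (M0 * q * q)) :
        FF K (M0 * q) →+* FF K (M0 * q * q)) sv.V T.V02 T.V11 :=
  splitHomData_beta T (Rfin_le_V02 T) (Rfin_le_V11 T)

end Beta

end Fermat.Agent.S36.D.SplitInstBeta
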