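/-
S36, instantiation of blocks [L]+[D] (helper1): **producer of `ChartRoots.ChartHyp`.**

Abstract layer.  `R` a noetherian integrally closed domain over the DVR `O` (uniformiser `π`),
`F = Frac R`, `V i ⊇ R` finitely many pairwise distinct valuation rings of `F` with `π ∈ 𝔪_{V i}`.
`R` is integral over a base ring `R0` and every centre `𝔪_{V i} ∩ R` lies over the prime `π₀ R0`
("the `V i` extend the Gauss valuation of the base level").  Then, by incomparability for the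
integral extension `R0 → R`, each centre is minimal over `π R`, hence (Krull's principal ideal
theorem + normality) a DVR-prime, `V i = R_{centre}`; this gives the fields `loc`, `inc`, `sep` of
`ChartHyp`; `pow` and `sat` are taken in the shapes delivered by block [C]
(`FamVal.pow_unif`, `IsSemiGaussRing.sat`).

Concrete layers.
* (B1) `chartHyp_of_tower` : the chart `chartAlg O F' {φ s}` at the top of a tower
  `φ : FF K N →ₐ[K] F'` over a level `N` of good reduction (`R0 = chartAlg O (FF K N) {s}`;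
  `hbase` = `dvd_of_phi_mem_nonunits` from `GaussDVR.exists_eq_pow_mul` + `FibreSat.sat_level`).
* (B2) `chartHyp_top_fin/_inf` : both charts of the top level `M0 q²` for ANY family as in
  `SemiGaussTop.no_kummer_pow_top`; `chartHyp_three_fin/_inf` : the family `fam3 = (V20, V11, V02)`
  with inputs in the shapes of `ThreeValCover.no_kummer_pow_three` (+ distinctness).
* (B3) `chartHyp_threeVal_fin/_inf`, `exists_chartHyp_threeVal` : from a `ThreeVal K M0 q O sv`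
  and `Irreducible (q : O)`: `ChartHyp (fam3 …) hV q (q - 1)` on both charts.
-/
import Mathlib
import Fermat.Agent.P3G.Krull
import Fermat.Agent.S16.K8Core
import Fermat.Agent.P3G.Cover.OfValuations
import Fermat.Agent.S36.D.ChartRoots
import Fermat.Agent.S36.C.ThreeValCover
import Fermat.Agent.S36.V.ThreeVal
import Fermat.Agent.N4F.C.ChartDataLevel

set_option autoImplicit false
set_option linter.unusedSectionVars false
set_option linter.style.haveILetI false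

namespace Fermat.Agent.S36.D.ChartHypInst

open Fermat.Agent.N4.Cover.Globalize Fermat.Agent.P3G.Krull
open Fermat.Agent.S36.Local.LocalRoot Fermat.Agent.S36.Local.Spread
open Fermat.Agent.S36.D.ChartRoots
open Fermat.Agent.P3G.Cover.Lift Fermat.Agent.P3G.Cover.OfValuations

universe u

section Abstract

variable {O : Type*} [CommRing O] [IsDomain O] [IsDiscreteValuationRing O]
variable {R : Type*} [CommRing R] [IsDomain R] [IsNoetherianRing R] [IsIntegrallyClosed R]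
  [Algebra O R]
variable {F : Type u} [Field F] [Algebra R F] [IsFractionRing R F]
variable {R0 : Type*} [CommRing R0] [Algebra R0 R] [Algebra.IsIntegral R0 R]
variable {ι : Type*}
variable (V : ι → ValuationSubring F) (hV : ∀ i (r : R), algebraMap R F r ∈ V i)

/-- `vCentre` (P3G/Krull) and `centre` (S36/Local) are the same ideal. -/
theorem vCentre_eq_centre' (W : ValuationSubring F) (hW : ∀ r : R, algebraMap R F r ∈ W) :
    vCentre W hW = centre W hW := by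
  ext r
  rw [mem_vCentre_iff, mem_centre]

/-- **Minimality of the centre** from incomparability along the integral extension `R0 → R`. -/
theorem vCentre_mem_minimalPrimes {ϖ : R} {π₀ : R0} (hπ₀ : algebraMap R0 R π₀ = ϖ) (i : ι)
    (hϖ : algebraMap R F ϖ ∈ (V i).nonunits)
    (hbase : ∀ r₀ : R0, algebraMap R F (algebraMap R0 R r₀) ∈ (V i).nonunits → π₀ ∣ r₀) :
    vCentre (V i) (hV i) ∈ (Ideal.span {ϖ}).minimalPrimes := by
  refine ⟨⟨inferInstance, ?_⟩, ?_⟩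
  · rw [Ideal.span_le, Set.singleton_subset_iff]
    exact (mem_vCentre_iff (V i) (hV i)).2 hϖ
  · rintro 𝔮 ⟨h𝔮, hle⟩ h𝔮le
    haveI := h𝔮
    by_contra hnot
    obtain ⟨x, hxP, hx𝔮⟩ := Set.not_subset.1 hnot
    have hlt := Ideal.comap_lt_comap_of_integral_mem_sdiff (R := R0) h𝔮le
      (show x ∈ (↑(vCentre (V i) (hV i)) : Set R) \ ↑𝔮 from ⟨hxP, hx𝔮⟩)
      (Algebra.IsIntegral.isIntegral x)
    obtain ⟨r₀, hr₀P, hr₀𝔮⟩ := Set.not_subset.1 (not_le_of_gt hlt)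
    apply hr₀𝔮
    have h1 : algebraMap R F (algebraMap R0 R r₀) ∈ (V i).nonunits :=
      (mem_vCentre_iff (V i) (hV i)).1 hr₀P
    obtain ⟨c, rfl⟩ := hbase r₀ h1
    show algebraMap R0 R (π₀ * c) ∈ 𝔮
    rw [map_mul, hπ₀]
    exact 𝔮.mul_mem_right _ (hle (Ideal.subset_span rfl))

/-- The centre of `V i` is a DVR-prime. -/
theorem isDVR_locAt_vCentre {ϖ : R} (hϖ0 : ϖ ≠ 0) {π₀ : R0} (hπ₀ : algebraMap R0 R π₀ = ϖ) (i : ι)
    (hϖ : algebraMap R F ϖ ∈ (V i).nonunits)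
    (hbase : ∀ r₀ : R0, algebraMap R F (algebraMap R0 R r₀) ∈ (V i).nonunits → π₀ ∣ r₀) :
    IsDiscreteValuationRing (locAt (F := F) (vCentre (V i) (hV i))) :=
  Fermat.Agent.S16.K8Core.isDVR_locAt_of_mem_minimalPrimes _ hϖ0
    (vCentre_mem_minimalPrimes V hV hπ₀ i hϖ hbase)

/-- `V i` is the localisation of `R` at its centre. -/
theorem mem_iff_mem_locAt_vCentre {ϖ : R} (hϖ0 : ϖ ≠ 0) {π₀ : R0}
    (hπ₀ : algebraMap R0 R π₀ = ϖ) (i : ι) (hϖ : algebraMap R F ϖ ∈ (V i).nonunits)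
    (hbase : ∀ r₀ : R0, algebraMap R F (algebraMap R0 R r₀) ∈ (V i).nonunits → π₀ ∣ r₀) (y : F) :
    y ∈ V i ↔ y ∈ locAt (F := F) (vCentre (V i) (hV i)) :=
  mem_valuationSubring_iff_mem_locAt (V i) (hV i) _ rfl
    (isDVR_locAt_vCentre V hV hϖ0 hπ₀ i hϖ hbase) y

/-- **`loc`.** -/
theorem loc_of_base {ϖ : R} (hϖ0 : ϖ ≠ 0) {π₀ : R0} (hπ₀ : algebraMap R0 R π₀ = ϖ) (i : ι)
    (hϖ : algebraMap R F ϖ ∈ (V i).nonunits)
    (hbase : ∀ r₀ : R0, algebraMap R F (algebraMap R0 R r₀) ∈ (V i).nonunits → π₀ ∣ r₀) :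
    ∀ z ∈ V i, ∃ a b : R, b ∉ centre (V i) (hV i) ∧
      z * algebraMap R F b = algebraMap R F a := by
  intro z hz
  obtain ⟨a, b, hb, hab⟩ := (mem_locAt_iff _ z).1
    ((mem_iff_mem_locAt_vCentre V hV hϖ0 hπ₀ i hϖ hbase z).1 hz)
  exact ⟨a, b, by rwa [← vCentre_eq_centre'], hab⟩

/-- **`inc`**: distinct `V i` have incomparable centres. -/
theorem inc_of_base {ϖ : R} (hϖ0 : ϖ ≠ 0) {π₀ : R0} (hπ₀ : algebraMap R0 R π₀ = ϖ)
    (hϖ : ∀ i, algebraMap R F ϖ ∈ (V i).nonunits)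
    (hbase : ∀ i, ∀ r₀ : R0, algebraMap R F (algebraMap R0 R r₀) ∈ (V i).nonunits → π₀ ∣ r₀)
    (hdist : ∀ i j, i ≠ j → V i ≠ V j) :
    ∀ i j, i ≠ j → ¬ centre (V i) (hV i) ≤ centre (V j) (hV j) := by
  intro i j hij hle
  rw [← vCentre_eq_centre', ← vCentre_eq_centre'] at hle
  have hne : vCentre (V i) (hV i) ≠ ⊥ := by
    intro hbot
    have : ϖ ∈ vCentre (V i) (hV i) := (mem_vCentre_iff _ _).2 (hϖ i)
    rw [hbot, Ideal.mem_bot] at this
    exact hϖ0 this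
  have heq : vCentre (V i) (hV i) = vCentre (V j) (hV j) :=
    eq_of_le_of_dvr (F := F) (isDVR_locAt_vCentre V hV hϖ0 hπ₀ j (hϖ j) (hbase j)) hne hle
  apply hdist i j hij
  ext y
  rw [mem_iff_mem_locAt_vCentre V hV hϖ0 hπ₀ i (hϖ i) (hbase i) y,
    mem_iff_mem_locAt_vCentre V hV hϖ0 hπ₀ j (hϖ j) (hbase j) y]
  simp only [heq]

include hV in
/-- **`sep`**: `V i` is `ϖ`-adically separated (it is a DVR). -/
theorem sep_of_base {ϖ : R} (hϖ0 : ϖ ≠ 0) {π₀ : R0} (hπ₀ : algebraMap R0 R π₀ = ϖ) (i : ι)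
    (hϖ : algebraMap R F ϖ ∈ (V i).nonunits)
    (hbase : ∀ r₀ : R0, algebraMap R F (algebraMap R0 R r₀) ∈ (V i).nonunits → π₀ ∣ r₀)
    (z : F) (hz : z ≠ 0) : ∃ n : ℕ, algebraMap R F ϖ ^ n * z⁻¹ ∈ V i := by
  classical
  set P := vCentre (V i) (hV i) with hP
  set L := locAt (F := F) P with hL
  have hiff : ∀ y : F, y ∈ V i ↔ y ∈ L := mem_iff_mem_locAt_vCentre V hV hϖ0 hπ₀ i hϖ hbase
  haveI : IsLocalRing L := isLocalRing_locAt P
  haveI : IsNoetherianRing L := isNoetherianRing_locAt P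
  have hϖF : algebraMap R F ϖ ≠ 0 := algebraMap_ne_zero hϖ0
  by_contra hcon
  have hcon' : ∀ n : ℕ, algebraMap R F ϖ ^ n * z⁻¹ ∉ V i := fun n h => hcon ⟨n, h⟩
  -- `z / ϖ ^ n ∈ V i` for every `n`
  have hall : ∀ n : ℕ, z * (algebraMap R F ϖ ^ n)⁻¹ ∈ V i := by
    intro n
    rcases (V i).mem_or_inv_mem (algebraMap R F ϖ ^ n * z⁻¹) with h | h
    · exact absurd h (hcon' n)
    · rwa [mul_inv, inv_inv, mul_comm] at h
  have hzL : z ∈ L := (hiff z).1 (by simpa using hall 0)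
  -- the ideal `(ϖ)` of `L` is proper
  set ϖL : L := algebraMap R L ϖ with hϖL
  have hϖLcoe : ((ϖL : L) : F) = algebraMap R F ϖ := rfl
  have hI : Ideal.span {ϖL} ≠ ⊤ := by
    intro htop
    rw [Ideal.span_singleton_eq_top] at htop
    obtain ⟨u, hu⟩ := htop
    have h1 : ((u⁻¹ : Lˣ) : L) * ϖL = 1 := by rw [← hu]; simp
    have h2 : (((u⁻¹ : Lˣ) : L) : F) * algebraMap R F ϖ = 1 := by
      have := congrArg (fun l : L => (l : F)) h1
      simp only [MulMemClass.coe_mul, OneMemClass.coe_one] at this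
      rw [← hϖLcoe]
      exact this
    have h3 : (algebraMap R F ϖ)⁻¹ ∈ V i := by
      have : (algebraMap R F ϖ)⁻¹ = (((u⁻¹ : Lˣ) : L) : F) := by
        field_simp
        rw [mul_comm]; exact h2.symm
      rw [this]
      exact (hiff _).2 ((u⁻¹ : Lˣ) : L).2
    have h4 : (V i).valuation (algebraMap R F ϖ) < 1 := (V i).mem_nonunits_iff.1 hϖ
    have h5 : (V i).valuation (algebraMap R F ϖ)⁻¹ ≤ 1 := ((V i).valuation_le_one_iff _).2 h3
    have h6 : (V i).valuation (algebraMap R F ϖ * (algebraMap R F ϖ)⁻¹) < 1 := by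
      rw [map_mul]
      calc (V i).valuation (algebraMap R F ϖ) * (V i).valuation (algebraMap R F ϖ)⁻¹
          ≤ (V i).valuation (algebraMap R F ϖ) * 1 := by gcongr
        _ = (V i).valuation (algebraMap R F ϖ) := mul_one _
        _ < 1 := h4
    rw [mul_inv_cancel₀ hϖF, map_one] at h6
    exact lt_irrefl _ h6
  -- Krull's intersection theorem
  have hK := Ideal.iInf_pow_eq_bot_of_isLocalRing (Ideal.span {ϖL}) hI
  have hmem : (⟨z, hzL⟩ : L) ∈ ⨅ n : ℕ, Ideal.span {ϖL} ^ n := by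
    rw [Ideal.mem_iInf]
    intro n
    rw [Ideal.span_singleton_pow, Ideal.mem_span_singleton']
    refine ⟨⟨z * (algebraMap R F ϖ ^ n)⁻¹, (hiff _).1 (hall n)⟩, ?_⟩
    apply Subtype.ext
    show z * (algebraMap R F ϖ ^ n)⁻¹ * ((ϖL ^ n : L) : F) = z
    rw [SubmonoidClass.coe_pow, hϖLcoe]
    field_simp
  rw [hK, Ideal.mem_bot] at hmem
  exact hz (congrArg (fun l : L => (l : F)) hmem)

/-- **The `ChartHyp` producer (abstract form).**  `pow` in the shape of `FamVal.pow_unif`, `sat` in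
the shape of `Cover.OfValuations.isSemiGaussRing_iInf` / `SemiGaussTower.hsat_of_tower`; `loc`,
`inc`, `sep` from Krull + incomparability along the integral extension `R0 → R`. -/
theorem chartHyp_of_base {π : O} (hirr : Irreducible π) (hne : algebraMap O R π ≠ 0)
    {π₀ : R0} (hπ₀ : algebraMap R0 R π₀ = algebraMap O R π)
    (hϖ : ∀ i, algebraMap R F (algebraMap O R π) ∈ (V i).nonunits)
    (hbase : ∀ i, ∀ r₀ : R0, algebraMap R F (algebraMap R0 R r₀) ∈ (V i).nonunits → π₀ ∣ r₀)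
    (hdist : ∀ i j, i ≠ j → V i ≠ V j) (E : ℕ)
    (hpow : ∀ i, ∀ x ∈ (V i).nonunits, x ^ E * (algebraMap R F (algebraMap O R π))⁻¹ ∈ V i)
    (hsat : ∀ r : R, (∀ i, algebraMap R F r * (algebraMap R F (algebraMap O R π))⁻¹ ∈ V i) →
      algebraMap O R π ∣ r) :
    ChartHyp V hV π E := by
  have hϖF : algebraMap R F (algebraMap O R π) ≠ 0 := algebraMap_ne_zero hne
  refine ⟨hirr, hne, hϖ, ?_, ?_, ?_, ?_, ?_⟩
  · intro i x hx
    refine ⟨x ^ E * (algebraMap R F (algebraMap O R π))⁻¹, hpow i x hx, ?_⟩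
    field_simp
  · intro i z hz
    exact sep_of_base V hV hne hπ₀ i (hϖ i) (hbase i) z hz
  · exact inc_of_base V hV hne hπ₀ hϖ hbase hdist
  · intro r hr
    apply hsat r
    intro i
    obtain ⟨w, hw, hrw⟩ := hr i
    have : algebraMap R F r * (algebraMap R F (algebraMap O R π))⁻¹ = w := by
      rw [hrw]; field_simp
    rw [this]
    exact hw
  · intro i
    exact loc_of_base V hV hne hπ₀ i (hϖ i) (hbase i)

/-- Variant with `sat` from a semilocal Gauss ring structure on `⋂ V i` (block [C1]). -/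
theorem chartHyp_of_isSemiGaussRing {π : O} (hirr : Irreducible π)
    {π₀ : R0} (hπ₀ : algebraMap R0 R π₀ = algebraMap O R π)
    (hSG : IsSemiGaussRing (iInfSubring V) (algebraMap O R π))
    (hϖ : ∀ i, algebraMap R F (algebraMap O R π) ∈ (V i).nonunits)
    (hbase : ∀ i, ∀ r₀ : R0, algebraMap R F (algebraMap R0 R r₀) ∈ (V i).nonunits → π₀ ∣ r₀)
    (hdist : ∀ i j, i ≠ j → V i ≠ V j) (E : ℕ)
    (hpow : ∀ i, ∀ x ∈ (V i).nonunits, x ^ E * (algebraMap R F (algebraMap O R π))⁻¹ ∈ V i) :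
    ChartHyp V hV π E := by
  have hϖF : algebraMap R F (algebraMap O R π) ≠ 0 := hSG.ne_zero
  have hne : algebraMap O R π ≠ 0 := fun h => hϖF (by rw [h, map_zero])
  refine chartHyp_of_base V hV hirr hne hπ₀ hϖ hbase hdist E hpow ?_
  intro r hr
  refine hSG.sat r ⟨algebraMap R F r * (algebraMap R F (algebraMap O R π))⁻¹,
    (mem_iInfSubring V _).2 hr, ?_⟩
  field_simp

end Abstract

/-! ### Layer B1: a chart at the top of a tower `φ : FF K N → F'` -/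

section Tower

open ModularCurve Fermat.Agent.S28.Gauss Fermat.Agent.N4.Setting Fermat.Agent.N4.FibreEmbedding
open Fermat.Agent.N4F.E.GaussDVR Fermat.Agent.N4.Chart Fermat.Agent.P3G.FibreSat
open Fermat.Agent.S36.C.SemiGaussTower

variable (K : Type) [Field K] [CharZero K] (N : ℕ) [NeZero N]
  (O : Subring K) [IsDiscreteValuationRing ↥O] [IsFractionRing ↥O K]
variable {F' : Type u} [Field F'] [Algebra K F'] [Algebra ↥O F'] [IsScalarTower ↥O K F']
  (φ : FF K N →ₐ[K] F')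

set_option quotPrecheck false in
local notation "κ" => IsLocalRing.ResidueField ↥O

/-- `φ` restricted to the charts `chartAlg O (FF K N) {s} → chartAlg O F' {φ s}`. -/
noncomputable def chartMap (s : FF K N) :
    ↥(chartAlg ↥O (FF K N) {s}) →+* ↥(chartAlg ↥O F' {φ s}) :=
  ((φ : FF K N →+* F').comp (chartAlg ↥O (FF K N) {s}).toSubring.subtype).codRestrict
    (chartAlg ↥O F' {φ s}).toSubring (fun r => phi_mem_chartAlg K N O φ r.2)

theorem coe_chartMap (s : FF K N) (r : ↥(chartAlg ↥O (FF K N) {s})) :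
    ((chartMap K N O φ s r : ↥(chartAlg ↥O F' {φ s})) : F') = φ (r : FF K N) := rfl

/-- The top chart is integral over the base chart. -/
theorem chartMap_isIntegral (s : FF K N) : (chartMap K N O φ s).IsIntegral := by
  intro x
  have h1 : ((φ : FF K N →+* F').comp
      (algebraMap ↥(chartAlg ↥O (FF K N) {s}) (FF K N))).IsIntegralElem (x : F') :=
    isIntegralElem_of_isIntegral_adjoin_image (phiO K N O φ)
      (chartAlg ↥O (FF K N) {s}) {s} (subset_chartAlg {s}) (x := (x : F')) (by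
        rw [Set.image_singleton]
        exact mem_chartAlg_iff.mp x.2)
  obtain ⟨P, hPm, hP⟩ := h1
  refine ⟨P, hPm, ?_⟩
  apply Subtype.ext
  have h2 := Polynomial.hom_eval₂ P (chartMap K N O φ s)
    (algebraMap ↥(chartAlg ↥O F' {φ s}) F') x
  rw [ZeroMemClass.coe_zero]
  refine Eq.trans ?_ hP
  exact h2

/-- An element of the base chart whose image is a nonunit of a valuation ring `B ⊇ φ(G_N)` with
`ϖ ∈ 𝔪_B` is divisible by `ϖ` in the base chart (good reduction at level `N`). -/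
theorem dvd_of_phi_mem_nonunits {s : FF K N} (hs : s ∈ gaussSubalgebra K N O)
    (htr : Transcendental κ (theta K N O ⟨s, hs⟩))
    (hprime : (fibreIdeal K N O (chartAlg ↥O (FF K N) {s})).IsPrime)
    {ϖ : ↥O} (hϖ : Irreducible ϖ) (B : ValuationSubring F')
    (hG : ∀ g ∈ gaussSubalgebra K N O, φ g ∈ B)
    (r₀ : ↥(chartAlg ↥O (FF K N) {s})) (hr₀ : φ (r₀ : FF K N) ∈ B.nonunits) :
    algebraMap ↥O ↥(chartAlg ↥O (FF K N) {s}) ϖ ∣ r₀ := by
  have hS : ({s} : Set (FF K N)) ⊆ (gaussSubalgebra K N O : Set (FF K N)) :=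
    Set.singleton_subset_iff.mpr hs
  have hϖF : algebraMap ↥O (FF K N) ϖ ≠ 0 := algebraMap_ne_zero K N O hϖ.ne_zero
  have hr₀G : (r₀ : FF K N) ∈ gaussSubalgebra K N O := chartAlg_le_gaussSubalgebra K N O hS r₀.2
  by_cases h0 : r₀ = 0
  · rw [h0]; exact dvd_zero _
  have hne : (⟨(r₀ : FF K N), hr₀G⟩ : gaussSubalgebra K N O) ≠ 0 := by
    intro h
    apply h0
    apply Subtype.ext
    exact congrArg (fun z : gaussSubalgebra K N O => (z : FF K N)) h
  obtain ⟨n, u, hu, hxu⟩ := exists_eq_pow_mul K N O hϖ ⟨(r₀ : FF K N), hr₀G⟩ hne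
  have hui := inv_mem_of_theta_ne_zero K N O u hu
  have hxu' : (r₀ : FF K N) = (algebraMap ↥O (FF K N) ϖ) ^ n * (u : FF K N) := by
    have := congrArg (fun z : gaussSubalgebra K N O => (z : FF K N)) hxu
    simpa using this
  have hu0 : (u : FF K N) ≠ 0 := by
    intro h
    apply hne
    apply Subtype.ext
    show (r₀ : FF K N) = 0
    rw [hxu', h, mul_zero]
  -- `φ u` is a unit of `B`
  have hφu : φ (u : FF K N) ∈ B := hG _ u.2
  have hφui : (φ (u : FF K N))⁻¹ ∈ B := by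
    rw [← map_inv₀]; exact hG _ hui
  rcases Nat.eq_zero_or_pos n with hn | hn
  · -- `n = 0`: `φ r₀` is a unit of `B`
    exfalso
    rw [hn, pow_zero, one_mul] at hxu'
    rw [hxu'] at hr₀
    have h1 : B.valuation (φ (u : FF K N)) < 1 := B.mem_nonunits_iff.1 hr₀
    have h2 : B.valuation (φ (u : FF K N))⁻¹ ≤ 1 := (B.valuation_le_one_iff _).2 hφui
    have hφu0 : φ (u : FF K N) ≠ 0 := (_root_.map_ne_zero _).mpr hu0
    have h3 : B.valuation (φ (u : FF K N) * (φ (u : FF K N))⁻¹) < 1 := by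
      rw [map_mul]
      calc B.valuation (φ (u : FF K N)) * B.valuation (φ (u : FF K N))⁻¹
          ≤ B.valuation (φ (u : FF K N)) * 1 := by gcongr
        _ = B.valuation (φ (u : FF K N)) := mul_one _
        _ < 1 := h1
    rw [mul_inv_cancel₀ hφu0, map_one] at h3
    exact lt_irrefl _ h3
  · -- `n ≥ 1`: `r₀ / ϖ ∈ G_N`, hence in the chart by saturation
    have hdiv : (r₀ : FF K N) * (algebraMap ↥O (FF K N) ϖ)⁻¹ =
        (algebraMap ↥O (FF K N) ϖ) ^ (n - 1) * (u : FF K N) := by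
      rw [hxu']
      obtain ⟨m, rfl⟩ : ∃ m, n = m + 1 := ⟨n - 1, by omega⟩
      rw [Nat.add_sub_cancel, pow_succ]
      field_simp
    have hmemG : (r₀ : FF K N) * (algebraMap ↥O (FF K N) ϖ)⁻¹ ∈ gaussSubalgebra K N O := by
      rw [hdiv]
      exact (gaussSubalgebra K N O).mul_mem
        (pow_mem ((gaussSubalgebra K N O).algebraMap_mem ϖ) _) u.2
    have hmem := sat_level K N O hs htr hprime hϖ r₀.2 hmemG
    refine ⟨⟨_, hmem⟩, ?_⟩
    apply Subtype.ext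
    show (r₀ : FF K N) = algebraMap ↥O (FF K N) ϖ *
      ((r₀ : FF K N) * (algebraMap ↥O (FF K N) ϖ)⁻¹)
    field_simp

variable {ι : Type*} (V : ι → ValuationSubring F')

/-- **`ChartHyp` for the chart `chartAlg O F' {φ s}` at the top of a tower** over a level `N` of
good reduction.  `pow` in the shape of `FamVal.pow_unif`, the integrality `hint` as in
`SemiGaussTower.isSemiGaussRing_of_tower` (from `integralOverGauss_of_only`). -/
theorem chartHyp_of_tower {s : FF K N} (hs : s ∈ gaussSubalgebra K N O)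
    (htr : Transcendental κ (theta K N O ⟨s, hs⟩))
    (hprime : (fibreIdeal K N O (chartAlg ↥O (FF K N) {s})).IsPrime)
    {ϖ : ↥O} (hϖ : Irreducible ϖ)
    [IsNoetherianRing ↥(chartAlg ↥O F' {φ s})] [IsFractionRing ↥(chartAlg ↥O F' {φ s}) F']
    (hG : ∀ i, ∀ g ∈ gaussSubalgebra K N O, φ g ∈ V i)
    (hϖV : ∀ i, algebraMap ↥O F' ϖ ∈ (V i).nonunits)
    (hint : ∀ y : F', (∀ i, y ∈ V i) → IntegralOverGauss K N O φ y)
    (hdist : ∀ i j, i ≠ j → V i ≠ V j) (E : ℕ)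
    (hpow : ∀ i, ∀ x ∈ (V i).nonunits, x ^ E * (algebraMap ↥O F' ϖ)⁻¹ ∈ V i)
    (hV : ∀ i (r : ↥(chartAlg ↥O F' {φ s})), algebraMap ↥(chartAlg ↥O F' {φ s}) F' r ∈ V i) :
    ChartHyp V hV ϖ E := by
  classical
  haveI : IsIntegrallyClosed ↥(chartAlg ↥O F' {φ s}) :=
    (isIntegrallyClosed_iff F').2 fun {x} hx => ⟨⟨x, isIntegral_chartAlg_iff.1 hx⟩, rfl⟩
  letI : Algebra ↥(chartAlg ↥O (FF K N) {s}) ↥(chartAlg ↥O F' {φ s}) :=
    (chartMap K N O φ s).toAlgebra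
  haveI : Algebra.IsIntegral ↥(chartAlg ↥O (FF K N) {s}) ↥(chartAlg ↥O F' {φ s}) :=
    ⟨chartMap_isIntegral K N O φ s⟩
  have hϖF : algebraMap ↥O F' ϖ ≠ 0 := by
    rw [← phi_algebraMap_O K N O φ]
    exact (_root_.map_ne_zero _).mpr (algebraMap_ne_zero K N O hϖ.ne_zero)
  have hne : algebraMap ↥O ↥(chartAlg ↥O F' {φ s}) ϖ ≠ 0 := by
    intro h
    apply hϖF
    have := congrArg (fun z : ↥(chartAlg ↥O F' {φ s}) => (z : F')) h
    simpa using this
  refine chartHyp_of_base (R0 := ↥(chartAlg ↥O (FF K N) {s})) V hV hϖ hne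
    (π₀ := algebraMap ↥O ↥(chartAlg ↥O (FF K N) {s}) ϖ) ?_ hϖV ?_ hdist E hpow ?_
  · apply Subtype.ext
    show φ (algebraMap ↥O (FF K N) ϖ) = algebraMap ↥O F' ϖ
    exact phi_algebraMap_O K N O φ ϖ
  · intro i r₀ hr₀
    exact dvd_of_phi_mem_nonunits K N O φ hs htr hprime hϖ (V i) (hG i) r₀ hr₀
  · intro r hr
    exact hsat_of_tower K N O φ V hs htr hprime hϖ hϖF hint r hr

/-- The same with the generator of the top chart renamed (`φ s = t`). -/
theorem chartHyp_of_tower' {s : FF K N} (hs : s ∈ gaussSubalgebra K N O)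
    (htr : Transcendental κ (theta K N O ⟨s, hs⟩))
    (hprime : (fibreIdeal K N O (chartAlg ↥O (FF K N) {s})).IsPrime)
    {ϖ : ↥O} (hϖ : Irreducible ϖ) {t : F'} (ht : φ s = t)
    [IsNoetherianRing ↥(chartAlg ↥O F' {t})] [IsFractionRing ↥(chartAlg ↥O F' {t}) F']
    (hG : ∀ i, ∀ g ∈ gaussSubalgebra K N O, φ g ∈ V i)
    (hϖV : ∀ i, algebraMap ↥O F' ϖ ∈ (V i).nonunits)
    (hint : ∀ y : F', (∀ i, y ∈ V i) → IntegralOverGauss K N O φ y)
    (hdist : ∀ i j, i ≠ j → V i ≠ V j) (E : ℕ)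
    (hpow : ∀ i, ∀ x ∈ (V i).nonunits, x ^ E * (algebraMap ↥O F' ϖ)⁻¹ ∈ V i)
    (hV : ∀ i (r : ↥(chartAlg ↥O F' {t})), algebraMap ↥(chartAlg ↥O F' {t}) F' r ∈ V i) :
    ChartHyp V hV ϖ E := by
  subst ht
  exact chartHyp_of_tower K N O φ V hs htr hprime hϖ hG hϖV hint hdist E hpow hV

end Tower

/-! ### Layer B2: the two charts of the top level `M0 q²` -/

section Top

open ModularCurve Fermat.Agent.S28.Gauss Fermat.Agent.N4.Setting Fermat.Agent.N4.FibreEmbedding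
open Fermat.Agent.N4F.E.GaussDVR Fermat.Agent.N4F.E.DegreeLevelRaise Fermat.Agent.N4.Chart
open Fermat.Agent.P3G.FibreSat Fermat.Agent.S36.C.SemiGaussTower Fermat.Agent.S36.C.SemiGaussTop
open Fermat.Agent.S36.C.ThreeValCover Fermat.Agent.S36.C.FamValOfUnif
open Fermat.Agent.N4F.C.ChartDataLevel Fermat.Agent.S36.C.PowCoverFam

variable (K : Type) [Field K] [CharZero K] (M0 q : ℕ) [NeZero M0] [NeZero q]
  (O : Subring K) [IsDiscreteValuationRing ↥O] [IsFractionRing ↥O K]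

/-- **`ChartHyp` for the finite chart of the top level `M0 q²`**, any family `V i ⊇ φ(G_{M0})`
(`φ = α₂ ∘ α₁`) which exhausts the valuation subrings over `φ(G_{M0})` with `ϖ` a nonunit, with
uniformisers `Π i`, `ϖ = u_i Π_i ^ (e i)`, `1 ≤ e i ≤ E` (the hypotheses of
`SemiGaussTop.no_kummer_pow_top`) and pairwise distinct. -/
theorem chartHyp_top_fin (ι : K →+* ℂ)
    (hprime : (fibreIdeal K M0 O (Rfin K M0 O)).IsPrime) {ϖ : ↥O} (hϖ : Irreducible ϖ)
    {ι' : Type*} (V : ι' → ValuationSubring (FF K (M0 * q * q)))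
    (hG : ∀ i, ∀ g ∈ gaussSubalgebra K M0 O, phi2 K M0 q g ∈ V i)
    (honly : ∀ B : ValuationSubring (FF K (M0 * q * q)),
      (∀ g ∈ gaussSubalgebra K M0 O, phi2 K M0 q g ∈ B) →
      algebraMap ↥O (FF K (M0 * q * q)) ϖ ∈ B.nonunits → ∃ i, ∀ y, y ∈ V i → y ∈ B)
    (hdist : ∀ i j, i ≠ j → V i ≠ V j)
    (E : ℕ) (Pi : ι' → FF K (M0 * q * q)) (e : ι' → ℕ) (he : ∀ i, 1 ≤ e i ∧ e i ≤ E)
    (hPi : ∀ i, Pi i ∈ (V i).nonunits)
    (hunif : ∀ i, ∀ x ∈ (V i).nonunits, x * (Pi i)⁻¹ ∈ V i)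
    (hπ : ∀ i, ∃ u : FF K (M0 * q * q), u ∈ V i ∧ u⁻¹ ∈ V i ∧
      algebraMap ↥O (FF K (M0 * q * q)) ϖ = u * Pi i ^ e i)
    (hV : ∀ i (r : ↥(chartAlg ↥O (FF K (M0 * q * q)) {jF K (M0 * q * q)})),
      algebraMap ↥(chartAlg ↥O (FF K (M0 * q * q)) {jF K (M0 * q * q)})
        (FF K (M0 * q * q)) r ∈ V i) :
    ChartHyp V hV ϖ E := by
  haveI : IsNoetherianRing ↥(chartAlg ↥O (FF K (M0 * q * q)) {jF K (M0 * q * q)}) :=
    isNoetherianRing_Rfin K (M0 * q * q) O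
  haveI : IsFractionRing ↥(chartAlg ↥O (FF K (M0 * q * q)) {jF K (M0 * q * q)})
      (FF K (M0 * q * q)) := isFractionRing_Rfin K (M0 * q * q) O
  have hϖ0 : algebraMap ↥O (FF K (M0 * q * q)) ϖ ≠ 0 :=
    algebraMap_ne_zero K (M0 * q * q) O hϖ.ne_zero
  have hT : FamVal ϖ (iInfSubring V) V E :=
    famVal_of_uniformisers V ϖ E Pi e he hPi hunif hπ hϖ0
  exact chartHyp_of_tower' K M0 O (phi2 K M0 q) V (jF_mem_gaussSubalgebra K M0 O)
    (Fermat.Agent.P3G.FibreSat.transcendental_theta_jF K M0 O) hprime hϖ (phi2_jF K M0 q) hG hT.pi_mem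
    (integral_of_only K M0 q O V ι hϖ honly) hdist E hT.pow_unif hV

/-- **`ChartHyp` for the chart at infinity of the top level `M0 q²`.** -/
theorem chartHyp_top_inf (ι : K →+* ℂ)
    (hprimeInf : (fibreIdeal K M0 O (Rinf K M0 O)).IsPrime) {ϖ : ↥O} (hϖ : Irreducible ϖ)
    {ι' : Type*} (V : ι' → ValuationSubring (FF K (M0 * q * q)))
    (hG : ∀ i, ∀ g ∈ gaussSubalgebra K M0 O, phi2 K M0 q g ∈ V i)
    (honly : ∀ B : ValuationSubring (FF K (M0 * q * q)),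
      (∀ g ∈ gaussSubalgebra K M0 O, phi2 K M0 q g ∈ B) →
      algebraMap ↥O (FF K (M0 * q * q)) ϖ ∈ B.nonunits → ∃ i, ∀ y, y ∈ V i → y ∈ B)
    (hdist : ∀ i j, i ≠ j → V i ≠ V j)
    (E : ℕ) (Pi : ι' → FF K (M0 * q * q)) (e : ι' → ℕ) (he : ∀ i, 1 ≤ e i ∧ e i ≤ E)
    (hPi : ∀ i, Pi i ∈ (V i).nonunits)
    (hunif : ∀ i, ∀ x ∈ (V i).nonunits, x * (Pi i)⁻¹ ∈ V i)
    (hπ : ∀ i, ∃ u : FF K (M0 * q * q), u ∈ V i ∧ u⁻¹ ∈ V i ∧
      algebraMap ↥O (FF K (M0 * q * q)) ϖ = u * Pi i ^ e i)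
    (hV : ∀ i (r : ↥(chartAlg ↥O (FF K (M0 * q * q)) {(jF K (M0 * q * q))⁻¹})),
      algebraMap ↥(chartAlg ↥O (FF K (M0 * q * q)) {(jF K (M0 * q * q))⁻¹})
        (FF K (M0 * q * q)) r ∈ V i) :
    ChartHyp V hV ϖ E := by
  haveI : IsNoetherianRing ↥(chartAlg ↥O (FF K (M0 * q * q)) {(jF K (M0 * q * q))⁻¹}) :=
    isNoetherianRing_Rinf K (M0 * q * q) O
  haveI : IsFractionRing ↥(chartAlg ↥O (FF K (M0 * q * q)) {(jF K (M0 * q * q))⁻¹})
      (FF K (M0 * q * q)) := isFractionRing_Rinf K (M0 * q * q) O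
  have hϖ0 : algebraMap ↥O (FF K (M0 * q * q)) ϖ ≠ 0 :=
    algebraMap_ne_zero K (M0 * q * q) O hϖ.ne_zero
  have hT : FamVal ϖ (iInfSubring V) V E :=
    famVal_of_uniformisers V ϖ E Pi e he hPi hunif hπ hϖ0
  exact chartHyp_of_tower' K M0 O (phi2 K M0 q) V (jF_inv_mem_gaussSubalgebra K M0 O)
    (Fermat.Agent.P3G.FibreSat.transcendental_theta_jF_inv K M0 O) hprimeInf hϖ (phi2_jF_inv K M0 q) hG hT.pi_mem
    (integral_of_only K M0 q O V ι hϖ honly) hdist E hT.pow_unif hV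

/-! #### the family `(V20, V11, V02)` -/

variable {V11 V02 : ValuationSubring (FF K (M0 * q * q))}

/-- `φ(G_{M0}) ⊆ V i` for the family `fam3`. -/
theorem hG_fam3
    (hG11 : ∀ g ∈ gaussSubalgebra K M0 O, phi2 K M0 q g ∈ V11)
    (hG02 : ∀ g ∈ gaussSubalgebra K M0 O, phi2 K M0 q g ∈ V02) :
    ∀ i, ∀ g ∈ gaussSubalgebra K M0 O, phi2 K M0 q g ∈ fam3 K M0 q O V11 V02 i :=
  (forall_fam3 K M0 q O (P := fun B => ∀ g ∈ gaussSubalgebra K M0 O, phi2 K M0 q g ∈ B)).2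
    ⟨fun g hg => phi2_mem_gaussVS K M0 q O hg, hG11, hG02⟩

/-- The finite chart of the top level lies in the three valuation rings. -/
theorem hV_fam3_fin
    (hG11 : ∀ g ∈ gaussSubalgebra K M0 O, phi2 K M0 q g ∈ V11)
    (hG02 : ∀ g ∈ gaussSubalgebra K M0 O, phi2 K M0 q g ∈ V02) :
    ∀ i (r : ↥(chartAlg ↥O (FF K (M0 * q * q)) {jF K (M0 * q * q)})),
      algebraMap ↥(chartAlg ↥O (FF K (M0 * q * q)) {jF K (M0 * q * q)})
        (FF K (M0 * q * q)) r ∈ fam3 K M0 q O V11 V02 i :=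
  fun i r => Rfin_le_of_gauss K M0 q O (fam3 K M0 q O V11 V02) (hG_fam3 K M0 q O hG11 hG02) i r

/-- The chart at infinity of the top level lies in the three valuation rings. -/
theorem hV_fam3_inf
    (hG11 : ∀ g ∈ gaussSubalgebra K M0 O, phi2 K M0 q g ∈ V11)
    (hG02 : ∀ g ∈ gaussSubalgebra K M0 O, phi2 K M0 q g ∈ V02) :
    ∀ i (r : ↥(chartAlg ↥O (FF K (M0 * q * q)) {(jF K (M0 * q * q))⁻¹})),
      algebraMap ↥(chartAlg ↥O (FF K (M0 * q * q)) {(jF K (M0 * q * q))⁻¹})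
        (FF K (M0 * q * q)) r ∈ fam3 K M0 q O V11 V02 i :=
  fun i r => Rinf_le_of_gauss K M0 q O (fam3 K M0 q O V11 V02) (hG_fam3 K M0 q O hG11 hG02) i r

/-- The three valuation rings are pairwise distinct. -/
theorem hdist_fam3 (h1 : V11 ≠ gaussVS K (M0 * q * q) O) (h2 : V02 ≠ gaussVS K (M0 * q * q) O)
    (h3 : V11 ≠ V02) :
    ∀ i j, i ≠ j → fam3 K M0 q O V11 V02 i ≠ fam3 K M0 q O V11 V02 j := by
  intro i j hij
  fin_cases i <;> fin_cases j
  · exact absurd rfl hij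
  · exact h1.symm
  · exact h2.symm
  · exact h1
  · exact absurd rfl hij
  · exact h3
  · exact h2
  · exact h3.symm
  · exact absurd rfl hij

/-- The uniformiser data of the family `fam3` in the shape of `SemiGaussTop.no_kummer_pow_top`
(as in `ThreeValCover.no_kummer_pow_three`): `Π = ![ϖ, Π₁₁, ϖ]`, `e = ![1, e₁₁, 1]`, `E = e₁₁`. -/
theorem unif_fam3 {ϖ : ↥O} (hϖ : Irreducible ϖ)
    (Pi : FF K (M0 * q * q)) (e11 : ℕ) (he11 : 1 ≤ e11)
    (Pi_mem_nonunits : Pi ∈ V11.nonunits)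
    (unif_V11 : ∀ y ∈ V11.nonunits, y * Pi⁻¹ ∈ V11)
    (ram_V11 : ∃ w : FF K (M0 * q * q), w ∈ V11 ∧ w⁻¹ ∈ V11 ∧
      algebraMap ↥O (FF K (M0 * q * q)) ϖ = w * Pi ^ e11)
    (hϖ02 : algebraMap ↥O (FF K (M0 * q * q)) ϖ ∈ V02.nonunits)
    (ram_one_V02 : ∀ y ∈ V02.nonunits, y * (algebraMap ↥O (FF K (M0 * q * q)) ϖ)⁻¹ ∈ V02) :
    (∀ i : Fin 3, 1 ≤ (![1, e11, 1] : Fin 3 → ℕ) i ∧ (![1, e11, 1] : Fin 3 → ℕ) i ≤ e11) ∧
    (∀ i : Fin 3, (![algebraMap ↥O (FF K (M0 * q * q)) ϖ, Pi,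
        algebraMap ↥O (FF K (M0 * q * q)) ϖ] : Fin 3 → FF K (M0 * q * q)) i ∈
      (fam3 K M0 q O V11 V02 i).nonunits) ∧
    (∀ i : Fin 3, ∀ x ∈ (fam3 K M0 q O V11 V02 i).nonunits,
      x * ((![algebraMap ↥O (FF K (M0 * q * q)) ϖ, Pi,
        algebraMap ↥O (FF K (M0 * q * q)) ϖ] : Fin 3 → FF K (M0 * q * q)) i)⁻¹ ∈
      fam3 K M0 q O V11 V02 i) ∧
    (∀ i : Fin 3, ∃ u : FF K (M0 * q * q), u ∈ fam3 K M0 q O V11 V02 i ∧
      u⁻¹ ∈ fam3 K M0 q O V11 V02 i ∧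
      algebraMap ↥O (FF K (M0 * q * q)) ϖ =
        u * ((![algebraMap ↥O (FF K (M0 * q * q)) ϖ, Pi,
          algebraMap ↥O (FF K (M0 * q * q)) ϖ] : Fin 3 → FF K (M0 * q * q)) i) ^
          ((![1, e11, 1] : Fin 3 → ℕ) i)) := by
  set πF : FF K (M0 * q * q) := algebraMap ↥O (FF K (M0 * q * q)) ϖ with hπF
  have hπ20 := unif_mem_nonunits_gaussVS K M0 q O hϖ
  refine ⟨?_, ?_, ?_, ?_⟩
  · intro i
    fin_cases i
    · exact ⟨le_refl 1, he11⟩
    · exact ⟨he11, le_refl _⟩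
    · exact ⟨le_refl 1, he11⟩
  · intro i
    fin_cases i
    · exact hπ20
    · exact Pi_mem_nonunits
    · exact hϖ02
  · intro i
    fin_cases i
    · intro x hx
      exact mul_inv_mem_gaussVS K O hϖ hx
    · exact unif_V11
    · exact ram_one_V02
  · intro i
    fin_cases i
    · refine ⟨1, (gaussVS K (M0 * q * q) O).one_mem,
        by rw [inv_one]; exact (gaussVS K (M0 * q * q) O).one_mem, ?_⟩
      show πF = 1 * πF ^ 1
      rw [one_mul, pow_one]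
    · exact ram_V11
    · refine ⟨1, V02.one_mem, by rw [inv_one]; exact V02.one_mem, ?_⟩
      show πF = 1 * πF ^ 1
      rw [one_mul, pow_one]

/-- **`ChartHyp` on the finite chart for `(V20, V11, V02)`**, inputs in the field shapes of
`S36/V/ThreeVal` (exactly those of `ThreeValCover.no_kummer_pow_three`, plus distinctness). -/
theorem chartHyp_three_fin (ι : K →+* ℂ)
    (hprime : (fibreIdeal K M0 O (Rfin K M0 O)).IsPrime) {ϖ : ↥O} (hϖ : Irreducible ϖ)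
    (hG11 : ∀ g ∈ gaussSubalgebra K M0 O, phi2 K M0 q g ∈ V11)
    (hG02 : ∀ g ∈ gaussSubalgebra K M0 O, phi2 K M0 q g ∈ V02)
    (only_three : ∀ B : ValuationSubring (FF K (M0 * q * q)),
      (∀ g ∈ gaussSubalgebra K M0 O, alphaF K (M0 * q) q (alphaF K M0 q g) ∈ B) →
      (∀ ϖ' : ↥O, Irreducible ϖ' → algebraMap K (FF K (M0 * q * q)) (ϖ' : K) ∈ B.nonunits) →
      B = gaussVS K (M0 * q * q) O ∨ B = V11 ∨ B = V02)
    (Pi : FF K (M0 * q * q)) (e11 : ℕ) (he11 : 1 ≤ e11)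
    (Pi_mem_nonunits : Pi ∈ V11.nonunits)
    (unif_V11 : ∀ y ∈ V11.nonunits, y * Pi⁻¹ ∈ V11)
    (ram_V11 : ∃ w : FF K (M0 * q * q), w ∈ V11 ∧ w⁻¹ ∈ V11 ∧
      algebraMap ↥O (FF K (M0 * q * q)) ϖ = w * Pi ^ e11)
    (hϖ02 : algebraMap ↥O (FF K (M0 * q * q)) ϖ ∈ V02.nonunits)
    (ram_one_V02 : ∀ y ∈ V02.nonunits, y * (algebraMap ↥O (FF K (M0 * q * q)) ϖ)⁻¹ ∈ V02)
    (h1 : V11 ≠ gaussVS K (M0 * q * q) O) (h2 : V02 ≠ gaussVS K (M0 * q * q) O)
    (h3 : V11 ≠ V02)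
    (hV : ∀ i (r : ↥(chartAlg ↥O (FF K (M0 * q * q)) {jF K (M0 * q * q)})),
      algebraMap ↥(chartAlg ↥O (FF K (M0 * q * q)) {jF K (M0 * q * q)})
        (FF K (M0 * q * q)) r ∈ fam3 K M0 q O V11 V02 i) :
    ChartHyp (fam3 K M0 q O V11 V02) hV ϖ e11 := by
  obtain ⟨he, hPi, hunif, hπ⟩ := unif_fam3 K M0 q O hϖ Pi e11 he11 Pi_mem_nonunits unif_V11
    ram_V11 hϖ02 ram_one_V02
  exact chartHyp_top_fin K M0 q O ι hprime hϖ (fam3 K M0 q O V11 V02)
    (hG_fam3 K M0 q O hG11 hG02) (honly_of_only_three K M0 q O V11 V02 hϖ only_three)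
    (hdist_fam3 K M0 q O h1 h2 h3) e11 _ _ he hPi hunif hπ hV

/-- **`ChartHyp` on the chart at infinity for `(V20, V11, V02)`.** -/
theorem chartHyp_three_inf (ι : K →+* ℂ)
    (hprimeInf : (fibreIdeal K M0 O (Rinf K M0 O)).IsPrime) {ϖ : ↥O} (hϖ : Irreducible ϖ)
    (hG11 : ∀ g ∈ gaussSubalgebra K M0 O, phi2 K M0 q g ∈ V11)
    (hG02 : ∀ g ∈ gaussSubalgebra K M0 O, phi2 K M0 q g ∈ V02)
    (only_three : ∀ B : ValuationSubring (FF K (M0 * q * q)),
      (∀ g ∈ gaussSubalgebra K M0 O, alphaF K (M0 * q) q (alphaF K M0 q g) ∈ B) →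
      (∀ ϖ' : ↥O, Irreducible ϖ' → algebraMap K (FF K (M0 * q * q)) (ϖ' : K) ∈ B.nonunits) →
      B = gaussVS K (M0 * q * q) O ∨ B = V11 ∨ B = V02)
    (Pi : FF K (M0 * q * q)) (e11 : ℕ) (he11 : 1 ≤ e11)
    (Pi_mem_nonunits : Pi ∈ V11.nonunits)
    (unif_V11 : ∀ y ∈ V11.nonunits, y * Pi⁻¹ ∈ V11)
    (ram_V11 : ∃ w : FF K (M0 * q * q), w ∈ V11 ∧ w⁻¹ ∈ V11 ∧
      algebraMap ↥O (FF K (M0 * q * q)) ϖ = w * Pi ^ e11)
    (hϖ02 : algebraMap ↥O (FF K (M0 * q * q)) ϖ ∈ V02.nonunits)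
    (ram_one_V02 : ∀ y ∈ V02.nonunits, y * (algebraMap ↥O (FF K (M0 * q * q)) ϖ)⁻¹ ∈ V02)
    (h1 : V11 ≠ gaussVS K (M0 * q * q) O) (h2 : V02 ≠ gaussVS K (M0 * q * q) O)
    (h3 : V11 ≠ V02)
    (hV : ∀ i (r : ↥(chartAlg ↥O (FF K (M0 * q * q)) {(jF K (M0 * q * q))⁻¹})),
      algebraMap ↥(chartAlg ↥O (FF K (M0 * q * q)) {(jF K (M0 * q * q))⁻¹})
        (FF K (M0 * q * q)) r ∈ fam3 K M0 q O V11 V02 i) :
    ChartHyp (fam3 K M0 q O V11 V02) hV ϖ e11 := by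
  obtain ⟨he, hPi, hunif, hπ⟩ := unif_fam3 K M0 q O hϖ Pi e11 he11 Pi_mem_nonunits unif_V11
    ram_V11 hϖ02 ram_one_V02
  exact chartHyp_top_inf K M0 q O ι hprimeInf hϖ (fam3 K M0 q O V11 V02)
    (hG_fam3 K M0 q O hG11 hG02) (honly_of_only_three K M0 q O V11 V02 hϖ only_three)
    (hdist_fam3 K M0 q O h1 h2 h3) e11 _ _ he hPi hunif hπ hV

end Top

/-! ### Layer B3: the three valuations of a `ThreeVal` (helper24's structure), `ϖ = q` -/

section ThreeValForm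

open ModularCurve Fermat.Agent.S28.Gauss Fermat.Agent.N4.Setting Fermat.Agent.N4.FibreEmbedding
open Fermat.Agent.N4F.E.GaussDVR Fermat.Agent.N4F.E.DegreeLevelRaise Fermat.Agent.N4.Chart
open Fermat.Agent.P3G.FibreSat Fermat.Agent.S36.C.SemiGaussTower Fermat.Agent.S36.C.SemiGaussTop
open Fermat.Agent.S36.C.ThreeValCover Fermat.Agent.P3G.SecondValuation
open Fermat.Agent.S36.V.ThreeVal Fermat.Agent.S36.V.MidVal

variable (K : Type) [Field K] [CharZero K] (M0 q : ℕ) [NeZero M0] [hq : Fact q.Prime]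
  (O : Subring K) [IsDiscreteValuationRing ↥O] [IsFractionRing ↥O K]
  (sv : SecondVal K M0 q O) (T : ThreeVal K M0 q O sv)


/-- `α₂ α₁ (G_{M0}) ⊆ V11`. -/
theorem threeVal_hG11 : ∀ g ∈ gaussSubalgebra K M0 O, phi2 K M0 q g ∈ T.V11 := by
  intro g hg
  have h : alphaF K M0 q g ∈ gaussVS K (M0 * q) O := alphaF_mem K O M0 q hg
  rw [← T.comap_alpha_V11, ValuationSubring.mem_comap] at h
  rw [phi2_apply]
  exact h

/-- `α₂ α₁ (G_{M0}) ⊆ V02`. -/
theorem threeVal_hG02 : ∀ g ∈ gaussSubalgebra K M0 O, phi2 K M0 q g ∈ T.V02 := by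
  intro g hg
  have h : alphaF K M0 q g ∈ sv.V := sv.alpha_mem g hg
  rw [← T.comap_alpha_V02, ValuationSubring.mem_comap] at h
  rw [phi2_apply]
  exact h

/-- `q` vanishes in `κ((Q))` when `q` is not a unit of `O`. -/
theorem natCast_laurent_eq_zero (hnu : ¬ IsUnit ((q : ℕ) : ↥O)) :
    ((q : ℕ) : LaurentSeries (IsLocalRing.ResidueField ↥O)) = 0 := by
  have h1 : IsLocalRing.residue ↥O ((q : ℕ) : ↥O) = 0 := by
    rw [IsLocalRing.residue_eq_zero_iff, IsLocalRing.mem_maximalIdeal]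
    exact hnu
  rw [map_natCast] at h1
  rw [← map_natCast (HahnSeries.C : IsLocalRing.ResidueField ↥O →+* LaurentSeries _), h1,
    map_zero]


/-- `q ∈ 𝔪_{V02}`. -/
theorem threeVal_q_mem_nonunits_V02 (hnu : ¬ IsUnit ((q : ℕ) : ↥O)) :
    algebraMap ↥O (FF K (M0 * q * q)) ((q : ℕ) : ↥O) ∈ T.V02.nonunits := by
  rw [map_natCast]
  have h0 : T.ev02 ((q : ℕ) : ↥T.V02) = 0 := by
    rw [map_natCast]; exact natCast_laurent_eq_zero K q O hnu
  have h := (T.ev02_eq_zero_iff ((q : ℕ) : ↥T.V02)).1 h0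
  rw [SubringClass.coe_natCast] at h
  exact h


/-- `ram_V11` in the `algebraMap O` form. -/
theorem threeVal_ram_V11 : ∃ w : FF K (M0 * q * q), w ∈ T.V11 ∧ w⁻¹ ∈ T.V11 ∧
    algebraMap ↥O (FF K (M0 * q * q)) ((q : ℕ) : ↥O) = w * PiElt K M0 q ^ (q - 1) := by
  obtain ⟨w, hw, hwi, h⟩ := T.ram_V11
  refine ⟨w, hw, hwi, ?_⟩
  rw [map_natCast]
  exact h


theorem algebraMap_coe_eq (N : ℕ) [NeZero N] (ϖ : ↥O) :
    algebraMap K (FF K N) (ϖ : K) = algebraMap ↥O (FF K N) ϖ := rfl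

/-- `ram_one_V02` in the `algebraMap O` form. -/
theorem threeVal_ram_one_V02 {ϖ : ↥O} (hϖ : Irreducible ϖ) :
    ∀ y ∈ T.V02.nonunits, y * (algebraMap ↥O (FF K (M0 * q * q)) ϖ)⁻¹ ∈ T.V02 := by
  intro y hy
  have h := T.ram_one_V02 ϖ hϖ y hy
  rw [algebraMap_coe_eq K O (M0 * q * q) ϖ] at h
  exact h

/-- **`ChartHyp` on the finite chart of the top level for the three valuations of a `ThreeVal`**,
`ϖ = q` (unramified base), `E = q - 1`. -/
theorem chartHyp_threeVal_fin (ι : K →+* ℂ)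
    (hprime : (fibreIdeal K M0 O (Rfin K M0 O)).IsPrime)
    (hirr : Irreducible ((q : ℕ) : ↥O))
    (hV : ∀ i (r : ↥(chartAlg ↥O (FF K (M0 * q * q)) {jF K (M0 * q * q)})),
      algebraMap ↥(chartAlg ↥O (FF K (M0 * q * q)) {jF K (M0 * q * q)})
        (FF K (M0 * q * q)) r ∈ fam3 K M0 q O T.V11 T.V02 i) :
    ChartHyp (fam3 K M0 q O T.V11 T.V02) hV ((q : ℕ) : ↥O) (q - 1) := by
  have hq2 : 1 ≤ q - 1 := by have := hq.out.two_le; omega
  exact chartHyp_three_fin K M0 q O ι hprime hirr (threeVal_hG11 K M0 q O sv T)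
    (threeVal_hG02 K M0 q O sv T) T.only_three (PiElt K M0 q) (q - 1) hq2
    T.Pi_mem_nonunits T.unif_V11 (threeVal_ram_V11 K M0 q O sv T)
    (threeVal_q_mem_nonunits_V02 K M0 q O sv T hirr.not_isUnit)
    (threeVal_ram_one_V02 K M0 q O sv T hirr) T.V11_ne_V20 T.V02_ne_V20 T.V11_ne_V02 hV

/-- **`ChartHyp` on the chart at infinity of the top level for a `ThreeVal`.** -/
theorem chartHyp_threeVal_inf (ι : K →+* ℂ)
    (hprimeInf : (fibreIdeal K M0 O (Rinf K M0 O)).IsPrime)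
    (hirr : Irreducible ((q : ℕ) : ↥O))
    (hV : ∀ i (r : ↥(chartAlg ↥O (FF K (M0 * q * q)) {(jF K (M0 * q * q))⁻¹})),
      algebraMap ↥(chartAlg ↥O (FF K (M0 * q * q)) {(jF K (M0 * q * q))⁻¹})
        (FF K (M0 * q * q)) r ∈ fam3 K M0 q O T.V11 T.V02 i) :
    ChartHyp (fam3 K M0 q O T.V11 T.V02) hV ((q : ℕ) : ↥O) (q - 1) := by
  have hq2 : 1 ≤ q - 1 := by have := hq.out.two_le; omega
  exact chartHyp_three_inf K M0 q O ι hprimeInf hirr (threeVal_hG11 K M0 q O sv T)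
    (threeVal_hG02 K M0 q O sv T) T.only_three (PiElt K M0 q) (q - 1) hq2
    T.Pi_mem_nonunits T.unif_V11 (threeVal_ram_V11 K M0 q O sv T)
    (threeVal_q_mem_nonunits_V02 K M0 q O sv T hirr.not_isUnit)
    (threeVal_ram_one_V02 K M0 q O sv T hirr) T.V11_ne_V20 T.V02_ne_V20 T.V11_ne_V02 hV

/-- **Both charts at once**, with the two inclusion proofs produced here: the pair `Hp`, `Hm` of
`Descent/SpineRoots.localRoots_both` / `Descent/LocalRootsBoth.localRoots_both_of_goodNorm`. -/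
theorem exists_chartHyp_threeVal (ι : K →+* ℂ)
    (hprime : (fibreIdeal K M0 O (Rfin K M0 O)).IsPrime)
    (hprimeInf : (fibreIdeal K M0 O (Rinf K M0 O)).IsPrime)
    (hirr : Irreducible ((q : ℕ) : ↥O)) :
    ∃ (hVp : ∀ i (r : ↥(chartAlg ↥O (FF K (M0 * q * q)) {jF K (M0 * q * q)})),
        algebraMap ↥(chartAlg ↥O (FF K (M0 * q * q)) {jF K (M0 * q * q)})
          (FF K (M0 * q * q)) r ∈ fam3 K M0 q O T.V11 T.V02 i)
      (hVm : ∀ i (r : ↥(chartAlg ↥O (FF K (M0 * q * q)) {(jF K (M0 * q * q))⁻¹})),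
        algebraMap ↥(chartAlg ↥O (FF K (M0 * q * q)) {(jF K (M0 * q * q))⁻¹})
          (FF K (M0 * q * q)) r ∈ fam3 K M0 q O T.V11 T.V02 i),
      ChartHyp (fam3 K M0 q O T.V11 T.V02) hVp ((q : ℕ) : ↥O) (q - 1) ∧
      ChartHyp (fam3 K M0 q O T.V11 T.V02) hVm ((q : ℕ) : ↥O) (q - 1) :=
  ⟨hV_fam3_fin K M0 q O (threeVal_hG11 K M0 q O sv T) (threeVal_hG02 K M0 q O sv T),
    hV_fam3_inf K M0 q O (threeVal_hG11 K M0 q O sv T) (threeVal_hG02 K M0 q O sv T),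
    chartHyp_threeVal_fin K M0 q O sv T ι hprime hirr _,
    chartHyp_threeVal_inf K M0 q O sv T ι hprimeInf hirr _⟩
end ThreeValForm

end Fermat.Agent.S36.D.ChartHypInst
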