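/-
S36 leaf [CH-I], generic part (helper18): **the two non-formal fields `loc` and `inc` of
`ChartRoots.ChartHyp`.**

`R` a noetherian integrally closed domain with fraction field `F`, `π : R` nonzero, `V i ⊇ R` finitely
many valuation rings of `F` with `π ∈ 𝔪_{V i}`.

* `exists_eq_centre_of_dvr` : under `hpow` (`𝔪_{V i} ^ E ⊆ π V i`) and `hsat` (`R ∩ ⋂ π V i ⊆ π R`)
  every DVR-prime `𝔭 ∋ π` is the centre of some `V i`, and `V i = R_𝔭`
  (`P3G.Krull.exists_eq_vCentre_of_vertical` without the base ring and for a NON-reduced fibre).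
* `isDiscreteValuationRing_locAt_of_mem_minimalPrimes` : a minimal prime of `(π)` is a DVR-prime
  (Krull's Hauptidealsatz + `Krull.isDiscreteValuationRing_locAt_of_minimal`).
* `loc_of_inc` : if moreover the centres are pairwise incomparable (`hinc`) then EVERY `V i` is the
  localisation of `R` at its centre, which is a DVR-prime: the field `loc` of `ChartHyp`.
* `inc_of_witness` : `hinc` from elements `x i ∈ R` vanishing on the component `i` only.
-/
import Mathlib
import Fermat.Agent.P3G.Krull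
import Fermat.Agent.S36.D.ChartRoots
import Fermat.Agent.P3G.Cover.Lift
import Fermat.Agent.S36.C.PowCoverFam

set_option autoImplicit false
set_option linter.unusedSectionVars false
set_option linter.style.haveILetI false

open Fermat.Agent.N4.Cover.Globalize Fermat.Agent.P3G.Krull Fermat.Agent.S36.Local.LocalRoot
open Fermat.Agent.S36.Local.Spread

namespace Fermat.Agent.S36.D.ChartHypLoc

variable {R F : Type*} [CommRing R] [IsDomain R] [IsNoetherianRing R] [Field F] [Algebra R F]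
  [IsFractionRing R F]
variable {ι : Type*} [Finite ι]
variable (V : ι → ValuationSubring F) (hV : ∀ i (r : R), algebraMap R F r ∈ V i)

/-- The two notions of centre agree. -/
theorem centre_eq_vCentre (W : ValuationSubring F) (hW : ∀ r : R, algebraMap R F r ∈ W) :
    centre W hW = vCentre W hW := by
  ext r
  rw [mem_centre, mem_vCentre_iff]

/-- Every DVR-prime containing `π` is the centre of one of the `V i`, and `R_𝔭 = V i`.
(`hpow`, `hsat` = the fields `pow`, `sat` of `ChartHyp`: the special fibre may be NON-reduced.) -/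
theorem exists_eq_centre_of_dvr (π : R) (hπ0 : π ≠ 0) (E : ℕ)
    (hπV : ∀ i, algebraMap R F π ∈ (V i).nonunits)
    (hpow : ∀ i, ∀ x ∈ (V i).nonunits, Cong (V i) (algebraMap R F π) (x ^ E))
    (hsat : ∀ r : R, (∀ i, Cong (V i) (algebraMap R F π) (algebraMap R F r)) → π ∣ r)
    (𝔭 : Ideal R) [𝔭.IsPrime] (hdvr : IsDiscreteValuationRing (locAt (F := F) 𝔭))
    (hπ : π ∈ 𝔭) :
    ∃ i, centre (V i) (hV i) = 𝔭 ∧ ∀ y : F, y ∈ V i ↔ y ∈ locAt (F := F) 𝔭 := by
  classical
  haveI := Fintype.ofFinite ι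
  have hle : (Finset.univ : Finset ι).inf (fun i => vCentre (V i) (hV i)) ≤ 𝔭 := by
    intro s hs
    rw [Finset.inf_eq_iInf, Submodule.mem_iInf] at hs
    have hs' : ∀ i, algebraMap R F s ∈ (V i).nonunits := by
      intro i
      have := hs i
      rw [Submodule.mem_iInf] at this
      exact (mem_vCentre_iff (V i) (hV i)).1 (this (Finset.mem_univ i))
    have hsE : π ∣ s ^ E := by
      apply hsat
      intro i
      rw [map_pow]
      exact hpow i _ (hs' i)
    obtain ⟨r, hr⟩ := hsE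
    have : s ^ E ∈ 𝔭 := by rw [hr]; exact 𝔭.mul_mem_right _ hπ
    exact (inferInstance : 𝔭.IsPrime).mem_of_pow_mem E this
  obtain ⟨i, -, hi⟩ := (Ideal.IsPrime.inf_le' (inferInstance : 𝔭.IsPrime)).1 hle
  have hne : vCentre (V i) (hV i) ≠ ⊥ := by
    intro hbot
    have : π ∈ vCentre (V i) (hV i) := (mem_vCentre_iff _ _).2 (hπV i)
    rw [hbot, Ideal.mem_bot] at this
    exact hπ0 this
  have heq : vCentre (V i) (hV i) = 𝔭 := eq_of_le_of_dvr (F := F) hdvr hne hi
  exact ⟨i, (centre_eq_vCentre (V i) (hV i)).trans heq,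
    mem_valuationSubring_iff_mem_locAt (V i) (hV i) 𝔭 heq hdvr⟩

/-- A minimal prime of a nonzero principal ideal of a noetherian normal domain is a DVR-prime. -/
theorem isDiscreteValuationRing_locAt_of_mem_minimalPrimes [IsIntegrallyClosed R] (π : R)
    (hπ0 : π ≠ 0) (𝔭 : Ideal R) [𝔭.IsPrime] (h𝔭 : 𝔭 ∈ (Ideal.span {π}).minimalPrimes) :
    IsDiscreteValuationRing (locAt (F := F) 𝔭) := by
  have hπ𝔭 : π ∈ 𝔭 := h𝔭.1.2 (Ideal.subset_span (Set.mem_singleton π))
  have h0 : 𝔭 ≠ ⊥ := by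
    intro hbot
    rw [hbot, Ideal.mem_bot] at hπ𝔭
    exact hπ0 hπ𝔭
  have hht : 𝔭.height ≤ 1 :=
    Ideal.height_le_one_of_isPrincipal_of_mem_minimalPrimes (Ideal.span {π}) 𝔭 h𝔭
  refine isDiscreteValuationRing_locAt_of_minimal 𝔭 h0 ?_
  intro 𝔮 h𝔮 h𝔮0 hle
  by_contra hne
  have hlt : 𝔮 < 𝔭 := lt_of_le_of_ne hle hne
  have h1 : 𝔭.height ≤ ((1 : ℕ) : ℕ∞) := by exact_mod_cast hht
  have h2 := (Ideal.height_le_iff.1 h1) 𝔮 h𝔮 hlt
  have h3 : 𝔮.height = 0 := by
    have : 𝔮.height < 1 := by exact_mod_cast h2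
    exact Order.lt_one_iff.1 this
  exact h𝔮0 (Ideal.height_eq_zero_iff_eq_bot.1 h3)

/-- **The field `loc` of `ChartHyp`, from `sat` and `inc`.**  Every `V i` is the localisation of `R`
at its centre, and the centre is a DVR-prime. -/
theorem loc_of_inc [IsIntegrallyClosed R] (π : R) (hπ0 : π ≠ 0) (E : ℕ)
    (hπV : ∀ i, algebraMap R F π ∈ (V i).nonunits)
    (hpow : ∀ i, ∀ x ∈ (V i).nonunits, Cong (V i) (algebraMap R F π) (x ^ E))
    (hsat : ∀ r : R, (∀ i, Cong (V i) (algebraMap R F π) (algebraMap R F r)) → π ∣ r)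
    (hinc : ∀ i j, i ≠ j → ¬ centre (V i) (hV i) ≤ centre (V j) (hV j)) (i : ι) :
    IsDiscreteValuationRing (locAt (F := F) (centre (V i) (hV i))) ∧
      (∀ z : F, z ∈ V i ↔ z ∈ locAt (F := F) (centre (V i) (hV i))) ∧
      ∀ z ∈ V i, ∃ a b : R, b ∉ centre (V i) (hV i) ∧
        z * algebraMap R F b = algebraMap R F a := by
  have hπi : π ∈ centre (V i) (hV i) := mem_centre.2 (hπV i)
  have hle : Ideal.span {π} ≤ centre (V i) (hV i) :=
    (Ideal.span_singleton_le_iff_mem _).2 hπi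
  obtain ⟨𝔭, h𝔭, h𝔭le⟩ := Ideal.exists_minimalPrimes_le hle
  haveI : 𝔭.IsPrime := h𝔭.1.1
  have hdvr := isDiscreteValuationRing_locAt_of_mem_minimalPrimes (F := F) π hπ0 𝔭 h𝔭
  have hπ𝔭 : π ∈ 𝔭 := h𝔭.1.2 (Ideal.subset_span (Set.mem_singleton π))
  obtain ⟨j, hj, hjV⟩ := exists_eq_centre_of_dvr V hV π hπ0 E hπV hpow hsat 𝔭 hdvr hπ𝔭
  have hji : j = i := by
    by_contra hne
    exact hinc j i hne (hj ▸ h𝔭le)
  subst hji
  have key : ∀ z : F, z ∈ V j ↔ z ∈ locAt (F := F) (centre (V j) (hV j)) := by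
    intro z
    rw [hjV z]
    constructor
    · intro hz
      rw [mem_locAt_iff] at hz ⊢
      obtain ⟨a, s, hs, h⟩ := hz
      exact ⟨a, s, by rw [hj]; exact hs, h⟩
    · intro hz
      rw [mem_locAt_iff] at hz ⊢
      obtain ⟨a, s, hs, h⟩ := hz
      exact ⟨a, s, by rw [← hj]; exact hs, h⟩
  refine ⟨?_, key, ?_⟩
  · have hsub : (locAt (F := F) (centre (V j) (hV j)) : Subalgebra R F) = locAt (F := F) 𝔭 := by
      ext z
      rw [← key z, hjV z]
    rw [hsub]
    exact hdvr
  · intro z hz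
    obtain ⟨a, s, hs, h⟩ := (mem_locAt_iff _ z).1 ((key z).1 hz)
    exact ⟨a, s, hs, h⟩

omit [IsDomain R] [IsNoetherianRing R] [IsFractionRing R F] [Finite ι] in
/-- **The field `inc` of `ChartHyp`, from witnesses**: `x i ∈ R` vanishes on the component `i` and on
no other component. -/
theorem inc_of_witness (x : ι → R) (hx : ∀ i, algebraMap R F (x i) ∈ (V i).nonunits)
    (hx' : ∀ i j, i ≠ j → algebraMap R F (x i) ∉ (V j).nonunits) :
    ∀ i j, i ≠ j → ¬ centre (V i) (hV i) ≤ centre (V j) (hV j) := by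
  intro i j hij hle
  exact hx' i j hij (mem_centre.1 (hle (mem_centre.2 (hx i))))

/-- **The field `sep` of `ChartHyp`, from `sat`, `pow` and `inc`**: the `V i` are discrete valuation
rings, so a power of `π` kills every denominator. -/
theorem sep_of_inc [IsIntegrallyClosed R] (π : R) (hπ0 : π ≠ 0) (E : ℕ)
    (hπV : ∀ i, algebraMap R F π ∈ (V i).nonunits)
    (hpow : ∀ i, ∀ x ∈ (V i).nonunits, Cong (V i) (algebraMap R F π) (x ^ E))
    (hsat : ∀ r : R, (∀ i, Cong (V i) (algebraMap R F π) (algebraMap R F r)) → π ∣ r)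
    (hinc : ∀ i j, i ≠ j → ¬ centre (V i) (hV i) ≤ centre (V j) (hV j)) (i : ι) (z : F)
    (hz : z ≠ 0) : ∃ n : ℕ, algebraMap R F π ^ n * z⁻¹ ∈ V i := by
  obtain ⟨hdvr, hmem, -⟩ := loc_of_inc V hV π hπ0 E hπV hpow hsat hinc i
  set 𝔭 := centre (V i) (hV i) with h𝔭
  set L := locAt (F := F) 𝔭 with hL
  haveI := hdvr
  have hπF : algebraMap R F π ≠ 0 := fun h0 =>
    hπ0 ((IsFractionRing.injective R F) (by rw [h0, map_zero]))
  -- `z⁻¹ = a / b` with `a, b ∈ R`
  obtain ⟨a, b, hb, hab⟩ := IsFractionRing.div_surjective (A := R) z⁻¹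
  have hb0 : b ≠ 0 := nonZeroDivisors.ne_zero hb
  have hbF : algebraMap R F b ≠ 0 := fun h0 =>
    hb0 ((IsFractionRing.injective R F) (by rw [h0, map_zero]))
  -- in the DVR `L`
  obtain ⟨ϖ, hϖ⟩ := IsDiscreteValuationRing.exists_irreducible L
  have hbL : algebraMap R L b ≠ 0 := by
    intro h0
    apply hbF
    have : algebraMap R F b = ((algebraMap R L b : L) : F) := rfl
    rw [this, h0]
    rfl
  obtain ⟨m, u, hu⟩ := IsDiscreteValuationRing.eq_unit_mul_pow_irreducible hbL hϖ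
  -- `π` is in the maximal ideal of `L`
  have hπL : algebraMap R L π ∈ IsLocalRing.maximalIdeal L := by
    rw [IsLocalRing.mem_maximalIdeal, mem_nonunits_iff]
    intro hunit
    obtain ⟨y, hy⟩ := isUnit_iff_exists_inv.1 hunit
    have hy' : algebraMap R F π * (y : F) = 1 := congrArg Subtype.val hy
    have hyV : (y : F) ∈ V i := (hmem _).2 y.2
    have : (algebraMap R F π)⁻¹ = (y : F) := by
      rw [inv_eq_iff_eq_inv, ← one_div, eq_div_iff]
      · exact hy'
      · intro h0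
        rw [h0, mul_zero] at hy'
        exact zero_ne_one hy'
    have hinv : (algebraMap R F π)⁻¹ ∈ V i := this ▸ hyV
    have hnu := hπV i
    rw [ValuationSubring.mem_nonunits_iff] at hnu
    have h1 := (V i).valuation_le_one_iff (algebraMap R F π)⁻¹ |>.2 hinv
    rw [map_inv₀] at h1
    have hpos : 0 < (V i).valuation (algebraMap R F π) := by
      rw [Valuation.pos_iff]; exact hπF
    have h2 : 1 ≤ (V i).valuation (algebraMap R F π) := (inv_le_one₀ hpos).mp h1
    exact absurd hnu (not_lt.mpr h2)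
  rw [hϖ.maximalIdeal_eq, Ideal.mem_span_singleton] at hπL
  obtain ⟨c, hc⟩ := hπL
  refine ⟨m, (hmem _).2 ?_⟩
  -- `π ^ m * z⁻¹ = a * c ^ m * u⁻¹`
  have hkey : algebraMap R F π ^ m * z⁻¹ =
      ((algebraMap R L a * c ^ m * ((u⁻¹ : Lˣ) : L) : L) : F) := by
    have h1 : algebraMap R F π = (ϖ : F) * (c : F) := congrArg Subtype.val hc
    have h2 : algebraMap R F b = ((u : L) : F) * (ϖ : F) ^ m := congrArg Subtype.val hu
    have h3 : ((u : L) : F) * (((u⁻¹ : Lˣ) : L) : F) = 1 := by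
      have := congrArg Subtype.val (u.mul_inv)
      exact this
    have hu0 : ((u : L) : F) ≠ 0 := left_ne_zero_of_mul_eq_one h3
    have hϖ0 : (ϖ : F) ≠ 0 := by
      intro h0
      rw [h0, zero_mul] at h1
      exact hπF h1
    have h4 : (((u⁻¹ : Lˣ) : L) : F) = (((u : L) : F))⁻¹ := eq_inv_of_mul_eq_one_right h3
    rw [← hab]
    show algebraMap R F π ^ m * (algebraMap R F a / algebraMap R F b) =
      algebraMap R F a * (c : F) ^ m * (((u⁻¹ : Lˣ) : L) : F)
    rw [h1, h2, h4]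
    field_simp
    ring
  rw [hkey]
  exact Subtype.mem _

/-! ### Assembling `ChartHyp` -/

section Assemble

open Fermat.Agent.S36.D.ChartRoots Fermat.Agent.P3G.Cover.Lift Fermat.Agent.S36.C.PowCoverFam

variable {O : Type*} [CommRing O] [IsIntegrallyClosed R] [Algebra O R]

/-- `ChartHyp` from its seven other fields: `loc` is automatic. -/
theorem chartHyp_of_inc {π : O} {E : ℕ} (irr : Irreducible π) (ne : algebraMap O R π ≠ 0)
    (mem : ∀ i, algebraMap R F (algebraMap O R π) ∈ (V i).nonunits)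
    (pow : ∀ i, ∀ x ∈ (V i).nonunits, Cong (V i) (algebraMap R F (algebraMap O R π)) (x ^ E))
    (sep : ∀ i (z : F), z ≠ 0 → ∃ n : ℕ, algebraMap R F (algebraMap O R π) ^ n * z⁻¹ ∈ V i)
    (inc : ∀ i j, i ≠ j → ¬ centre (V i) (hV i) ≤ centre (V j) (hV j))
    (sat : ∀ r : R, (∀ i, Cong (V i) (algebraMap R F (algebraMap O R π)) (algebraMap R F r)) →
      algebraMap O R π ∣ r) : ChartHyp V hV π E :=
  ⟨irr, ne, mem, pow, sep, inc, sat,
    fun i => (loc_of_inc V hV (algebraMap O R π) ne E mem pow sat inc i).2.2⟩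

/-- `ChartHyp` from `irr, mem, pow, inc, sat`: `ne` is an argument, `sep` and `loc` are automatic. -/
theorem chartHyp_of_inc' {π : O} {E : ℕ} (irr : Irreducible π) (ne : algebraMap O R π ≠ 0)
    (mem : ∀ i, algebraMap R F (algebraMap O R π) ∈ (V i).nonunits)
    (pow : ∀ i, ∀ x ∈ (V i).nonunits, Cong (V i) (algebraMap R F (algebraMap O R π)) (x ^ E))
    (inc : ∀ i j, i ≠ j → ¬ centre (V i) (hV i) ≤ centre (V j) (hV j))
    (sat : ∀ r : R, (∀ i, Cong (V i) (algebraMap R F (algebraMap O R π)) (algebraMap R F r)) →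
      algebraMap O R π ∣ r) : ChartHyp V hV π E :=
  chartHyp_of_inc V hV irr ne mem pow
    (fun i z hz => sep_of_inc V hV (algebraMap O R π) ne E mem pow sat inc i z hz) inc sat

variable [Algebra O F] [IsScalarTower O R F]

/-- **`ChartHyp` from block [C]** (`IsSemiGaussRing` on the chart + `FamVal`), `sep` (the `V i` have
rank one) and `inc` (witnesses). -/
theorem chartHyp_of_semiGauss {π : O} {E : ℕ} {W : Subring F} (irr : Irreducible π)
    (hSG : IsSemiGaussRing W (algebraMap O R π)) (hT : FamVal π W V E)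
    (sep : ∀ i (z : F), z ≠ 0 → ∃ n : ℕ, algebraMap R F (algebraMap O R π) ^ n * z⁻¹ ∈ V i)
    (inc : ∀ i j, i ≠ j → ¬ centre (V i) (hV i) ≤ centre (V j) (hV j)) : ChartHyp V hV π E := by
  have hπ : algebraMap R F (algebraMap O R π) = algebraMap O F π :=
    (IsScalarTower.algebraMap_apply O R F π).symm
  have hπ0 : algebraMap R F (algebraMap O R π) ≠ 0 := hSG.ne_zero
  refine chartHyp_of_inc V hV irr ?_ ?_ ?_ sep inc ?_
  · intro h0
    exact hπ0 (by rw [h0, map_zero])
  · intro i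
    rw [hπ]
    exact hT.pi_mem i
  · intro i x hx
    refine ⟨x ^ E * (algebraMap O F π)⁻¹, hT.pow_unif i x hx, ?_⟩
    rw [hπ, mul_comm (x ^ E), ← mul_assoc, mul_inv_cancel₀ hT.pi_ne, one_mul]
  · intro r hr
    apply hSG.sat r
    refine ⟨algebraMap R F r * (algebraMap R F (algebraMap O R π))⁻¹, ?_, ?_⟩
    · rw [hT.mem_iff]
      intro i
      obtain ⟨w, hw, hrw⟩ := hr i
      rw [hrw, mul_comm _ w, mul_assoc, mul_inv_cancel₀ hπ0, mul_one]
      exact hw
    · rw [mul_comm (algebraMap R F r), ← mul_assoc, mul_inv_cancel₀ hπ0, one_mul]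

/-- **`ChartHyp` from block [C] and `inc` only**: `irr`, `IsSemiGaussRing` on the chart, `FamVal`
and the incomparability of the centres. -/
theorem chartHyp_of_semiGauss' {π : O} {E : ℕ} {W : Subring F} (irr : Irreducible π)
    (hSG : IsSemiGaussRing W (algebraMap O R π)) (hT : FamVal π W V E)
    (inc : ∀ i j, i ≠ j → ¬ centre (V i) (hV i) ≤ centre (V j) (hV j)) : ChartHyp V hV π E := by
  have hπ : algebraMap R F (algebraMap O R π) = algebraMap O F π :=
    (IsScalarTower.algebraMap_apply O R F π).symm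
  have hπ0 : algebraMap R F (algebraMap O R π) ≠ 0 := hSG.ne_zero
  have ne : algebraMap O R π ≠ 0 := fun h0 => hπ0 (by rw [h0, map_zero])
  have mem : ∀ i, algebraMap R F (algebraMap O R π) ∈ (V i).nonunits := by
    intro i
    rw [hπ]
    exact hT.pi_mem i
  have pow : ∀ i, ∀ x ∈ (V i).nonunits,
      Cong (V i) (algebraMap R F (algebraMap O R π)) (x ^ E) := by
    intro i x hx
    refine ⟨x ^ E * (algebraMap O F π)⁻¹, hT.pow_unif i x hx, ?_⟩
    rw [hπ, mul_comm (x ^ E), ← mul_assoc, mul_inv_cancel₀ hT.pi_ne, one_mul]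
  have sat : ∀ r : R, (∀ i, Cong (V i) (algebraMap R F (algebraMap O R π)) (algebraMap R F r)) →
      algebraMap O R π ∣ r := by
    intro r hr
    apply hSG.sat r
    refine ⟨algebraMap R F r * (algebraMap R F (algebraMap O R π))⁻¹, ?_, ?_⟩
    · rw [hT.mem_iff]
      intro i
      obtain ⟨w, hw, hrw⟩ := hr i
      rw [hrw, mul_comm _ w, mul_assoc, mul_inv_cancel₀ hπ0, mul_one]
      exact hw
    · rw [mul_comm (algebraMap R F r), ← mul_assoc, mul_inv_cancel₀ hπ0, one_mul]
  exact chartHyp_of_inc' V hV irr ne mem pow inc sat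

end Assemble

end Fermat.Agent.S36.D.ChartHypLoc
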