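/-
S36 block [D], leaf [I-T] (helper2): **the concrete `NormGlue.SplitInsep` package at a point `x` of a
chart of the upper level lying over the point `y` of a chart of the lower level**, from CHART-LEVEL
data.

Setting: `R1 ⊆ F1`, `R2 ⊆ F2` two charts (domains with their fraction fields), `φ : F1 →+* F2` a
degeneracy map (`α₂` or `β₂`) which maps the chart `R1` into the chart `R2` (`γ : R1 →+* R2`,
`φ ∘ incl = incl ∘ γ`), `𝔫` a prime of `R2` (the point `x`), `𝔫.comap γ` its image `y`,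
`A = locAt (𝔫.comap γ) ⊆ F1`, `B = locAt 𝔫 ⊆ F2`.

* `locMap γ φ hγ 𝔫 : A →+* B` (`coe_locMap`), a local homomorphism (`isLocalHom_locMap`);
* `lift_pow` : a chart-level lift `∀ r : R2, ∃ r₁ : R1, r ^ k ≡ φ r₁` modulo `𝔪_V` (for a valuation ring
  `V ⊇ R2` of `F2` whose centre passes through `𝔫`) gives the local lift
  `∀ b : B, ∃ a : A, b ^ k ≡ φ a` modulo `𝔪_V`  (`k = 1` : `lift_a`, `lift_b`; `k = q` : `lift_c`);
* `exists_unit_eq_norm` : `A` integrally closed, `B` integral over `A` (ONE point over `y`), then the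
  norm of a unit of `B` is a unit of `A`  (`norm_unit`);
* **`splitInsep_of_chart`** : the `SplitInsep φ Nm (locMap …) q Us Ui Va Vb Vc` package, from the three
  chart-level lifts, integrality of `B` over `A`, and the two norm–residue tables of block [N];
* `lift_of_residue`, `lift_of_residue_frob` : the chart-level lifts from residue maps
  `Θ_B : R2 → Λ`, `Θ_A : R1 → Λ` with `Θ_B ∘ γ = Θ_A` resp. `= τ ∘ Θ_A` (`τ = (Q ↦ Q^q)`) and
  `Θ_B R2 ⊆ Θ_A R1` resp. `(Θ_B R2) ^ q ⊆ τ (Θ_A R1)`  (block [BRANCH]: both images are the Dedekind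
  reduction `RbarFin / RbarInf` of the base level);
* `mem_of_locAt` : `A ⊆ U` for a valuation ring `U ⊇ R1` whose centre passes through `y`
  (the hypotheses `hAα10` … of `TripleRel.hrel_of_splitInsep`).

`α`-table: `(φ; Us, Ui; Va, Vb, Vc) = (α₂; V10, V01; V20, V11, V02)`;
`β`-table: `(φ; Us, Ui; Va, Vb, Vc) = (β₂; V01, V10; V02, V11, V20)`.
-/
import Mathlib
import Fermat.Agent.P3G.Krull
import Fermat.Agent.P3G.LocVS
import Fermat.Agent.S36.D.NormGlue

set_option autoImplicit false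
set_option linter.unusedSectionVars false
set_option linter.style.haveILetI false

noncomputable section

namespace Fermat.Agent.S36.D.SplitInst

open Fermat.Agent.N4.Cover.Globalize Fermat.Agent.P3G.Krull Fermat.Agent.S36.D.NormGlue

variable {R1 R2 F1 F2 : Type*} [CommRing R1] [IsDomain R1] [CommRing R2] [IsDomain R2]
  [Field F1] [Field F2] [Algebra R1 F1] [IsFractionRing R1 F1] [Algebra R2 F2] [IsFractionRing R2 F2]
  (γ : R1 →+* R2) (φ : F1 →+* F2)
  (hγ : ∀ r : R1, algebraMap R2 F2 (γ r) = φ (algebraMap R1 F1 r))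
  (𝔫 : Ideal R2) [𝔫.IsPrime]

/-! ### The local homomorphism `A → B` -/

section LocMap

include hγ in
theorem map_mem_locAt {x : F1} (hx : x ∈ locAt (F := F1) (𝔫.comap γ)) :
    φ x ∈ locAt (F := F2) 𝔫 := by
  obtain ⟨a, s, hs, hxs⟩ := (mem_locAt_iff _ x).1 hx
  rw [mem_locAt_iff]
  refine ⟨γ a, γ s, fun h => hs (Ideal.mem_comap.2 h), ?_⟩
  rw [hγ, hγ, ← map_mul, hxs]

/-- **The local homomorphism** `A = locAt (𝔫.comap γ) → B = locAt 𝔫` induced by `φ`. -/
def locMap : ↥(locAt (F := F1) (𝔫.comap γ)) →+* ↥(locAt (F := F2) 𝔫) :=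
  (φ.comp (locAt (F := F1) (𝔫.comap γ)).val.toRingHom).codRestrict
    (locAt (F := F2) 𝔫).toSubring (fun x => map_mem_locAt γ φ hγ 𝔫 x.2)

@[simp] theorem coe_locMap (x : ↥(locAt (F := F1) (𝔫.comap γ))) :
    ((locMap γ φ hγ 𝔫 x : ↥(locAt (F := F2) 𝔫)) : F2) = φ (x : F1) := rfl

theorem algebraMap_locMap (x : ↥(locAt (F := F1) (𝔫.comap γ))) :
    algebraMap ↥(locAt (F := F2) 𝔫) F2 (locMap γ φ hγ 𝔫 x) =
      φ (algebraMap ↥(locAt (F := F1) (𝔫.comap γ)) F1 x) := rfl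

/-- `locMap` is a local homomorphism. -/
theorem isLocalHom_locMap : IsLocalHom (locMap γ φ hγ 𝔫) := by
  constructor
  intro x hx
  obtain ⟨a, s, hs, hxs⟩ := (mem_locAt_iff _ (x : F1)).1 x.2
  have hsF : algebraMap R1 F1 s ≠ 0 := algebraMap_ne_zero_of_notMem _ hs
  -- `a ∉ 𝔫.comap γ`
  have ha : a ∉ 𝔫.comap γ := by
    intro ha
    obtain ⟨y, hy⟩ := hx.exists_right_inv
    obtain ⟨b, t, ht, hyt⟩ := (mem_locAt_iff 𝔫 (y : F2)).1 y.2
    have h1 : φ (x : F1) * (y : F2) = 1 := by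
      have := congrArg Subtype.val hy
      simpa using this
    -- `γ a * b = γ s * t`
    have h2 : algebraMap R2 F2 (γ a * b) = algebraMap R2 F2 (γ s * t) := by
      rw [map_mul, map_mul, hγ, hγ, ← hxs, ← hyt, map_mul]
      calc φ (x : F1) * φ (algebraMap R1 F1 s) * ((y : F2) * algebraMap R2 F2 t)
          = (φ (x : F1) * (y : F2)) * (φ (algebraMap R1 F1 s) * algebraMap R2 F2 t) := by ring
        _ = φ (algebraMap R1 F1 s) * algebraMap R2 F2 t := by rw [h1, one_mul]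
    have h3 : γ a * b = γ s * t := IsFractionRing.injective R2 F2 h2
    have h4 : γ s * t ∈ 𝔫 := by
      rw [← h3]
      exact 𝔫.mul_mem_right _ (Ideal.mem_comap.1 ha)
    rcases Ideal.IsPrime.mem_or_mem ‹𝔫.IsPrime› h4 with h5 | h5
    · exact hs (Ideal.mem_comap.2 h5)
    · exact ht h5
  have haF : algebraMap R1 F1 a ≠ 0 := algebraMap_ne_zero_of_notMem _ ha
  -- the inverse `s / a`
  refine IsUnit.of_mul_eq_one
    (⟨algebraMap R1 F1 s / algebraMap R1 F1 a, div_mem_locAt _ s ha⟩ :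
      ↥(locAt (F := F1) (𝔫.comap γ))) ?_
  apply Subtype.ext
  show (x : F1) * (algebraMap R1 F1 s / algebraMap R1 F1 a) = 1
  rw [← mul_div_assoc, hxs, div_self haF]

end LocMap

/-! ### Lifts: from the chart to the local ring -/

section Lift

variable (V : ValuationSubring F2) (hV : ∀ r : R2, algebraMap R2 F2 r ∈ V)
  (hcen : ∀ r : R2, algebraMap R2 F2 r ∈ V.nonunits → r ∈ 𝔫)

include hγ hV hcen in
/-- **From the chart to the local ring**: if every `r ^ k`, `r ∈ R2`, is congruent modulo `𝔪_V` to an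
element of `φ R1`, then every `b ^ k`, `b ∈ B = locAt 𝔫`, is congruent modulo `𝔪_V` to an element of
`φ A`, `A = locAt (𝔫.comap γ)`. -/
theorem lift_pow (k : ℕ)
    (hlift : ∀ r : R2, ∃ r₁ : R1, algebraMap R2 F2 r ^ k - φ (algebraMap R1 F1 r₁) ∈ V.nonunits)
    (b : ↥(locAt (F := F2) 𝔫)) :
    ∃ a : ↥(locAt (F := F1) (𝔫.comap γ)),
      algebraMap ↥(locAt (F := F2) 𝔫) F2 b ^ k -
        φ (algebraMap ↥(locAt (F := F1) (𝔫.comap γ)) F1 a) ∈ V.nonunits := by
  obtain ⟨r, s, hs, hbs⟩ := (mem_locAt_iff 𝔫 (b : F2)).1 b.2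
  obtain ⟨r₁, hr₁⟩ := hlift r
  obtain ⟨s₁, hs₁⟩ := hlift s
  -- `γ s₁ ∉ 𝔫`
  have hs₁n : s₁ ∉ 𝔫.comap γ := by
    intro h
    have h1 : s ^ k - γ s₁ ∈ 𝔫 := by
      apply hcen
      rw [map_sub, map_pow, hγ]
      exact hs₁
    have h2 : s ^ k ∈ 𝔫 := by
      have := 𝔫.add_mem h1 (Ideal.mem_comap.1 h)
      rwa [sub_add_cancel] at this
    exact hs (Ideal.IsPrime.mem_of_pow_mem ‹𝔫.IsPrime› k h2)
  refine ⟨⟨algebraMap R1 F1 r₁ / algebraMap R1 F1 s₁, div_mem_locAt _ r₁ hs₁n⟩, ?_⟩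
  show (b : F2) ^ k - φ (algebraMap R1 F1 r₁ / algebraMap R1 F1 s₁) ∈ V.nonunits
  set x := algebraMap R2 F2 r with hx
  set y := algebraMap R2 F2 s with hy
  set x₁ := φ (algebraMap R1 F1 r₁) with hx₁
  set y₁ := φ (algebraMap R1 F1 s₁) with hy₁
  have hy0 : y ≠ 0 := algebraMap_ne_zero_of_notMem 𝔫 hs
  have hy₁0 : y₁ ≠ 0 := by
    rw [hy₁, Ne, map_eq_zero]
    exact algebraMap_ne_zero_of_notMem _ hs₁n
  -- valuations of the denominators
  have hyV : y ∈ V := hV s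
  have hynu : y ∉ V.nonunits := fun h => hs (hcen s h)
  have hy₁V : y₁ ∈ V := by rw [hy₁, ← hγ]; exact hV _
  have hy₁nu : y₁ ∉ V.nonunits := by
    rw [hy₁, ← hγ]
    exact fun h => hs₁n (Ideal.mem_comap.2 (hcen _ h))
  have hvy : V.valuation y = 1 := by
    rw [V.mem_nonunits_iff, not_lt] at hynu
    exact le_antisymm ((V.valuation_le_one_iff y).2 hyV) hynu
  have hvy₁ : V.valuation y₁ = 1 := by
    rw [V.mem_nonunits_iff, not_lt] at hy₁nu
    exact le_antisymm ((V.valuation_le_one_iff y₁).2 hy₁V) hy₁nu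
  have hx₁V : x₁ ∈ V := by rw [hx₁, ← hγ]; exact hV _
  -- the numerator
  have hnum : (x ^ k - x₁) * y₁ - (y ^ k - y₁) * x₁ ∈ V.nonunits :=
    V.nonunits.sub_mem (Fermat.Agent.P3G.LocVS.mul_mem_nonunits V hr₁ hy₁V)
      (Fermat.Agent.P3G.LocVS.mul_mem_nonunits V hs₁ hx₁V)
  have hb : (b : F2) = x / y := by rw [eq_div_iff hy0]; exact hbs
  have hφa : φ (algebraMap R1 F1 r₁ / algebraMap R1 F1 s₁) = x₁ / y₁ := map_div₀ φ _ _
  have key : (b : F2) ^ k - φ (algebraMap R1 F1 r₁ / algebraMap R1 F1 s₁) =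
      ((x ^ k - x₁) * y₁ - (y ^ k - y₁) * x₁) * (y ^ k * y₁)⁻¹ := by
    rw [hb, hφa, div_pow]
    have hyk : y ^ k ≠ 0 := pow_ne_zero k hy0
    field_simp
    ring
  rw [key, V.mem_nonunits_iff, map_mul, map_inv₀, map_mul, map_pow, hvy, hvy₁, one_pow, mul_one,
    inv_one, mul_one, ← V.mem_nonunits_iff]
  exact hnum

end Lift

/-! ### The norm of a unit -/

section NormUnit

variable [IsIntegrallyClosed R1]

/-- `A = locAt 𝔭` is integrally closed if `R1` is. -/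
theorem isIntegrallyClosed_locAt (𝔭 : Ideal R1) [𝔭.IsPrime] :
    IsIntegrallyClosed ↥(locAt (F := F1) 𝔭) :=
  isIntegrallyClosed_of_isLocalization _ 𝔭.primeCompl 𝔭.primeCompl_le_nonZeroDivisors

omit [IsIntegrallyClosed R1] in
/-- **The norm of an element of `F2` integral over an integrally closed domain `A` with fraction field
`F1` lies in `A`.** -/
theorem exists_eq_norm_of_isIntegralElem_gen {A : Type*} [CommRing A] [IsDomain A] [Algebra A F1]
    [IsFractionRing A F1] [IsIntegrallyClosed A] {y : F2}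
    (hint : (φ.comp (algebraMap A F1)).IsIntegralElem y) :
    ∃ a : A, algebraMap A F1 a = (letI := φ.toAlgebra; Algebra.norm F1 y) := by
  letI : Algebra F1 F2 := φ.toAlgebra
  letI : Algebra A F2 := (φ.comp (algebraMap A F1)).toAlgebra
  haveI : IsScalarTower A F1 F2 := IsScalarTower.of_algebraMap_eq fun _ => rfl
  have h1 : IsIntegral A y := hint
  have h2 : IsIntegral A (Algebra.norm F1 y) := Algebra.isIntegral_norm F1 h1
  exact IsIntegrallyClosed.algebraMap_eq_of_integral h2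

/-- **The norm of an element of `F2` integral over `A = locAt 𝔭` lies in `A`.** -/
theorem exists_eq_norm_of_isIntegralElem (𝔭 : Ideal R1) [𝔭.IsPrime] {y : F2}
    (hint : (φ.comp (algebraMap ↥(locAt (F := F1) 𝔭) F1)).IsIntegralElem y) :
    ∃ a : ↥(locAt (F := F1) 𝔭),
      algebraMap ↥(locAt (F := F1) 𝔭) F1 a = (letI := φ.toAlgebra; Algebra.norm F1 y) := by
  haveI : IsIntegrallyClosed ↥(locAt (F := F1) 𝔭) := isIntegrallyClosed_locAt 𝔭
  exact exists_eq_norm_of_isIntegralElem_gen φ hint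

/-- **`norm_unit`**: if every element of `B = locAt 𝔫` is integral over `A = locAt (𝔫.comap γ)` (one
point over `y`), the norm of a unit of `B` is a unit of `A`. -/
theorem exists_unit_eq_norm
    (hint : ∀ b : ↥(locAt (F := F2) 𝔫),
      (φ.comp (algebraMap ↥(locAt (F := F1) (𝔫.comap γ)) F1)).IsIntegralElem (b : F2))
    (b : ↥(locAt (F := F2) 𝔫)) (hb : IsUnit b) :
    ∃ a : ↥(locAt (F := F1) (𝔫.comap γ)), IsUnit a ∧
      algebraMap ↥(locAt (F := F1) (𝔫.comap γ)) F1 a =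
        (letI := φ.toAlgebra; Algebra.norm F1 (algebraMap ↥(locAt (F := F2) 𝔫) F2 b)) := by
  obtain ⟨c, hc⟩ := hb.exists_right_inv
  obtain ⟨a, ha⟩ := exists_eq_norm_of_isIntegralElem φ (𝔫.comap γ) (hint b)
  obtain ⟨a', ha'⟩ := exists_eq_norm_of_isIntegralElem φ (𝔫.comap γ) (hint c)
  refine ⟨a, IsUnit.of_mul_eq_one a' ?_, ha⟩
  apply IsFractionRing.injective ↥(locAt (F := F1) (𝔫.comap γ)) F1
  rw [map_mul, ha, ha', map_one]
  letI : Algebra F1 F2 := φ.toAlgebra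
  rw [← map_mul]
  have h1 : (b : F2) * (c : F2) = 1 := by
    have := congrArg Subtype.val hc
    simpa using this
  rw [h1, map_one]

end NormUnit

/-! ### The package -/

section Package

variable [IsIntegrallyClosed R1]

/-- **[I-T] The `SplitInsep` package at the point `𝔫` of the upper chart**, from chart-level data:
* `hVa hVb hVc`, `hca hcb hcc` : the three valuation rings contain the chart `R2` and their centres
  pass through `𝔫` (a TRIPLE point);
* `hliftA`, `hliftB`, `hliftC` : the chart-level lifts (block [BRANCH]; see `lift_of_residue`,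
  `lift_of_residue_frob`);
* `hint` : `B = locAt 𝔫` is integral over `A = locAt (𝔫.comap γ)` (block [R2]: one point over `y`,
  `SemiLocal.locAt_eq_semiLoc`);
* `hNm` : `Nm` is the field norm along `φ`;
* `hsplit`, `hinsep` : the two norm–residue tables of block [N] (`NormS36`, `NormS36Twin`). -/
theorem splitInsep_of_chart (q : ℕ) (Nm : F2 →* F1)
    (hNm : ∀ y : F2, Nm y = (letI := φ.toAlgebra; Algebra.norm F1 y))
    (Us Ui : ValuationSubring F1) (Va Vb Vc : ValuationSubring F2)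
    (hVa : ∀ r : R2, algebraMap R2 F2 r ∈ Va) (hVb : ∀ r : R2, algebraMap R2 F2 r ∈ Vb)
    (hVc : ∀ r : R2, algebraMap R2 F2 r ∈ Vc)
    (hca : ∀ r : R2, algebraMap R2 F2 r ∈ Va.nonunits → r ∈ 𝔫)
    (hcb : ∀ r : R2, algebraMap R2 F2 r ∈ Vb.nonunits → r ∈ 𝔫)
    (hcc : ∀ r : R2, algebraMap R2 F2 r ∈ Vc.nonunits → r ∈ 𝔫)
    (hliftA : ∀ r : R2, ∃ r₁ : R1, algebraMap R2 F2 r - φ (algebraMap R1 F1 r₁) ∈ Va.nonunits)
    (hliftB : ∀ r : R2, ∃ r₁ : R1, algebraMap R2 F2 r - φ (algebraMap R1 F1 r₁) ∈ Vb.nonunits)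
    (hliftC : ∀ r : R2, ∃ r₁ : R1,
      algebraMap R2 F2 r ^ q - φ (algebraMap R1 F1 r₁) ∈ Vc.nonunits)
    (hint : ∀ b : ↥(locAt (F := F2) 𝔫),
      (φ.comp (algebraMap ↥(locAt (F := F1) (𝔫.comap γ)) F1)).IsIntegralElem (b : F2))
    (hsplit : ∀ (w : F2) (a₁ a₂ : F1), a₁ ∈ Us → a₂ ∈ Us → w - φ a₁ ∈ Va.nonunits →
      w - φ a₂ ∈ Vb.nonunits → Nm w - a₁ * a₂ ^ (q - 1) ∈ Us.nonunits)
    (hinsep : ∀ (w : F2) (a : F1), a ∈ Ui → w ^ q - φ a ∈ Vc.nonunits → Nm w - a ∈ Ui.nonunits) :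
    SplitInsep φ Nm (locMap γ φ hγ 𝔫) q Us Ui Va Vb Vc where
  incl_eq a := algebraMap_locMap γ φ hγ 𝔫 a
  norm_unit b hb := by
    obtain ⟨a, ha, hab⟩ := exists_unit_eq_norm γ φ 𝔫 hint b hb
    exact ⟨a, ha, by rw [hNm]; exact hab⟩
  lift_a b := by
    have h := lift_pow γ φ hγ 𝔫 Va hVa hca 1 (fun r => by simpa using hliftA r) b
    simpa using h
  lift_b b := by
    have h := lift_pow γ φ hγ 𝔫 Vb hVb hcb 1 (fun r => by simpa using hliftB r) b
    simpa using h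
  lift_c b := lift_pow γ φ hγ 𝔫 Vc hVc hcc q hliftC b
  norm_split := hsplit
  norm_insep := hinsep

end Package

/-! ### Chart-level lifts from residue maps -/

section Residue

variable {Λ : Type*} [CommRing Λ] (ΘB : R2 →+* Λ) (ΘA : R1 →+* Λ) (V : ValuationSubring F2)
  (hker : ∀ r : R2, ΘB r = 0 → algebraMap R2 F2 r ∈ V.nonunits)

include hγ hker in
/-- **Residue degree one at chart level**: `Θ_B ∘ γ = Θ_A` and `Θ_B R2 ⊆ Θ_A R1` give the chart-level
lift `r ≡ φ r₁` modulo `𝔪_V` (`ker Θ_B ⊆ 𝔪_V`). -/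
theorem lift_of_residue (hcompat : ∀ r₁ : R1, ΘB (γ r₁) = ΘA r₁)
    (hrange : ∀ r : R2, ∃ r₁ : R1, ΘB r = ΘA r₁) (r : R2) :
    ∃ r₁ : R1, algebraMap R2 F2 r - φ (algebraMap R1 F1 r₁) ∈ V.nonunits := by
  obtain ⟨r₁, hr₁⟩ := hrange r
  refine ⟨r₁, ?_⟩
  rw [← hγ, ← map_sub]
  apply hker
  rw [map_sub, hcompat, hr₁, sub_self]

include hγ hker in
/-- **Purely inseparable residue extension at chart level**: `Θ_B ∘ γ = τ ∘ Θ_A` and
`(Θ_B R2) ^ q ⊆ τ (Θ_A R1)` give the chart-level lift `r ^ q ≡ φ r₁` modulo `𝔪_V`. -/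
theorem lift_of_residue_frob (q : ℕ) (τ : Λ →+* Λ) (hcompat : ∀ r₁ : R1, ΘB (γ r₁) = τ (ΘA r₁))
    (hrange : ∀ r : R2, ∃ r₁ : R1, ΘB r ^ q = τ (ΘA r₁)) (r : R2) :
    ∃ r₁ : R1, algebraMap R2 F2 r ^ q - φ (algebraMap R1 F1 r₁) ∈ V.nonunits := by
  obtain ⟨r₁, hr₁⟩ := hrange r
  refine ⟨r₁, ?_⟩
  rw [← hγ, ← map_pow, ← map_sub]
  apply hker
  rw [map_sub, map_pow, hcompat, hr₁, sub_self]

end Residue

/-! ### `A ⊆ U` -/

section Lower

omit [IsDomain R2] [IsFractionRing R2 F2] in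
/-- `A = locAt 𝔭 ⊆ U` for a valuation ring `U ⊇ R1` of `F1` whose centre on `R1` lies in `𝔭`. -/
theorem mem_of_locAt (𝔭 : Ideal R1) [𝔭.IsPrime] (U : ValuationSubring F1)
    (hU : ∀ r : R1, algebraMap R1 F1 r ∈ U)
    (hc : ∀ r : R1, algebraMap R1 F1 r ∈ U.nonunits → r ∈ 𝔭) (a : ↥(locAt (F := F1) 𝔭)) :
    algebraMap ↥(locAt (F := F1) 𝔭) F1 a ∈ U := by
  obtain ⟨r, s, hs, has⟩ := (mem_locAt_iff 𝔭 (a : F1)).1 a.2
  have hsU : algebraMap R1 F1 s ∈ U := hU s
  have hsnu : algebraMap R1 F1 s ∉ U.nonunits := fun h => hs (hc s h)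
  have hvs : U.valuation (algebraMap R1 F1 s) = 1 := by
    rw [U.mem_nonunits_iff, not_lt] at hsnu
    exact le_antisymm ((U.valuation_le_one_iff _).2 hsU) hsnu
  show (a : F1) ∈ U
  rw [← U.valuation_le_one_iff]
  have h1 := congrArg U.valuation has
  rw [map_mul, hvs, mul_one] at h1
  rw [h1]
  exact (U.valuation_le_one_iff _).2 (hU r)

end Lower

end Fermat.Agent.S36.D.SplitInst
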