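/-
S36 block [I-T], the `α`-side inputs of `R2/TripleFinal` from `T : ThreeVal K M0 q O sv`.

Along `α₂ : F₁ → F₂` the inseparable branch is `V01 = sv.V ← V02` and the split branch is
`V10 = gaussVS K (M0 q) O ← V20 = gaussVS K (M0 q q) O, V11`:

* `hVfin T` : the finite chart of the top level lies in `V20`, `V11`, `V02`;
* `insepData_alpha T : InsepData K M0 q O (alphaF K (M0 q) q) sv.V T.V02 T.ev02`;
* `splitHomData_alpha T : SplitHomData (Rfin K (M0 q q) O) (a2 K M0 q) V10 V20 T.V11`.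
-/
import Mathlib
import Fermat.Agent.S36.R2.TripleFinal
import Fermat.Agent.S36.V.ThreeVal
import Fermat.Agent.S36.One.BranchTopInf02
import Fermat.Agent.S36.C.ThreeValCover

set_option autoImplicit false
set_option linter.unusedSectionVars false
set_option linter.style.haveILetI false

open ModularCurve Fermat.Agent.S28.Gauss Fermat.Agent.N4.Setting Fermat.Agent.N4.FibreEmbedding
open Fermat.Agent.N4.Chart Fermat.Agent.N4F.E.DegreeLevelRaise Fermat.Agent.N4F.E.GaussDVR
open Fermat.Agent.N4F.E IsLocalRing Fermat.Agent.P3G.RbarFin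
open Fermat.Agent.P3G.SecondValuation Fermat.Agent.P3G.LevelIntegrality
open Fermat.Agent.S36.V.ThreeVal
open Fermat.Agent.S36.C.SemiGaussTop Fermat.Agent.S36.C.ThreeValCover
open Fermat.Agent.S36.One.BranchTopInf02
open Fermat.Agent.S36.R2.TripleHom Fermat.Agent.S36.R2.TripleGlue

noncomputable section

namespace Fermat.Agent.S36.D.SplitInstAlpha

variable {K : Type} [Field K] [CharZero K] {M0 q : ℕ} [NeZero M0] [hq : Fact q.Prime]
  {O : Subring K} [IsDiscreteValuationRing ↥O] [IsFractionRing ↥O K]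
  {sv : SecondVal K M0 q O} (T : ThreeVal K M0 q O sv)

/-- `α₂α₁ G₀ ⊆ V11`. -/
theorem phi2_mem_V11 (g : FF K M0) (hg : g ∈ gaussSubalgebra K M0 O) :
    phi2 K M0 q g ∈ T.V11 := by
  have h : alphaF K M0 q g ∈ gaussVS K (M0 * q) O := by
    rw [mem_gaussVS_iff]
    exact alphaF_mem K O M0 q hg
  have h2 : alphaF K M0 q g ∈ T.V11.comap (a2 K M0 q) := by
    rw [T.comap_alpha_V11]
    exact h
  exact ValuationSubring.mem_comap.mp h2

/-- The finite chart of the top level lies in the three valuation rings. -/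
theorem hVfin (i : Fin 3) (r : ↥(Rfin K (M0 * q * q) O)) :
    algebraMap ↥(Rfin K (M0 * q * q) O) (FF K (M0 * q * q)) r ∈ fam3 K M0 q O T.V11 T.V02 i :=
  Rfin_le_of_gauss K M0 q O (fam3 K M0 q O T.V11 T.V02)
    ((forall_fam3 K M0 q O
      (P := fun B => ∀ g ∈ gaussSubalgebra K M0 O, phi2 K M0 q g ∈ B)).2
      ⟨fun g hg => phi2_mem_gaussVS K M0 q O hg,
      fun g hg => phi2_mem_V11 T g hg, fun g hg => phi2_mem_V02 T g hg⟩) i r

/-- `β₂β₁` maps the finite chart of the base level into the finite chart of the top level. -/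
theorem psi2_mem_Rfin (r₀ : ↥(Rfin K M0 O)) :
    psi2 K M0 q (r₀ : FF K M0) ∈ Rfin K (M0 * q * q) O :=
  betaF_mem_Rfin K (M0 * q) q O (betaF_mem_Rfin K M0 q O r₀.2)

/-- **The `α`-side (V)-inputs over the inseparable branch `V01 ← V02`.** -/
theorem insepData_alpha :
    InsepData K M0 q O (alphaF K (M0 * q) q) sv.V T.V02 T.ev02 where
  hup := fun b => hVfin T 2 b
  hcomap := T.comap_alpha_V02
  honly := T.only_alpha_V01
  hram := T.ram_one_V02
  hev := T.ev02_eq_zero_iff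
  hinsep := fun y hy => by
    obtain ⟨a, ha⟩ := T.insep_V02 y hy
    exact ⟨a, a.2, ha⟩
  hD0le := fun r₀ => by
    have hg : (r₀ : FF K M0) ∈ gaussSubalgebra K M0 O :=
      chartAlg_le_gaussSubalgebra K M0 O (sFin_le_gauss K M0 O) r₀.2
    refine ⟨⟨psi2 K M0 q (r₀ : FF K M0), psi2_mem_Rfin r₀⟩, ?_⟩
    rw [thetaFin_apply]
    exact ev02_psi2 T _ hg
  hdeg := fun x => by
    obtain ⟨a, ha⟩ := deg_one_V02_base T (x : FF K (M0 * q * q)) x.2
    refine ⟨a, ?_⟩
    have h0 : T.ev02 (x - ⟨psi2 K M0 q (a : FF K M0), psi2_mem_V02 T _ a.2⟩) = 0 :=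
      (T.ev02_eq_zero_iff _).2 ha
    rw [map_sub, sub_eq_zero] at h0
    rw [h0]
    exact ev02_psi2 T _ a.2

/-- **The `α`-side split data `V10 ← V20, V11`.** -/
theorem splitHomData_alpha :
    SplitHomData ↥(Rfin K (M0 * q * q) O) (a2 K M0 q) (gaussVS K (M0 * q) O)
      (gaussVS K (M0 * q * q) O) T.V11 :=
  splitHomData K M0 q O (alphaF K (M0 * q) q) (fun b => hVfin T 0 b)
    (Fermat.Agent.S36.V.Transport.comap_alpha_V20 K O M0 q)
    (fun y hy => by
      obtain ⟨a, ha⟩ := T.deg_one_V20 y hy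
      exact ⟨a, (mem_gaussVS_iff K (M0 * q) O).2 a.2, ha⟩)
    (fun b => hVfin T 1 b) T.comap_alpha_V11
    (fun y hy => by
      obtain ⟨a, ha⟩ := T.deg_one_V11_alpha y hy
      exact ⟨a, (mem_gaussVS_iff K (M0 * q) O).2 a.2, ha⟩)

end Fermat.Agent.S36.D.SplitInstAlpha
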