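/-
S36 block [D] (norm compatibility of the gluing data), file 3: **making the gluing data trivial**.

At a triple point `x` (branches `V 0 = V20`, `V 1 = V11`, `V 2 = V02`) let `y 0, y 1, y 2` be the branch
representatives of a local root of `h`.  The two cross-ratio relations of `NormGlue.cross_ratio`
(for `α` and for `β`) read, with constants `S, T, S', T'` (units) and `p = q - 1`:

  (α)  `T * y 0 * y 1 ^ p ≡ S * y 2 ^ (p + 1)`,      (β)  `S' * y 2 * y 1 ^ p ≡ T' * y 0 ^ (p + 1)`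

modulo `𝔪_B`.  Then, with `m = p (p + 2) = q² - 1`,

  `(T T') ^ p * y 0 ^ m ≡ (S S') ^ p * y 2 ^ m`,   `T ^ (p + 1) * S' * y 1 ^ m ≡ S ^ (p + 1) * T' * y 2 ^ m`,

i.e. the gluing datum of `h ^ m` is the CONSTANT `(A0, B0, 1)`,
`A0 = (S S' / (T T')) ^ p`, `B0 = S ^ (p + 1) T' / (T ^ (p + 1) S')`.  Dividing by `cg ^ e`, where
`cg ≡ A0, B0, 1` on `V 0, V 1, V 2`, makes it trivial: `exists_tau_triple`.
-/
import Mathlib
import Fermat.Agent.S36.D.RootData

set_option autoImplicit false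

namespace Fermat.Agent.S36.D.Trivialise

open Fermat.Agent.S36.Local.LocalRoot Fermat.Agent.S36.Local.Glue Fermat.Agent.S36.D.RootData
  IsLocalRing

/-- The arithmetic in the residue field. -/
theorem arith {κ : Type*} [Field κ] {p : ℕ} {a b c s t s' t' : κ} (hs : s ≠ 0) (hc : c ≠ 0)
    (hα : t * a * b ^ p = s * c ^ (p + 1)) (hβ : s' * c * b ^ p = t' * a ^ (p + 1)) :
    (t * t') ^ p * a ^ (p * (p + 2)) = (s * s') ^ p * c ^ (p * (p + 2)) ∧
      t ^ (p + 1) * s' * b ^ (p * (p + 2)) = s ^ (p + 1) * t' * c ^ (p * (p + 2)) := by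
  have h1 : s * s' * c ^ (p + 2) = t * t' * a ^ (p + 2) := by
    linear_combination (-(s' * c)) * hα + (t * a) * hβ
  constructor
  · have h2 := congrArg (· ^ p) h1
    simp only [mul_pow, ← pow_mul] at h2
    rw [mul_pow, mul_pow, mul_comm p (p + 2)]
    exact h2.symm
  · have h3 := congrArg (· ^ (p + 2)) hα
    simp only [mul_pow, ← pow_mul] at h3
    -- `t^(p+2) a^(p+2) b^(p(p+2)) = s^(p+2) c^((p+1)(p+2))`
    have h4 : (s * c ^ (p + 2)) * (t ^ (p + 1) * s' * b ^ (p * (p + 2))) =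
        (s * c ^ (p + 2)) * (s ^ (p + 1) * t' * c ^ (p * (p + 2))) := by
      have e1 : c ^ ((p + 1) * (p + 2)) = c ^ (p * (p + 2)) * c ^ (p + 2) := by
        rw [← pow_add]; congr 1; ring
      rw [e1] at h3
      linear_combination (t ^ (p + 1) * b ^ (p * (p + 2))) * h1 + t' * h3
    exact mul_left_cancel₀ (mul_ne_zero hs (pow_ne_zero _ hc)) h4

theorem eq_mul_inv_mul_of_mul_eq {κ : Type*} [Field κ] {D N X Y : κ} (hD : D ≠ 0)
    (h : D * X = N * Y) : X = N * D⁻¹ * Y := by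
  field_simp
  linear_combination h

variable {B F : Type*} [CommRing B] [IsLocalRing B] [Field F] [Algebra B F]

/-- The constant `A0 = (S S' / (T T')) ^ p`. -/
def constA (p : ℕ) (S T S' T' : Bˣ) : Bˣ := (S * S') ^ p * ((T * T') ^ p)⁻¹

/-- The constant `B0 = S ^ (p + 1) T' / (T ^ (p + 1) S')`. -/
def constB (p : ℕ) (S T S' T' : Bˣ) : Bˣ := S ^ (p + 1) * T' * (T ^ (p + 1) * S')⁻¹

/-- The constant gluing datum `(A0, B0, 1)`. -/
def constXi (p : ℕ) (S T S' T' : Bˣ) : Fin 3 → Bˣ := ![constA p S T S' T', constB p S T S' T', 1]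

/-- **The gluing datum of `h ^ (q² - 1)` is constant.** -/
theorem pow_sub_const_mem {p : ℕ} {y0 y1 y2 : B} (hy2 : IsUnit y2) (S T S' T' : Bˣ)
    (hα : (T : B) * y0 * y1 ^ p - (S : B) * y2 ^ (p + 1) ∈ maximalIdeal B)
    (hβ : (S' : B) * y2 * y1 ^ p - (T' : B) * y0 ^ (p + 1) ∈ maximalIdeal B) :
    y0 ^ (p * (p + 2)) - (constA p S T S' T' : B) * y2 ^ (p * (p + 2)) ∈ maximalIdeal B ∧
      y1 ^ (p * (p + 2)) - (constB p S T S' T' : B) * y2 ^ (p * (p + 2)) ∈ maximalIdeal B := by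
  set r := IsLocalRing.residue B with hr
  have hr0 : ∀ x : B, x ∈ maximalIdeal B ↔ r x = 0 := fun x =>
    (IsLocalRing.residue_eq_zero_iff x).symm
  have hunit : ∀ u : Bˣ, r (u : B) ≠ 0 := fun u h0 =>
    ((mem_maximalIdeal _).1 ((hr0 _).2 h0)) u.isUnit
  have hinv : ∀ u : Bˣ, r ((u⁻¹ : Bˣ) : B) = (r (u : B))⁻¹ := fun u => by
    have h1 : r (u : B) * r ((u⁻¹ : Bˣ) : B) = 1 := by
      rw [← map_mul, Units.mul_inv, map_one]
    exact eq_inv_of_mul_eq_one_right h1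
  rw [hr0] at hα hβ
  simp only [map_sub, map_mul, map_pow, sub_eq_zero] at hα hβ
  have hc : r y2 ≠ 0 := fun h0 => ((mem_maximalIdeal _).1 ((hr0 _).2 h0)) hy2
  obtain ⟨h1, h2⟩ := arith (hunit S) hc hα hβ
  have hTT : (r (T : B) * r (T' : B)) ^ p ≠ 0 := pow_ne_zero _ (mul_ne_zero (hunit T) (hunit T'))
  have hTS : r (T : B) ^ (p + 1) * r (S' : B) ≠ 0 :=
    mul_ne_zero (pow_ne_zero _ (hunit T)) (hunit S')
  constructor
  · rw [hr0, map_sub, map_mul, map_pow, map_pow, sub_eq_zero, constA, Units.val_mul, map_mul,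
      hinv, Units.val_pow_eq_pow_val, Units.val_pow_eq_pow_val, Units.val_mul, Units.val_mul,
      map_pow, map_pow, map_mul, map_mul]
    exact eq_mul_inv_mul_of_mul_eq hTT h1
  · rw [hr0, map_sub, map_mul, map_pow, map_pow, sub_eq_zero, constB, Units.val_mul, map_mul,
      hinv, Units.val_mul, Units.val_mul, Units.val_pow_eq_pow_val, Units.val_pow_eq_pow_val,
      map_mul, map_mul, map_pow, map_pow]
    exact eq_mul_inv_mul_of_mul_eq hTS h2

/-- **Local roots at a triple point after trivialising the gluing datum.** -/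
theorem exists_tau_triple (V : Fin 3 → ValuationSubring F)
    (hV : ∀ i (b : B), algebraMap B F b ∈ V i)
    {N : ℕ} (hN : maximalIdeal B ^ N ≤ ⨆ i, others (fun i => centre (V i) (hV i)) i)
    {e : ℕ} (he : IsUnit ((e : ℕ) : B)) {h : F} (D : RootDatum B V e h)
    (hf1 : ∀ i, h - 1 ∈ (V i).nonunits) {p : ℕ} (S T S' T' : Bˣ)
    (hα : (T : B) * D.y 0 * D.y 1 ^ p - (S : B) * D.y 2 ^ (p + 1) ∈ maximalIdeal B)
    (hβ : (S' : B) * D.y 2 * D.y 1 ^ p - (T' : B) * D.y 0 ^ (p + 1) ∈ maximalIdeal B)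
    (cg : F) (hcg : ∀ i, cg - algebraMap B F (constXi p S T S' T' i : B) ∈ (V i).nonunits)
    (hh2 : ∀ i, h ^ (p * (p + 2)) / cg ^ e - 1 ∈ (V i).nonunits) :
    ∃ (τ : F) (u' : B), τ ≠ 0 ∧ IsUnit u' ∧
      h ^ (p * (p + 2)) / cg ^ e = algebraMap B F u' * τ ^ e ∧ ∀ i, τ - 1 ∈ (V i).nonunits := by
  have he0 : e ≠ 0 := by
    rintro rfl
    rw [Nat.cast_zero] at he
    exact not_isUnit_zero he
  set m := p * (p + 2) with hm
  have hy2 : IsUnit (D.y 2) := D.isUnit_y hV he0 2 (hf1 2)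
  obtain ⟨hA, hB⟩ := pow_sub_const_mem hy2 S T S' T' hα hβ
  set D2 := (D.pow hV m).divConst hV cg (constXi p S T S' T') hcg with hD2
  refine D2.exists_tau hV hN he hh2 ?_
  -- all representatives are congruent to `y 2 ^ m`
  have key : ∀ i, D2.y i - D.y 2 ^ m ∈ maximalIdeal B := by
    intro i
    fin_cases i
    · show D.y 0 ^ m * (((constA p S T S' T')⁻¹ : Bˣ) : B) - D.y 2 ^ m ∈ maximalIdeal B
      have : D.y 0 ^ m * (((constA p S T S' T')⁻¹ : Bˣ) : B) - D.y 2 ^ m =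
          (((constA p S T S' T')⁻¹ : Bˣ) : B) *
            (D.y 0 ^ m - (constA p S T S' T' : B) * D.y 2 ^ m) := by
        have h1 : (((constA p S T S' T')⁻¹ : Bˣ) : B) * (constA p S T S' T' : B) = 1 :=
          Units.inv_mul _
        linear_combination (D.y 2 ^ m) * h1
      rw [this]
      exact Ideal.mul_mem_left _ _ hA
    · show D.y 1 ^ m * (((constB p S T S' T')⁻¹ : Bˣ) : B) - D.y 2 ^ m ∈ maximalIdeal B
      have : D.y 1 ^ m * (((constB p S T S' T')⁻¹ : Bˣ) : B) - D.y 2 ^ m =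
          (((constB p S T S' T')⁻¹ : Bˣ) : B) *
            (D.y 1 ^ m - (constB p S T S' T' : B) * D.y 2 ^ m) := by
        have h1 : (((constB p S T S' T')⁻¹ : Bˣ) : B) * (constB p S T S' T' : B) = 1 :=
          Units.inv_mul _
        linear_combination (D.y 2 ^ m) * h1
      rw [this]
      exact Ideal.mul_mem_left _ _ hB
    · show D.y 2 ^ m * (((1 : Bˣ)⁻¹ : Bˣ) : B) - D.y 2 ^ m ∈ maximalIdeal B
      rw [inv_one, Units.val_one, mul_one, sub_self]
      exact zero_mem _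
  intro i j
  have : D2.y i - D2.y j = (D2.y i - D.y 2 ^ m) - (D2.y j - D.y 2 ^ m) := by ring
  rw [this]
  exact sub_mem (key i) (key j)

end Fermat.Agent.S36.D.Trivialise
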